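import Mathlib.RingTheory.DiscreteValuationRing.Basic
import Mathlib.RingTheory.Localization.FractionRing
import Mathlib.RingTheory.Localization.Integer
import Mathlib.LinearAlgebra.Matrix.ToLin
import Mathlib.LinearAlgebra.FreeModule.PID
import Mathlib.RingTheory.Filtration
import Mathlib.LinearAlgebra.Matrix.Basis
import Mathlib.LinearAlgebra.Dimension.Localization

/-!
Common denominators and stable lattices over a discrete valuation ring.
-/

set_option autoImplicit false

noncomputable section

namespace FermatAgent.GalRep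

open Matrix

variable {R : Type*} [CommRing R] [IsDomain R] {K : Type*} [Field K] [Algebra R K]
  [IsFractionRing R K]

/-- A linear map has bounded denominators on integral matrices. -/
theorem exists_den {m n : Type*} [Fintype m] [Fintype n] [DecidableEq m] [DecidableEq n]
    {E : Type*} [AddCommGroup E] [Module K E] {ι : Type*} [Finite ι] (L : Matrix m n K →ₗ[K] E)
    (f : ι → E →ₗ[K] K) :
    ∃ b : R, b ≠ 0 ∧ ∀ (M : Matrix m n R) (i : ι), ∃ z : R,
      algebraMap R K z = algebraMap R K b * f i (L (M.map (algebraMap R K))) := by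
  classical
  cases nonempty_fintype ι
  obtain ⟨b, hb⟩ := IsLocalization.exist_integer_multiples (nonZeroDivisors R)
    (Finset.univ : Finset (ι × m × n))
    (fun x => f x.1 (L (Matrix.single x.2.1 x.2.2 1)))
  refine ⟨b, nonZeroDivisors.coe_ne_zero b, fun M i => ?_⟩
  choose z hz using fun (j : m) (k : n) => hb (i, j, k) (Finset.mem_univ _)
  refine ⟨∑ j, ∑ k, M j k * z j k, ?_⟩
  conv_rhs => rw [Matrix.matrix_eq_sum_single (M.map (algebraMap R K))]
  simp only [map_sum, Finset.mul_sum, map_mul]
  refine Finset.sum_congr rfl fun j _ => Finset.sum_congr rfl fun k _ => ?_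
  rw [show Matrix.single j k (M.map (algebraMap R K) j k) =
    algebraMap R K (M j k) • Matrix.single j k (1 : K) by
      rw [Matrix.smul_single, smul_eq_mul, mul_one, Matrix.map_apply],
    map_smul, map_smul, hz j k, Algebra.smul_def, smul_eq_mul]
  ring

variable [IsDiscreteValuationRing R]

/-- Every nonzero element divides a power of any nonzero element of the maximal ideal. -/
theorem exists_dvd_pow {x b : R} (hx : x ∈ IsLocalRing.maximalIdeal R) (hb : b ≠ 0) :
    ∃ v : ℕ, b ∣ x ^ v := by
  obtain ⟨π, hπ⟩ := IsDiscreteValuationRing.exists_irreducible R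
  obtain ⟨v, hv⟩ := IsDiscreteValuationRing.associated_pow_irreducible hb hπ
  refine ⟨v, hv.dvd.trans (pow_dvd_pow_of_dvd ?_ v)⟩
  rw [hπ.maximalIdeal_eq] at hx
  exact Ideal.mem_span_singleton.mp hx

/-- A set of matrices with bounded denominators, closed under multiplication and containing the
identity, is integral in a suitable basis. -/
theorem exists_integral_conj {G : Type*} [Monoid G] (r : G →* Matrix (Fin 2) (Fin 2) K) {b : R}
    (hb : b ≠ 0) (hr : ∀ g i j, ∃ z : R, algebraMap R K z = algebraMap R K b * r g i j) :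
    ∃ P Q : Matrix (Fin 2) (Fin 2) K, P * Q = 1 ∧ Q * P = 1 ∧
      ∀ g i j, (Q * r g * P) i j ∈ Set.range (algebraMap R K) := by
  let L : Submodule R (Fin 2 → K) :=
    Submodule.span R (Set.range fun x : G × Fin 2 => r x.1 *ᵥ Pi.single x.2 1)
  let bK := algebraMap R K b
  have hbK : bK ≠ 0 := (map_ne_zero_iff _ (IsFractionRing.injective R K)).mpr hb
  let B : Submodule R (Fin 2 → K) :=
    Submodule.span R (Set.range fun i => bK⁻¹ • (Pi.single i 1 : Fin 2 → K))
  have hLB : L ≤ B := by
    rw [Submodule.span_le]
    rintro _ ⟨⟨g, j⟩, rfl⟩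
    choose z hz using fun i => hr g i j
    have h : r g *ᵥ Pi.single j 1 = ∑ i, z i • (bK⁻¹ • (Pi.single i 1 : Fin 2 → K)) := by
      funext k
      have h1 : r g k j = algebraMap R K (z k) * bK⁻¹ := by
        rw [hz, mul_comm, ← mul_assoc, inv_mul_cancel₀ hbK, one_mul]
      fin_cases k <;>
        simp [Algebra.smul_def, Pi.single_apply] <;> exact h1
    show r g *ᵥ Pi.single j 1 ∈ B
    rw [h]
    exact Submodule.sum_mem _ fun i _ => Submodule.smul_mem _ _ (Submodule.subset_span ⟨i, rfl⟩)
  have : IsNoetherian R B := isNoetherian_of_fg_of_noetherian B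
    (Submodule.fg_span (Set.finite_range _))
  have hLfg : L.FG := by
    rw [← Submodule.map_subtype_top L]
    have : IsNoetherian R L := isNoetherian_of_le hLB
    exact (IsNoetherian.noetherian _).map _
  have : Module.Finite R L := Module.Finite.iff_fg.mpr hLfg
  have : Module.IsTorsionFree R (Fin 2 → K) := inferInstance
  have : Module.Free R L := Module.free_of_finite_type_torsion_free'
  have hspanK : Submodule.span K (L : Set (Fin 2 → K)) = ⊤ := by
    rw [eq_top_iff, ← (Pi.basisFun K (Fin 2)).span_eq, Submodule.span_le]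
    rintro _ ⟨i, rfl⟩
    refine Submodule.subset_span ?_
    have h : (Pi.basisFun K (Fin 2)) i = r 1 *ᵥ Pi.single i 1 := by
      rw [map_one, Matrix.one_mulVec, Pi.basisFun_apply]
    rw [h]
    exact Submodule.subset_span ⟨(1, i), rfl⟩
  let bL := Module.Free.chooseBasis R L
  let v : Module.Free.ChooseBasisIndex R L → (Fin 2 → K) := fun i => (bL i : Fin 2 → K)
  have hli : LinearIndependent K v := by
    rw [← LinearIndependent.iff_fractionRing R K]
    exact bL.linearIndependent.map' L.subtype L.ker_subtype
  have hsp : ⊤ ≤ Submodule.span K (Set.range v) := by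
    rw [← hspanK, Submodule.span_le]
    intro x hx
    have h : (⟨x, hx⟩ : L) ∈ Submodule.span R (Set.range bL) := bL.mem_span _
    have h2 := Submodule.mem_map_of_mem (f := L.subtype) h
    rw [Submodule.map_span, ← Set.range_comp] at h2
    exact Submodule.span_le_restrictScalars R K _ h2
  let bK' := Module.Basis.mk hli hsp
  have hcard : Fintype.card (Module.Free.ChooseBasisIndex R L) = Fintype.card (Fin 2) := by
    rw [← Module.finrank_eq_card_basis bK', ← Module.finrank_eq_card_basis (Pi.basisFun K (Fin 2))]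
  let e := Fintype.equivOfCardEq hcard
  let b2 := bK'.reindex e
  refine ⟨(Pi.basisFun K (Fin 2)).toMatrix b2, b2.toMatrix (Pi.basisFun K (Fin 2)),
    Module.Basis.toMatrix_mul_toMatrix_flip _ _, Module.Basis.toMatrix_mul_toMatrix_flip _ _,
    fun g i j => ?_⟩
  have hmem : r g *ᵥ b2 j ∈ L := by
    have hj : b2 j ∈ L := by
      simp only [b2, bK', Module.Basis.reindex_apply, Module.Basis.mk_apply, v]
      exact (bL _).2
    revert hj
    generalize b2 j = x
    intro hj
    induction hj using Submodule.span_induction with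
    | mem x hx =>
      obtain ⟨⟨g', k⟩, rfl⟩ := hx
      rw [Matrix.mulVec_mulVec, ← map_mul]
      exact Submodule.subset_span ⟨(g * g', k), rfl⟩
    | zero => simp
    | add x y _ _ hx hy => rw [Matrix.mulVec_add]; exact L.add_mem hx hy
    | smul c x _ hx => rw [Matrix.mulVec_smul]; exact L.smul_mem c hx
  refine ⟨bL.repr ⟨r g *ᵥ b2 j, hmem⟩ (e.symm i), ?_⟩
  have h1 := Module.Basis.sum_repr bL ⟨r g *ᵥ b2 j, hmem⟩
  have h2 := congrArg (fun x : L => b2.repr (x : Fin 2 → K) i) h1
  simp only [Submodule.coe_sum, Submodule.coe_smul, map_sum, Finsupp.coe_finsetSum,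
    Finset.sum_apply] at h2
  have h3 : b2.repr (r g *ᵥ b2 j) i =
      (b2.toMatrix (Pi.basisFun K (Fin 2)) * r g *
        (Pi.basisFun K (Fin 2)).toMatrix b2) i j := by
    have hT : r g = LinearMap.toMatrix (Pi.basisFun K (Fin 2)) (Pi.basisFun K (Fin 2))
        (Matrix.toLin' (r g)) := by
      rw [LinearMap.toMatrix_eq_toMatrix', LinearMap.toMatrix'_toLin']
    conv_rhs => rw [hT, basis_toMatrix_mul_linearMap_toMatrix_mul_basis_toMatrix]
    rw [LinearMap.toMatrix_apply, Matrix.toLin'_apply]
  rw [← h3, ← h2, Finset.sum_eq_single (e.symm i)]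
  · rw [← algebraMap_smul K, map_smul, show (bL (e.symm i) : Fin 2 → K) = b2 i by
      simp [b2, bK', v]]
    simp [Algebra.smul_def]
  · intro k _ hk
    rw [← algebraMap_smul K, map_smul, show (bL k : Fin 2 → K) = b2 (e k) by simp [b2, bK', v]]
    simp [show e k ≠ i from fun h => hk (by rw [← h, Equiv.symm_apply_apply])]
  · simp

end FermatAgent.GalRep
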