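import Fermat.Agent.GalRep.Construct.EigenSpace
import Fermat.Prelude.Def_GaloisRep_Residual

/-!
Mod `p` representations attached to characters of the Hecke algebra with values in a finite field.
-/

set_option autoImplicit false

noncomputable section

namespace FermatAgent.GalRep

open CuspForm Matrix Polynomial

local notation "Qb" => AlgebraicClosure ℚ
local notation "GQ" => AlgebraicClosure ℚ ≃ₐ[ℚ] AlgebraicClosure ℚ

variable {p : ℕ} [Fact p.Prime] {N : ℕ} [NeZero N] {S : Set ℕ} (D : HeckeTateData N p S)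

theorem toLin'_charpoly_fin_two {R : Type*} [CommRing R] [Nontrivial R]
    (M : Matrix (Fin 2) (Fin 2) R) :
    LinearMap.charpoly (Matrix.toLinAlgEquiv' M) =
      Polynomial.X ^ 2 - Polynomial.C M.trace * Polynomial.X + Polynomial.C M.det := by
  show LinearMap.charpoly (Matrix.toLin' M) = _
  rw [Matrix.charpoly_toLin', Matrix.charpoly_fin_two]

include D in
/-- **Mod `p` representations.** For a character `χ` of the Hecke algebra with values in a finite
field of characteristic `p` there is a representation with the predicted Frobenius characteristic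
polynomials, unramified outside `Np`. -/
theorem exists_residualGaloisRep (hd : FrobDense) (hSfin : S.Finite) {K : Type} [Field K]
    [Finite K] [CharP K p] (χ : heckeAlgebra N 2 S →+* K) :
    ∃ ρ : ResidualGaloisRep K,
      (∀ (ℓ : ℕ) (hℓ : ℓ.Prime) (hℓN : ¬ ℓ ∣ N) (hℓS : ℓ ∉ S), ℓ ≠ p →
        ∀ A : ValuationSubring Qb, A.LiesOverPrime ℓ → ∀ τ : GQ, A.IsFrobeniusAt τ ℓ →
          LinearMap.charpoly (ρ.ρ τ) =
            X ^ 2 - C (χ (heckeAlgebra.T hℓ hℓN hℓS)) * X + C ((ℓ : K))) ∧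
      (∀ q : ℕ, q.Prime → ¬ q ∣ N * p → ρ.IsUnramifiedAt q) := by
  let ψ : ℤ_[p] →+* K := (ZMod.castHom dvd_rfl K).comp PadicInt.toZMod
  have hψp : ψ (p : ℤ_[p]) = 0 := by rw [map_natCast]; exact CharP.cast_eq_zero K p
  have hcongr : ∀ {r : ℕ} (A B : Matrix (Fin r) (Fin r) ℤ_[p]),
      (∀ i j, (p : ℤ_[p]) ^ 1 ∣ (A - B) i j) → ψ.mapMatrix A = ψ.mapMatrix B := fun A B h => by
    ext i j
    obtain ⟨c, hc⟩ := h i j
    rw [pow_one, Matrix.sub_apply] at hc
    simp only [RingHom.mapMatrix_apply, Matrix.map_apply]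
    rw [← sub_eq_zero, ← map_sub, hc, map_mul, hψp, zero_mul]
  obtain ⟨d, hd0, ρW, Φ, hρ, hΦ⟩ := exists_eigen_rep D ψ χ
  choose t ht using fun σ => exists_hecke_approx D hd hSfin σ 1
  have hs : ∀ σ, Φ (ψ.mapMatrix (xMat D σ)) = χ (t σ) • 1 := fun σ => by
    rw [hcongr _ _ (ht σ)]; exact hΦ (t σ)
  let ω : GQ →* K := ψ.toMonoidHom.comp (cycChar p)
  obtain ⟨r, Ψ, hr⟩ := exists_two_dim ρW ω (fun σ => χ (t σ))
    (eigen_rep_quadratic D ψ ρW Φ hρ _ hs) (Or.inl inferInstance)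
  -- two elements with the same `ρ` and `X` modulo `p` have the same image
  have hfac : ∀ σ σ' : GQ, ψ.mapMatrix (D.ρ σ) = ψ.mapMatrix (D.ρ σ') →
      ψ.mapMatrix (xMat D σ) = ψ.mapMatrix (xMat D σ') → r σ = r σ' := fun σ σ' h h' => by
    have h1 : ρW σ = ρW σ' := by rw [hρ, hρ, h]
    have h2 : χ (t σ) = χ (t σ') := by
      have h3 : χ (t σ) • (1 : Matrix (Fin d) (Fin d) K) = χ (t σ') • 1 := by
        rw [← hs, ← hs, h']
      simpa using congrFun (congrFun h3 0) 0
    rw [(hr σ).1, (hr σ').1, h1, h2]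
  have hlevel : ∃ L : IntermediateField ℚ Qb, FiniteDimensional ℚ L ∧
      ∀ σ : GQ, (∀ x ∈ L, σ x = x) → r σ = 1 := by
    obtain ⟨U, hU, hUc⟩ := exists_level_xMat D 1
    obtain ⟨L, hL, hLc⟩ := D.continuous 1
    refine ⟨U ⊔ L, IntermediateField.finiteDimensional_sup U L, fun σ hσ => ?_⟩
    rw [← map_one r]
    refine hfac σ 1 (hcongr _ _ ?_) (hcongr _ _ ?_)
    · rw [map_one]; exact hLc σ fun a ha => hσ a (le_sup_right (a := U) ha)
    · exact hUc σ 1 fun a ha => by simpa using hσ a (le_sup_left (b := L) ha)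
  let ρ : ResidualGaloisRep K :=
    { V := Fin 2 → K
      finrank_eq := by simp
      ρ := ((Matrix.toLinAlgEquiv' (R := K) (n := Fin 2) : _ ≃* _).toMonoidHom).comp r
      factorsThroughFiniteLevel := by
        obtain ⟨L, hL, h1⟩ := hlevel
        exact ⟨L, hL, fun σ hσ => by
          show Matrix.toLinAlgEquiv' (r σ) = 1
          rw [h1 σ hσ, map_one]⟩ }
  refine ⟨ρ, fun ℓ hℓ hℓN hℓS hℓp A hA τ hτ => ?_, fun q hq hqNp A hA σ hσ => ?_⟩
  · show LinearMap.charpoly (Matrix.toLinAlgEquiv' (r τ)) = _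
    rw [toLin'_charpoly_fin_two, (hr τ).2.1, (hr τ).2.2]
    have h1 := xMat_frobenius_pow D hℓ hℓN hℓS hℓp hA hτ 1
    rw [pow_one, powTrace] at h1
    have h2 : χ (t τ) = χ (heckeAlgebra.T hℓ hℓN hℓS) := by
      have h3 : χ (t τ) • (1 : Matrix (Fin d) (Fin d) K) =
          χ (heckeAlgebra.T hℓ hℓN hℓS) • 1 := by
        rw [← hs, h1, hΦ]
      simpa using congrFun (congrFun h3 0) 0
    have h4 : ω τ = (ℓ : K) := by
      show ψ (cycChar p τ) = _
      rw [cycChar_frobenius p hℓ hℓp hA hτ, map_natCast]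
    rw [h2, h4]
  · show Matrix.toLinAlgEquiv' (r σ) = 1
    have h1 : r σ = r 1 := hfac σ 1 (by rw [D.unramified q hq hqNp A hA σ hσ, map_one D.ρ])
      (by rw [← mul_one σ, xMat_mul_inertia D hq hqNp hA hσ 1])
    rw [h1, map_one, map_one]

end FermatAgent.GalRep
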