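import Fermat.Agent.GalRep.Construct.EigenSpace
import Fermat.Agent.GalRep.Construct.Lattice
import Fermat.Agent.GalRep.Construct.Residual
import Fermat.Prelude.Def_GaloisRep_Adic

/-!
`p`-adic representations attached to characters of the Hecke algebra with values in a complete
discrete valuation ring of characteristic zero.
-/

set_option autoImplicit false

noncomputable section

namespace FermatAgent.GalRep

open CuspForm Matrix Polynomial IsLocalRing

local notation "Qb" => AlgebraicClosure ℚ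
local notation "GQ" => AlgebraicClosure ℚ ≃ₐ[ℚ] AlgebraicClosure ℚ

variable {p : ℕ} [Fact p.Prime] {N : ℕ} [NeZero N] {S : Set ℕ} (D : HeckeTateData N p S)
  {R : Type} [CommRing R] [IsDomain R] [IsDiscreteValuationRing R]
  [IsAdicComplete (IsLocalRing.maximalIdeal R) R] [CharZero R]

omit [CharZero R] in
include D in
/-- The trace function attached to a character of the Hecke algebra: it is congruent to the value
of the character at any approximating Hecke element. -/
theorem exists_eigen_trace (hd : FrobDense) (hSfin : S.Finite)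
    (hp : (p : R) ∈ IsLocalRing.maximalIdeal R) (χ : heckeAlgebra N 2 S →+* R) :
    ∃ (d : ℕ) (_ : NeZero d) (ρW : GQ →* Matrix (Fin d) (Fin d) (FractionRing R))
      (Φ : Matrix (Fin D.rank) (Fin D.rank) (FractionRing R) →ₗ[FractionRing R]
        Matrix (Fin d) (Fin d) (FractionRing R)) (s : GQ → R),
      (∀ σ, ρW σ = Φ (((algebraMap R (FractionRing R)).comp (padicToRing hp)).mapMatrix (D.ρ σ))) ∧
      (∀ σ, Φ (((algebraMap R (FractionRing R)).comp (padicToRing hp)).mapMatrix (xMat D σ)) =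
        algebraMap R (FractionRing R) (s σ) • 1) ∧
      (∀ t, Φ (((algebraMap R (FractionRing R)).comp (padicToRing hp)).mapMatrix (hecMat D t)) =
        algebraMap R (FractionRing R) (χ t) • 1) := by
  let K := FractionRing R
  let ι := algebraMap R K
  have hι : Function.Injective ι := IsFractionRing.injective R K
  let ψ : ℤ_[p] →+* K := ι.comp (padicToRing hp)
  obtain ⟨d, hd0, ρW, Φ, hρ, hΦ⟩ := exists_eigen_rep D ψ (ι.comp χ)
  obtain ⟨b, hb, hbden⟩ := exists_den (R := R) Φ
    (fun x : Fin d × Fin d => Matrix.entryLinearMap K K x.1 x.2)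
  obtain ⟨v, hv⟩ := exists_dvd_pow hp hb
  have hpow : ∀ n, (p : R) ^ n ∈ IsLocalRing.maximalIdeal R ^ n := fun n =>
    Ideal.pow_mem_pow hp n
  -- approximation of `Φ (X σ)` by scalars
  have happrox : ∀ σ n, ∃ t : heckeAlgebra N 2 S, ∃ z : Fin d → Fin d → R, ∀ i j,
      ι b * (Φ (ψ.mapMatrix (xMat D σ)) i j - (ι (χ t) • (1 : Matrix (Fin d) (Fin d) K)) i j) =
        ι ((p : R) ^ n * z i j) := by
    intro σ n
    obtain ⟨t, ht⟩ := exists_hecke_approx D hd hSfin σ n
    choose y hy using ht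
    choose z hz using fun i j => hbden (Matrix.of fun k l => padicToRing hp (y k l)) (i, j)
    refine ⟨t, z, fun i j => ?_⟩
    have hM : ψ.mapMatrix (xMat D σ) - ψ.mapMatrix (hecMat D t) =
        ι ((p : R) ^ n) • (Matrix.of fun k l => padicToRing hp (y k l)).map ι := by
      ext k l
      have := congrArg ψ (hy k l)
      simpa [ψ, Matrix.sub_apply] using this
    rw [← Matrix.sub_apply, ← RingHom.comp_apply ι χ, ← hΦ t, ← map_sub, hM, map_smul,
      Matrix.smul_apply, smul_eq_mul, map_mul ι, hz i j]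
    simp only [Matrix.entryLinearMap_apply]
    ring
  choose t z hz using happrox
  -- `Φ (X σ)` is an integral scalar
  have hscal : ∀ σ, ∃ s : R, Φ (ψ.mapMatrix (xMat D σ)) = ι s • 1 := by
    intro σ
    obtain ⟨c, hc⟩ := hv
    have h00 : Φ (ψ.mapMatrix (xMat D σ)) 0 0 = ι (χ (t σ v) + c * z σ v 0 0) := by
      have h := hz σ v 0 0
      rw [hc, mul_assoc, map_mul ι b] at h
      have hb' : ι b ≠ 0 := (map_ne_zero_iff ι hι).mpr hb
      rw [Matrix.smul_apply, Matrix.one_apply_eq, smul_eq_mul, mul_one] at h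
      have h' := mul_left_cancel₀ hb' h
      rw [map_add]
      linear_combination h'
    refine ⟨χ (t σ v) + c * z σ v 0 0, Matrix.ext fun i j => ?_⟩
    rw [Matrix.smul_apply, smul_eq_mul]
    rcases eq_or_ne i j with rfl | hij
    · rw [Matrix.one_apply_eq, mul_one, ← h00]
      have hb' : ι b ≠ 0 := (map_ne_zero_iff ι hι).mpr hb
      refine sub_eq_zero.mp ((mul_eq_zero.mp ?_).resolve_left hb')
      have key : ∀ n, ι b * (Φ (ψ.mapMatrix (xMat D σ)) i i - Φ (ψ.mapMatrix (xMat D σ)) 0 0) =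
          ι ((p : R) ^ n * (z σ n i i - z σ n 0 0)) := fun n => by
        rw [mul_sub ((p : R) ^ n), map_sub, ← hz, ← hz]
        simp only [Matrix.smul_apply, Matrix.one_apply_eq]
        ring
      rw [key 0]
      have h0 : (p : R) ^ 0 * (z σ 0 i i - z σ 0 0 0) = 0 := eq_of_forall_sub_mem_pow fun n => by
        rw [sub_zero, hι ((key 0).symm.trans (key n))]
        exact Ideal.mul_mem_right _ _ (hpow n)
      rw [h0, map_zero]
    · rw [Matrix.one_apply_ne hij, mul_zero]
      have hb' : ι b ≠ 0 := (map_ne_zero_iff ι hι).mpr hb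
      refine (mul_eq_zero.mp ?_).resolve_left hb'
      have key : ∀ n, ι b * Φ (ψ.mapMatrix (xMat D σ)) i j = ι ((p : R) ^ n * z σ n i j) :=
        fun n => by
          rw [← hz]; simp [Matrix.one_apply_ne hij]
      rw [key 0]
      have h0 : (p : R) ^ 0 * z σ 0 i j = 0 := eq_of_forall_sub_mem_pow fun n => by
        rw [sub_zero, hι ((key 0).symm.trans (key n))]
        exact Ideal.mul_mem_right _ _ (hpow n)
      rw [h0, map_zero]
  choose s hs using hscal
  exact ⟨d, hd0, ρW, Φ, s, hρ, hs, hΦ⟩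

include D in
/-- **`p`-adic representations.** For a character `χ` of the Hecke algebra with values in a
complete discrete valuation ring `R` of characteristic zero with `p` in its maximal ideal there is
a representation over `R` with the predicted Frobenius characteristic polynomials, cyclotomic
determinant, unramified outside `Np`, and an `R`-bilinear dependence on the Tate module. -/
theorem exists_galoisRepAdic (hd : FrobDense) (hSfin : S.Finite)
    (hp : (p : R) ∈ IsLocalRing.maximalIdeal R) (χ : heckeAlgebra N 2 S →+* R) :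
    ∃ ρ : GaloisRepAdic R,
      (∀ (ℓ : ℕ) (hℓ : ℓ.Prime) (hℓN : ¬ ℓ ∣ N) (hℓS : ℓ ∉ S), ℓ ≠ p →
        ∀ A : ValuationSubring Qb, A.LiesOverPrime ℓ → ∀ τ : GQ, A.IsFrobeniusAt τ ℓ →
          LinearMap.charpoly (ρ.ρ τ) =
            X ^ 2 - C (χ (heckeAlgebra.T hℓ hℓN hℓS)) * X + C ((ℓ : R))) ∧
      (∀ q : ℕ, q.Prime → ¬ q ∣ N * p → ρ.IsUnramifiedAt q) ∧
      (∀ σ, LinearMap.det (ρ.ρ σ) = padicToRing hp (cycChar p σ)) ∧
      (∀ σ σ' : GQ, D.ρ σ = D.ρ σ' → xMat D σ = xMat D σ' → ρ.ρ σ = ρ.ρ σ') := by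
  let K := FractionRing R
  let ι := algebraMap R K
  have hι : Function.Injective ι := IsFractionRing.injective R K
  have : CharZero K := charZero_of_injective_algebraMap hι
  let ψ : ℤ_[p] →+* K := ι.comp (padicToRing hp)
  obtain ⟨d, hd0, ρW, Φ, s, hρ, hs, hΦ⟩ := exists_eigen_trace D hd hSfin hp χ
  let ω : GQ →* K := ψ.toMonoidHom.comp (cycChar p)
  have hωc : ω complexConjugation = -1 := by
    show ψ (cycChar p complexConjugation) = -1
    rw [cycChar_complexConjugation, map_neg, map_one]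
  obtain ⟨r, Ψ, hr⟩ := exists_two_dim ρW ω (fun σ => ι (s σ))
    (eigen_rep_quadratic D ψ ρW Φ hρ _ hs)
    (Or.inr ⟨two_ne_zero, complexConjugation, complexConjugation_mul_self, hωc⟩)
  -- `r σ` is linear in the pair `(ρ σ, X σ)`
  let L₁ : Matrix (Fin D.rank) (Fin D.rank) K →ₗ[K] Matrix (Fin 2) (Fin 2) K :=
    Ψ ∘ₗ LinearMap.inl K _ K ∘ₗ Φ
  let L₂ : Matrix (Fin D.rank) (Fin D.rank) K →ₗ[K] Matrix (Fin 2) (Fin 2) K :=
    Ψ ∘ₗ LinearMap.inr K _ K ∘ₗ Matrix.entryLinearMap K K 0 0 ∘ₗ Φ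
  have hlin : ∀ σ, r σ = L₁ (ψ.mapMatrix (D.ρ σ)) + L₂ (ψ.mapMatrix (xMat D σ)) := by
    intro σ
    show r σ = Ψ (Φ (ψ.mapMatrix (D.ρ σ)), 0) + Ψ (0, Φ (ψ.mapMatrix (xMat D σ)) 0 0)
    rw [← map_add, hs, ← hρ, (hr σ).1, Matrix.smul_apply, Matrix.one_apply_eq, smul_eq_mul,
      mul_one, Prod.mk_add_mk, add_zero, zero_add]
  obtain ⟨b₁, hb₁, hden₁⟩ := exists_den (R := R) L₁
    (fun x : Fin 2 × Fin 2 => Matrix.entryLinearMap K K x.1 x.2)
  obtain ⟨b₂, hb₂, hden₂⟩ := exists_den (R := R) L₂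
    (fun x : Fin 2 × Fin 2 => Matrix.entryLinearMap K K x.1 x.2)
  have hψmap : ∀ (M : Matrix (Fin D.rank) (Fin D.rank) ℤ_[p]),
      ψ.mapMatrix M = ((padicToRing hp).mapMatrix M).map ι := fun M => by ext; rfl
  have hbound : ∀ σ i j, ∃ z : R, ι z = ι (b₁ * b₂) * r σ i j := by
    intro σ i j
    obtain ⟨z₁, hz₁⟩ := hden₁ ((padicToRing hp).mapMatrix (D.ρ σ)) (i, j)
    obtain ⟨z₂, hz₂⟩ := hden₂ ((padicToRing hp).mapMatrix (xMat D σ)) (i, j)
    refine ⟨b₂ * z₁ + b₁ * z₂, ?_⟩
    rw [hlin, Matrix.add_apply, hψmap, hψmap]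
    simp only [Matrix.entryLinearMap_apply] at hz₁ hz₂
    rw [map_add, map_mul, map_mul, hz₁, hz₂, map_mul]
    ring
  obtain ⟨P, Q, hPQ, hQP, hint⟩ := exists_integral_conj r (mul_ne_zero hb₁ hb₂) hbound
  choose a ha using hint
  have hmap : ∀ σ, (Matrix.of (a σ)).map ι = Q * r σ * P := fun σ => Matrix.ext fun i j => ha σ i j
  let r' : GQ →* Matrix (Fin 2) (Fin 2) R :=
    { toFun := fun σ => Matrix.of (a σ)
      map_one' := Matrix.map_injective hι (by
        show (Matrix.of (a 1)).map ι = (1 : Matrix (Fin 2) (Fin 2) R).map ι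
        rw [hmap, map_one, mul_one, hQP, Matrix.map_one ι (map_zero ι) (map_one ι)])
      map_mul' := fun σ τ => Matrix.map_injective hι (by
        show (Matrix.of (a (σ * τ))).map ι = (Matrix.of (a σ) * Matrix.of (a τ)).map ι
        rw [hmap, Matrix.map_mul, hmap, hmap, map_mul]
        calc Q * (r σ * r τ) * P = Q * r σ * (P * Q) * r τ * P := by
              rw [hPQ, mul_one]; simp only [mul_assoc]
          _ = _ := by simp only [mul_assoc]) }
  have hr'tr : ∀ σ, (r' σ).trace = s σ := fun σ => hι (by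
    rw [AddMonoidHom.map_trace ι]
    show ((Matrix.of (a σ)).map ι).trace = _
    rw [hmap, Matrix.trace_mul_comm, ← mul_assoc, hPQ, one_mul, (hr σ).2.1])
  have hr'det : ∀ σ, (r' σ).det = padicToRing hp (cycChar p σ) := fun σ => hι (by
    rw [RingHom.map_det]
    show ((Matrix.of (a σ)).map ι).det = _
    rw [hmap, Matrix.det_mul, Matrix.det_mul, mul_right_comm, ← Matrix.det_mul, hQP,
      Matrix.det_one, one_mul, (hr σ).2.2]
    rfl)
  -- continuity
  let L₁' := LinearMap.mulRight K P ∘ₗ LinearMap.mulLeft K Q ∘ₗ L₁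
  let L₂' := LinearMap.mulRight K P ∘ₗ LinearMap.mulLeft K Q ∘ₗ L₂
  obtain ⟨c₁, hc₁, hden₁'⟩ := exists_den (R := R) L₁'
    (fun x : Fin 2 × Fin 2 => Matrix.entryLinearMap K K x.1 x.2)
  obtain ⟨c₂, hc₂, hden₂'⟩ := exists_den (R := R) L₂'
    (fun x : Fin 2 × Fin 2 => Matrix.entryLinearMap K K x.1 x.2)
  obtain ⟨v, hv⟩ := exists_dvd_pow hp (mul_ne_zero hc₁ hc₂)
  have hcont : ∀ n, ∃ L : IntermediateField ℚ Qb, FiniteDimensional ℚ L ∧
      ∀ σ : GQ, (∀ x ∈ L, σ x = x) → ∀ i j,
        (r' σ - 1) i j ∈ IsLocalRing.maximalIdeal R ^ n := by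
    intro n
    obtain ⟨U, hU, hUc⟩ := exists_level_xMat D (v + n)
    obtain ⟨L, hL, hLc⟩ := D.continuous (v + n)
    refine ⟨U ⊔ L, IntermediateField.finiteDimensional_sup U L, fun σ hσ i j => ?_⟩
    have hX := hUc σ 1 fun a ha => by simpa using hσ a (le_sup_left (b := L) ha)
    have hR := hLc σ fun a ha => hσ a (le_sup_right (a := U) ha)
    rw [← map_one D.ρ] at hR
    choose y₁ hy₁ using hR
    choose y₂ hy₂ using hX
    obtain ⟨z₁, hz₁⟩ := hden₁' (Matrix.of fun k l => padicToRing hp (y₁ k l)) (i, j)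
    obtain ⟨z₂, hz₂⟩ := hden₂' (Matrix.of fun k l => padicToRing hp (y₂ k l)) (i, j)
    simp only [Matrix.entryLinearMap_apply] at hz₁ hz₂
    obtain ⟨e, he⟩ := hv
    have hM₁ : ψ.mapMatrix (D.ρ σ) - ψ.mapMatrix (D.ρ 1) =
        ι ((p : R) ^ (v + n)) • (Matrix.of fun k l => padicToRing hp (y₁ k l)).map ι := by
      ext k l
      have := congrArg ψ (hy₁ k l)
      simp only [map_one D.ρ] at this ⊢
      rcases eq_or_ne k l with rfl | hkl
      · simpa [ψ, Matrix.sub_apply] using this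
      · simpa [ψ, Matrix.sub_apply, Matrix.one_apply_ne hkl] using this
    have hM₂ : ψ.mapMatrix (xMat D σ) - ψ.mapMatrix (xMat D 1) =
        ι ((p : R) ^ (v + n)) • (Matrix.of fun k l => padicToRing hp (y₂ k l)).map ι := by
      ext k l
      have := congrArg ψ (hy₂ k l)
      simpa [ψ, Matrix.sub_apply] using this
    have key : ι ((r' σ - 1) i j) = ι ((p : R) ^ n * (e * (c₂ * z₁ + c₁ * z₂))) := by
      have h1 : (r' σ - 1).map ι = Q * (r σ - r 1) * P := by
        rw [Matrix.map_sub ι (map_sub ι), Matrix.map_one ι (map_zero ι) (map_one ι), mul_sub,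
          sub_mul, map_one r, mul_one, hQP]
        exact congrArg (· - 1) (hmap σ)
      have h2 : Q * (r σ - r 1) * P =
          L₁' (ψ.mapMatrix (D.ρ σ) - ψ.mapMatrix (D.ρ 1)) +
            L₂' (ψ.mapMatrix (xMat D σ) - ψ.mapMatrix (xMat D 1)) := by
        rw [hlin, hlin]
        simp only [L₁', L₂', LinearMap.comp_apply, LinearMap.mulLeft_apply,
          LinearMap.mulRight_apply, map_sub, mul_sub, sub_mul, mul_add, add_mul]
        abel
      have h3 := congrFun (congrFun (h1.trans h2) i) j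
      rw [Matrix.map_apply] at h3
      rw [h3, hM₁, hM₂, map_smul, map_smul, Matrix.add_apply, Matrix.smul_apply, Matrix.smul_apply,
        pow_add, he]
      simp only [map_mul, map_add, smul_eq_mul]
      rw [hz₁, hz₂]
      ring
    rw [hι key]
    exact Ideal.mul_mem_right _ _ (Ideal.pow_mem_pow hp n)
  let ρ : GaloisRepAdic R :=
    { V := Fin 2 → R
      finrank_eq := by simp
      ρ := ((Matrix.toLinAlgEquiv' (R := R) (n := Fin 2) : _ ≃* _).toMonoidHom).comp r'
      isAdicContinuous := by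
        intro n
        obtain ⟨L, hL, h1⟩ := hcont n
        refine ⟨L, hL, fun σ hσ x => ?_⟩
        show r' σ *ᵥ x - x ∈ _
        have h : r' σ *ᵥ x - x = ∑ j, ∑ i, (r' σ - 1) i j • (Pi.single i (x j) : Fin 2 → R) := by
          rw [show r' σ *ᵥ x - x = (r' σ - 1) *ᵥ x by rw [Matrix.sub_mulVec, Matrix.one_mulVec]]
          funext k
          fin_cases k <;>
            simp [Matrix.mulVec, dotProduct, Finset.sum_apply, Fin.sum_univ_two]
        rw [h]
        exact Submodule.sum_mem _ fun j _ => Submodule.sum_mem _ fun i _ =>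
          Submodule.smul_mem_smul (h1 σ hσ i j) Submodule.mem_top }
  have hcharpoly : ∀ σ, LinearMap.charpoly (ρ.ρ σ) =
      X ^ 2 - C (s σ) * X + C (padicToRing hp (cycChar p σ)) := fun σ => by
    show LinearMap.charpoly (Matrix.toLinAlgEquiv' (r' σ)) = _
    rw [toLin'_charpoly_fin_two, hr'tr, hr'det]
  have hfac : ∀ σ σ' : GQ, D.ρ σ = D.ρ σ' → xMat D σ = xMat D σ' → ρ.ρ σ = ρ.ρ σ' :=
    fun σ σ' h h' => by
      show Matrix.toLinAlgEquiv' (r' σ) = Matrix.toLinAlgEquiv' (r' σ')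
      congr 1
      refine Matrix.map_injective hι ?_
      show (Matrix.of (a σ)).map ι = (Matrix.of (a σ')).map ι
      rw [hmap, hmap, hlin, hlin, h, h']
  refine ⟨ρ, fun ℓ hℓ hℓN hℓS hℓp A hA τ hτ => ?_, fun q hq hqNp A hA σ hσ => ?_, fun σ => ?_,
    hfac⟩
  · have h1 := xMat_frobenius_pow D hℓ hℓN hℓS hℓp hA hτ 1
    rw [pow_one, powTrace] at h1
    have h2 : s τ = χ (heckeAlgebra.T hℓ hℓN hℓS) := hι (by
      have h3 : ι (s τ) • (1 : Matrix (Fin d) (Fin d) K) =
          ι (χ (heckeAlgebra.T hℓ hℓN hℓS)) • 1 := by rw [← hs, h1, hΦ]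
      simpa using congrFun (congrFun h3 0) 0)
    rw [hcharpoly, h2, cycChar_frobenius p hℓ hℓp hA hτ, map_natCast]
  · rw [hfac σ 1 (by rw [D.unramified q hq hqNp A hA σ hσ, map_one D.ρ])
      (by rw [← mul_one σ, xMat_mul_inertia D hq hqNp hA hσ 1]), map_one]
  · show LinearMap.det (Matrix.toLin' (r' σ)) = _
    rw [LinearMap.det_toLin', hr'det]

end FermatAgent.GalRep
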