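import Fermat.Agent.GalRep.Construct.Pseudo
import Fermat.Agent.GalRep.Density.BrauerNesbitt
import Fermat.Prelude.Def_CuspForm_HeckeGaloisRepDatum

/-!
Traces in a Hecke-Galois datum are given by the pseudo-character of the Tate module; consequently
the datum is unramified outside `S`.
-/

set_option autoImplicit false

noncomputable section

namespace FermatAgent.GalRep

open CuspForm Matrix IsLocalRing Polynomial

local notation "Qb" => AlgebraicClosure ℚ
local notation "GQ" => AlgebraicClosure ℚ ≃ₐ[ℚ] AlgebraicClosure ℚ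

/-- Traces of powers of a `2 × 2` matrix with given characteristic polynomial. -/
theorem trace_pow_eq_powTrace {R : Type*} [CommRing R] (x : Matrix (Fin 2) (Fin 2) R) :
    ∀ m, (x ^ m).trace = powTrace x.trace x.det m
  | 0 => by simp [powTrace]
  | 1 => by simp [powTrace]
  | m + 2 => by
    have hsq : x * x = x.trace • x - x.det • 1 := by
      ext i j
      fin_cases i <;> fin_cases j <;>
        simp [Matrix.mul_apply, Fin.sum_univ_two, Matrix.trace_fin_two, Matrix.det_fin_two] <;>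
        ring
    rw [powTrace, ← trace_pow_eq_powTrace x m, ← trace_pow_eq_powTrace x (m + 1), pow_succ',
      pow_succ', ← mul_assoc, hsq, sub_mul, smul_mul_assoc, smul_mul_assoc, one_mul, ← pow_succ',
      Matrix.trace_sub, Matrix.trace_smul, Matrix.trace_smul]
    simp

theorem trace_pow_of_charpoly {R : Type*} [CommRing R] [Nontrivial R] {V : Type*}
    [AddCommGroup V] [Module R V] [Module.Free R V] [Module.Finite R V]
    (hV : Module.finrank R V = 2) (f : Module.End R V) (a l : R)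
    (h : f.charpoly = X ^ 2 - C a * X + C l) (m : ℕ) :
    LinearMap.trace R V (f ^ m) = powTrace a l m := by
  let b := Module.finBasisOfFinrankEq R V hV
  let x := LinearMap.toMatrixAlgEquiv b f
  have hx : x.charpoly = X ^ 2 - C a * X + C l := by
    rw [← h, ← LinearMap.charpoly_toMatrix f b]; rfl
  rw [Matrix.charpoly_fin_two] at hx
  have htr : x.trace = a := by
    have := congrArg (fun P : R[X] => P.coeff 1) hx
    simpa [Polynomial.coeff_X_pow, Polynomial.coeff_C] using this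
  have hdet : x.det = l := by
    have := congrArg (fun P : R[X] => P.coeff 0) hx
    simpa [Polynomial.coeff_X_pow, Polynomial.coeff_C] using this
  rw [LinearMap.trace_eq_matrix_trace R b, show LinearMap.toMatrix b b (f ^ m) = x ^ m from
    map_pow (LinearMap.toMatrixAlgEquiv b) f m, trace_pow_eq_powTrace, htr, hdet]

variable {p : ℕ} [Fact p.Prime] {N : ℕ} [NeZero N] {S : Finset ℕ}
  {𝒪 : Type} [CommRing 𝒪] [IsDomain 𝒪] [IsDiscreteValuationRing 𝒪]
  [IsAdicComplete (IsLocalRing.maximalIdeal 𝒪) 𝒪]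
  {θ : heckeAlgebra N 2 (↑S : Set ℕ) →+* IsLocalRing.ResidueField 𝒪}
  {T : Type} [CommRing T] [IsLocalRing T] [IsNoetherianRing T]
  [IsAdicComplete (IsLocalRing.maximalIdeal T) T] [Algebra 𝒪 T] [IsLocalHom (algebraMap 𝒪 T)]
  [Module.Finite 𝒪 T] [Module.Free 𝒪 T]

omit [Fact p.Prime] [IsDomain 𝒪] [IsDiscreteValuationRing 𝒪]
  [IsAdicComplete (IsLocalRing.maximalIdeal 𝒪) 𝒪] [IsNoetherianRing T]
  [IsAdicComplete (IsLocalRing.maximalIdeal T) T] [Module.Finite 𝒪 T] [Module.Free 𝒪 T] in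
theorem natCast_mem_maximalIdeal_of_algebra [IsLocalRing 𝒪]
    (hp : (p : 𝒪) ∈ IsLocalRing.maximalIdeal 𝒪) : (p : T) ∈ IsLocalRing.maximalIdeal T := by
  rw [← map_natCast (algebraMap 𝒪 T)]
  exact map_nonunit (algebraMap 𝒪 T) _ hp

/-- A representation with residually irreducible image attached to one map of the Hecke algebra;
unlike a Hecke-Galois datum it asks nothing of the other points. -/
structure PointDatum (N : ℕ) [NeZero N] (S : Set ℕ) (T : Type) [CommRing T] [IsLocalRing T] :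
    Type 1 where
  /-- the Hecke map -/
  π : heckeAlgebra N 2 S →+* T
  /-- the representation -/
  ρ : GaloisRepAdic T
  charpoly_frob : ∀ (ℓ : ℕ) (hℓ : ℓ.Prime) (hℓN : ¬ ℓ ∣ N) (hℓS : ℓ ∉ S),
    ∀ A : ValuationSubring Qb, A.LiesOverPrime ℓ → ∀ σ : GQ, A.IsFrobeniusAt σ ℓ →
      LinearMap.charpoly (ρ.ρ σ) = X ^ 2 - C (π (heckeAlgebra.T hℓ hℓN hℓS)) * X + C ((ℓ : T))
  residual_absIrr : ρ.residual.IsAbsolutelyIrreducible

/-- A Hecke-Galois datum is a point datum over its ring. -/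
def pointDatum (H : HeckeGaloisRepDatum N (↑S : Set ℕ) 𝒪 θ T) : PointDatum N (↑S : Set ℕ) T :=
  ⟨H.π, H.ρ, H.charpoly_frob, H.residual_absIrr⟩

omit [IsNoetherianRing T] [IsAdicComplete (IsLocalRing.maximalIdeal T) T] in
/-- The trace of the datum is the value of its Hecke map at the approximating Hecke elements. -/
theorem exists_trace_datum_congr (D : HeckeTateData N p (↑S : Set ℕ)) (hd : FrobDense)
    (hpT : (p : T) ∈ IsLocalRing.maximalIdeal T) (H : PointDatum N (↑S : Set ℕ) T) :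
    ∃ c : ℕ, ∀ (n : ℕ) (σ : GQ) (t : heckeAlgebra N 2 (↑S : Set ℕ)),
      (∀ i j, (p : ℤ_[p]) ^ (n + c) ∣ (xMat D σ - hecMat D t) i j) →
        H.ρ.trace σ - H.π t ∈ IsLocalRing.maximalIdeal T ^ n := by
  classical
  obtain ⟨c, hc⟩ := exists_approx_unique D
  refine ⟨c, fun n σ t ht => ?_⟩
  obtain ⟨L, hL, hLc⟩ := H.ρ.isAdicContinuous n
  obtain ⟨U, hU, hUc⟩ := exists_level_xMat D (n + c)
  obtain ⟨ℓ, hℓ, hℓS, A, hA, τ, hτ, m, hm⟩ :=
    hd (L ⊔ U) (IntermediateField.finiteDimensional_sup L U) (S ∪ insert p N.primeFactors) σ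
  simp only [Finset.mem_union, Finset.mem_insert, not_or] at hℓS
  have hℓN : ¬ ℓ ∣ N := fun h => hℓS.2.2 (Nat.mem_primeFactors.mpr ⟨hℓ, h, NeZero.ne N⟩)
  have hℓS' : ℓ ∉ (↑S : Set ℕ) := fun h => hℓS.1 h
  set t' := powTrace (heckeAlgebra.T (k := 2) hℓ hℓN hℓS') (ℓ : heckeAlgebra N 2 (↑S : Set ℕ)) m
  have ht' : ∀ i j, (p : ℤ_[p]) ^ (n + c) ∣ (xMat D σ - hecMat D t') i j := fun i j => by
    rw [← xMat_frobenius_pow D hℓ hℓN hℓS' hℓS.2.1 hA hτ m]
    exact hUc σ (τ ^ m) (fun a ha => hm a (le_sup_right (a := L) ha)) i j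
  obtain ⟨u, hu⟩ := hc n σ t t' ht ht'
  have htr : H.ρ.trace (τ ^ m) = H.π t' := by
    rw [GaloisRepAdic.trace, map_pow, trace_pow_of_charpoly H.ρ.finrank_eq _ _ _
      (H.charpoly_frob ℓ hℓ hℓN hℓS' A hA τ hτ) m, map_powTrace, map_natCast]
  have hcont : H.ρ.trace σ - H.ρ.trace (τ ^ m) ∈ IsLocalRing.maximalIdeal T ^ n := by
    have hg : ∀ v, H.ρ.ρ ((τ ^ m)⁻¹ * σ) v - v ∈
        (IsLocalRing.maximalIdeal T ^ n) • (⊤ : Submodule T H.ρ.V) := hLc _ fun a ha => by
      rw [AlgEquiv.mul_apply, hm a (le_sup_left (b := U) ha), ← AlgEquiv.mul_apply,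
        inv_mul_cancel, AlgEquiv.one_apply]
    let b := Module.finBasisOfFinrankEq T H.ρ.V H.ρ.finrank_eq
    have hdiff : ∀ v, H.ρ.ρ σ v - H.ρ.ρ (τ ^ m) v ∈
        (IsLocalRing.maximalIdeal T ^ n) • (⊤ : Submodule T H.ρ.V) := fun v => by
      have h1 : H.ρ.ρ σ v - H.ρ.ρ (τ ^ m) v =
          H.ρ.ρ (τ ^ m) (H.ρ.ρ ((τ ^ m)⁻¹ * σ) v - v) := by
        rw [map_sub, ← Module.End.mul_apply, ← map_mul, mul_inv_cancel_left]
      rw [h1]
      exact Submodule.smul_top_le_comap_smul_top _ _ (hg v)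
    rw [GaloisRepAdic.trace, GaloisRepAdic.trace, ← map_sub, LinearMap.trace_eq_matrix_trace T b]
    refine Submodule.sum_mem _ fun i _ => ?_
    rw [Matrix.diag_apply, LinearMap.toMatrix_apply, LinearMap.sub_apply]
    have hgen : ∀ x ∈ (IsLocalRing.maximalIdeal T ^ n) • (⊤ : Submodule T H.ρ.V),
        b.repr x i ∈ IsLocalRing.maximalIdeal T ^ n := fun x hx =>
      Submodule.smul_induction_on hx
        (fun r hr y _ => by
          rw [map_smul, Finsupp.smul_apply, smul_eq_mul]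
          exact Ideal.mul_mem_right _ _ hr)
        (fun y z hy hz => by
          rw [map_add, Finsupp.add_apply]
          exact Ideal.add_mem _ hy hz)
    exact hgen _ (hdiff (b i))
  have hπ : H.π t' - H.π t ∈ IsLocalRing.maximalIdeal T ^ n := by
    rw [← neg_sub, neg_mem_iff, ← map_sub, hu, map_mul, map_pow, map_natCast]
    exact Ideal.mul_mem_right _ _ (Ideal.pow_mem_pow hpT n)
  have := Ideal.add_mem _ hcont hπ
  rw [htr, sub_add_sub_cancel] at this
  exact this

omit [Fact p.Prime] in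
/-- An endomorphism orthogonal to the image of a residually absolutely irreducible representation
under the trace form vanishes. -/
theorem eq_zero_of_trace_mul_eq_zero {R : Type} [CommRing R] [IsLocalRing R] (ρ : GaloisRepAdic R)
    (h : ρ.residual.IsAbsolutelyIrreducible) (f : Module.End R ρ.V)
    (hf : ∀ σ, LinearMap.trace R ρ.V (f * ρ.ρ σ) = 0) : f = 0 := by
  let b := Module.finBasisOfFinrankEq R ρ.V ρ.finrank_eq
  have hker : ∀ x : Module.End R ρ.V, LinearMap.trace R ρ.V (f * x) = 0 := fun x => by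
    have hx : x ∈ Submodule.span R (Set.range ρ.ρ) := adic_span_range_eq_top ρ h ▸ Submodule.mem_top
    induction hx using Submodule.span_induction with
    | mem x hx => obtain ⟨σ, rfl⟩ := hx; exact hf σ
    | zero => rw [mul_zero, map_zero]
    | add x y _ _ hx hy => rw [mul_add, map_add, hx, hy, add_zero]
    | smul c x _ hx => rw [mul_smul_comm, map_smul, hx, smul_zero]
  refine (LinearMap.toMatrixAlgEquiv b).injective (Matrix.ext fun i j => ?_)
  have h1 := hker ((LinearMap.toMatrixAlgEquiv b).symm (Matrix.single j i 1))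
  rw [LinearMap.trace_eq_matrix_trace R b] at h1
  have h2 : LinearMap.toMatrix b b (f * (LinearMap.toMatrixAlgEquiv b).symm (Matrix.single j i 1)) =
      LinearMap.toMatrixAlgEquiv b f * Matrix.single j i 1 := by
    show LinearMap.toMatrixAlgEquiv b _ = _
    rw [map_mul, AlgEquiv.apply_symm_apply]
  rw [h2] at h1
  fin_cases i <;> fin_cases j <;>
    simpa [Matrix.trace, Matrix.mul_apply, Matrix.single, Fin.sum_univ_two] using h1

/-- **Unramified outside `S`.** -/
theorem datum_isUnramifiedAt (D : HeckeTateData N p (↑S : Set ℕ)) (hd : FrobDense)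
    (hp : (p : 𝒪) ∈ IsLocalRing.maximalIdeal 𝒪)
    (H : HeckeGaloisRepDatum N (↑S : Set ℕ) 𝒪 θ T) (q : ℕ) (hq : q.Prime) (hqNp : ¬ q ∣ N * p) :
    H.ρ.IsUnramifiedAt q := by
  intro P hP σ hσ
  obtain ⟨c, hc⟩ := exists_trace_datum_congr D hd (natCast_mem_maximalIdeal_of_algebra (T := T) hp) (pointDatum H)
  have htr : ∀ g, H.ρ.trace (σ * g) = H.ρ.trace g := fun g => eq_of_forall_sub_mem_pow fun n => by
    obtain ⟨t, ht⟩ := exists_hecke_approx D hd S.finite_toSet g (n + c)
    have h1 := hc n g t ht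
    have h2 := hc n (σ * g) t (by rw [xMat_mul_inertia D hq hqNp hP hσ g]; exact ht)
    simpa [pointDatum] using Ideal.sub_mem _ h2 h1
  refine sub_eq_zero.mp (eq_zero_of_trace_mul_eq_zero H.ρ H.residual_absIrr _ fun g => ?_)
  rw [sub_mul, one_mul, ← map_mul, map_sub]
  exact sub_eq_zero.mpr (htr g)

end FermatAgent.GalRep
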