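import Fermat.Prelude.Def_EllipticCurve_FrobeniusTrace
import Fermat.Prelude.Def_GaloisRep_ComplexConjugation
import Mathlib.NumberTheory.Cyclotomic.CyclotomicCharacter
import Mathlib.RingTheory.RootsOfUnity.AlgebraicallyClosed

/-!
The `p`-adic cyclotomic character of `Gal(ℚ̄/ℚ)`: values at Frobenius elements, at complex
conjugation and on inertia outside `p`.
-/

set_option autoImplicit false

noncomputable section

open scoped Pointwise

namespace FermatAgent.GalRep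

local notation "Qb" => AlgebraicClosure ℚ
local notation "GQ" => AlgebraicClosure ℚ ≃ₐ[ℚ] AlgebraicClosure ℚ

variable (p : ℕ) [Fact p.Prime]

/-- The `p`-adic cyclotomic character. -/
def cycChar : GQ →* ℤ_[p] :=
  (Units.coeHom ℤ_[p]).comp
    ((cyclotomicCharacter Qb p).comp (MulSemiringAction.toRingAut GQ Qb))

theorem hasEnoughRootsOfUnity_pow (i : ℕ) : HasEnoughRootsOfUnity Qb (p ^ i) := by
  have : NeZero ((p ^ i : ℕ) : Qb) :=
    ⟨Nat.cast_ne_zero.mpr (pow_ne_zero i (Fact.out (p := p.Prime)).ne_zero)⟩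
  infer_instance

attribute [local instance] hasEnoughRootsOfUnity_pow

theorem cycChar_spec (σ : GQ) (n : ℕ) {ζ : Qb} (hζ : ζ ^ p ^ n = 1) :
    σ ζ = ζ ^ ((cycChar p σ).toZModPow n).val :=
  cyclotomicCharacter.spec p (MulSemiringAction.toRingAut GQ Qb σ) ζ hζ

/-- The character is determined modulo `pⁿ` by the action on roots of unity. -/
theorem toZModPow_cycChar_eq {σ : GQ} {n a : ℕ}
    (h : ∀ ζ : Qb, ζ ^ p ^ n = 1 → σ ζ = ζ ^ a) :
    (cycChar p σ).toZModPow n = (a : ZMod (p ^ n)) := by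
  obtain ⟨ζ, hζ⟩ := HasEnoughRootsOfUnity.exists_primitiveRoot Qb (p ^ n)
  have h1 := (cycChar_spec p σ n hζ.pow_eq_one).symm.trans (h ζ hζ.pow_eq_one)
  rw [(hζ.isOfFinOrder (NeZero.ne _)).pow_eq_pow_iff_modEq, ← hζ.eq_orderOf] at h1
  rw [← ZMod.natCast_zmod_val ((cycChar p σ).toZModPow n), ZMod.natCast_eq_natCast_iff']
  exact h1

theorem pow_dvd_cycChar_sub {σ : GQ} {n a : ℕ}
    (h : ∀ ζ : Qb, ζ ^ p ^ n = 1 → σ ζ = ζ ^ a) :
    (p : ℤ_[p]) ^ n ∣ cycChar p σ - a := by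
  rw [← Ideal.mem_span_singleton, ← PadicInt.ker_toZModPow, RingHom.mem_ker, map_sub,
    map_natCast, sub_eq_zero]
  exact toZModPow_cycChar_eq p h

omit [Fact p.Prime] in
/-- Roots of unity of `p`-power order reduce injectively outside `p`. -/
theorem eq_one_of_sub_one_mem_nonunits {ℓ : ℕ} (hℓp : ℓ.Coprime p) {A : ValuationSubring Qb}
    (hA : A.LiesOverPrime ℓ) {n : ℕ} {ζ : Qb} (hζ : ζ ^ p ^ n = 1) (h : ζ - 1 ∈ A.nonunits) :
    ζ = 1 := by
  by_contra hne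
  have hmemA : ∀ x, x ∈ A.nonunits → x ∈ A := fun x hx => A.nonunits_subset hx
  have hζA : ζ ∈ A := by simpa using A.add_mem _ _ (hmemA _ h) A.one_mem
  let z : A := ⟨ζ, hζA⟩
  have hsum : ∑ i ∈ Finset.range (p ^ n), z ^ i = 0 := by
    apply Subtype.ext
    push_cast
    show ∑ i ∈ Finset.range (p ^ n), ζ ^ i = 0
    rw [geom_sum_eq hne, hζ, sub_self, zero_div]
  have hres : IsLocalRing.residue A z = 1 := by
    rw [← map_one (IsLocalRing.residue A)]
    refine Ideal.Quotient.eq.mpr ?_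
    exact (A.mem_nonunits_iff_exists_mem_maximalIdeal).mp h |>.2
  have h1 := congrArg (IsLocalRing.residue A) hsum
  simp [hres] at h1
  have h2 : ((ℓ : ℕ) : IsLocalRing.ResidueField A) = 0 := by
    rw [← map_natCast (IsLocalRing.residue A), IsLocalRing.residue_eq_zero_iff]
    exact (A.mem_nonunits_iff_exists_mem_maximalIdeal).mp hA |>.2
  have hcop : (ℓ : ℤ).gcdA p * ℓ + (ℓ : ℤ).gcdB p * p = 1 := by
    have := Int.gcd_eq_gcd_ab ℓ p
    rw [show Int.gcd (ℓ : ℤ) p = 1 from hℓp] at this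
    push_cast at this
    linarith
  have h3 := congrArg (fun z : ℤ => (z : IsLocalRing.ResidueField A)) hcop
  simp [h1.1, h2] at h3

theorem cycChar_frobenius {ℓ : ℕ} (hℓ : ℓ.Prime) (hℓp : ℓ ≠ p) {A : ValuationSubring Qb}
    (hA : A.LiesOverPrime ℓ) {τ : GQ} (hτ : A.IsFrobeniusAt τ ℓ) :
    cycChar p τ = ℓ := by
  have hcop : ℓ.Coprime p := (Nat.coprime_primes hℓ Fact.out).mpr hℓp
  refine PadicInt.ext_of_toZModPow.mp fun n => ?_
  rw [map_natCast]
  refine toZModPow_cycChar_eq p fun ζ hζ => ?_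
  have hint : ζ ∈ A := by
    have : IsIntegral A ζ :=
      ⟨Polynomial.X ^ p ^ n - 1,
        Polynomial.monic_X_pow_sub_C _ (pow_ne_zero n (Fact.out (p := p.Prime)).ne_zero),
        by simp [hζ]⟩
    obtain ⟨y, rfl⟩ := IsIntegrallyClosed.isIntegral_iff.mp this
    exact y.2
  obtain ⟨hdec, hfrob⟩ := hτ
  have hτA : τ ζ ∈ A := by
    have h : τ ζ ∈ τ • A := ValuationSubring.smul_mem_pointwise_smul τ ζ A hint
    rwa [show τ • A = A from hdec] at h
  have hres := hfrob (IsLocalRing.residue A ⟨ζ, hint⟩)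
  rw [← map_pow] at hres
  have hsub : τ ζ - ζ ^ ℓ ∈ A.nonunits := by
    rw [ValuationSubring.mem_nonunits_iff_exists_mem_maximalIdeal]
    refine ⟨sub_mem hτA (pow_mem hint _), ?_⟩
    exact (Ideal.Quotient.eq.mp hres : (⟨τ ζ, hτA⟩ : A) - ⟨ζ, hint⟩ ^ ℓ ∈ _)
  have hζ0 : ζ ≠ 0 := by
    rintro rfl
    simp [zero_pow (pow_ne_zero n (Fact.out (p := p.Prime)).ne_zero)] at hζ
  have hu : (τ ζ / ζ ^ ℓ) ^ p ^ n = 1 := by
    rw [div_pow, ← map_pow, hζ, map_one, ← pow_mul, mul_comm, pow_mul, hζ, one_pow, div_one]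
  have hinv : (ζ ^ ℓ)⁻¹ ∈ A := by
    have h : (ζ ^ ℓ)⁻¹ = (ζ ^ (p ^ n - 1)) ^ ℓ := by
      rw [← inv_pow]
      congr 1
      refine inv_eq_of_mul_eq_one_right ?_
      rw [← pow_succ', Nat.sub_add_cancel (Nat.one_le_pow _ _ (Fact.out (p := p.Prime)).pos), hζ]
    rw [h]; exact pow_mem (pow_mem hint _) _
  have := eq_one_of_sub_one_mem_nonunits p hcop hA hu (by
    rw [div_sub_one (pow_ne_zero _ hζ0), div_eq_mul_inv]
    obtain ⟨hm, hmax⟩ := ValuationSubring.mem_nonunits_iff_exists_mem_maximalIdeal.mp hsub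
    exact ValuationSubring.mem_nonunits_iff_exists_mem_maximalIdeal.mpr
      ⟨A.mul_mem _ _ hm hinv,
        (IsLocalRing.maximalIdeal A).mul_mem_right (⟨_, hinv⟩ : A) hmax⟩)
  exact (div_eq_one_iff_eq (pow_ne_zero _ hζ0)).mp this

theorem cycChar_inertia {ℓ : ℕ} (hℓ : ℓ.Prime) (hℓp : ℓ ≠ p) {A : ValuationSubring Qb}
    (hA : A.LiesOverPrime ℓ) {σ : GQ} (hσ : σ ∈ A.inertiaSubgroupIn ℚ) :
    cycChar p σ = 1 := by
  have hcop : ℓ.Coprime p := (Nat.coprime_primes hℓ Fact.out).mpr hℓp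
  refine PadicInt.ext_of_toZModPow.mp fun n => ?_
  rw [map_one, ← Nat.cast_one]
  refine toZModPow_cycChar_eq p fun ζ hζ => ?_
  rw [pow_one]
  obtain ⟨⟨σ', hdec⟩, hin, rfl⟩ := hσ
  change σ' ζ = ζ
  have hne : p ^ n ≠ 0 := pow_ne_zero n (Fact.out (p := p.Prime)).ne_zero
  have hint : ζ ∈ A := by
    have : IsIntegral A ζ :=
      ⟨Polynomial.X ^ p ^ n - 1, Polynomial.monic_X_pow_sub_C _ hne, by simp [hζ]⟩
    obtain ⟨y, rfl⟩ := IsIntegrallyClosed.isIntegral_iff.mp this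
    exact y.2
  have hσA : σ' ζ ∈ A := by
    have h : σ' ζ ∈ σ' • A := ValuationSubring.smul_mem_pointwise_smul σ' ζ A hint
    rwa [show σ' • A = A from hdec] at h
  have hres : (⟨σ', hdec⟩ : A.decompositionSubgroup ℚ) • IsLocalRing.residue A ⟨ζ, hint⟩ =
      IsLocalRing.residue A ⟨ζ, hint⟩ :=
    RingEquiv.ext_iff.mp (MonoidHom.mem_ker.mp hin) _
  have hsub : (⟨σ' ζ, hσA⟩ : A) - ⟨ζ, hint⟩ ∈ IsLocalRing.maximalIdeal A :=
    Ideal.Quotient.eq.mp hres
  have hζ0 : ζ ≠ 0 := by rintro rfl; simp [zero_pow hne] at hζ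
  have hinv : ζ⁻¹ ∈ A := by
    have h : ζ⁻¹ = ζ ^ (p ^ n - 1) := by
      refine inv_eq_of_mul_eq_one_right ?_
      rw [← pow_succ', Nat.sub_add_cancel (Nat.one_le_iff_ne_zero.mpr hne), hζ]
    rw [h]; exact pow_mem hint _
  have := eq_one_of_sub_one_mem_nonunits p hcop hA
    (ζ := σ' ζ / ζ) (n := n) (by rw [div_pow, ← map_pow, hζ, map_one, div_one]) (by
      rw [div_sub_one hζ0, div_eq_mul_inv]
      exact ValuationSubring.mem_nonunits_iff_exists_mem_maximalIdeal.mpr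
        ⟨A.mul_mem _ _ (sub_mem hσA hint) hinv,
          (IsLocalRing.maximalIdeal A).mul_mem_right (⟨_, hinv⟩ : A) hsub⟩)
  exact (div_eq_one_iff_eq hζ0).mp this

/-- Modulo `pⁿ` the character factors through a finite level. -/
theorem exists_level_cycChar (n : ℕ) :
    ∃ L : IntermediateField ℚ Qb, FiniteDimensional ℚ L ∧
      ∀ σ : GQ, (∀ a ∈ L, σ a = a) → (p : ℤ_[p]) ^ n ∣ cycChar p σ - 1 := by
  obtain ⟨ζ, hζ⟩ := HasEnoughRootsOfUnity.exists_primitiveRoot Qb (p ^ n)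
  refine ⟨IntermediateField.adjoin ℚ {ζ}, IntermediateField.adjoin.finiteDimensional
    ((hζ.isIntegral (Nat.pos_of_neZero _)).tower_top), fun σ hσ => ?_⟩
  rw [show (1 : ℤ_[p]) = ((1 : ℕ) : ℤ_[p]) from Nat.cast_one.symm]
  refine pow_dvd_cycChar_sub p fun x hx => ?_
  obtain ⟨i, -, rfl⟩ := hζ.eq_pow_of_pow_eq_one hx
  rw [pow_one, map_pow, hσ ζ (IntermediateField.mem_adjoin_simple_self ℚ ζ)]

theorem complexConjugation_pow_eq_inv (n : ℕ) [NeZero n] {ζ : Qb} (hζ : ζ ^ n = 1) :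
    complexConjugation ζ = ζ⁻¹ := by
  apply complexEmbedding.toRingHom.injective
  show complexEmbedding (complexConjugation ζ) = complexEmbedding ζ⁻¹
  rw [complexEmbedding_complexConjugation, map_inv₀]
  have h1 : ‖complexEmbedding ζ‖ = 1 :=
    Complex.norm_eq_one_of_pow_eq_one (by rw [← map_pow, hζ, map_one]) (NeZero.ne n)
  rw [Complex.inv_def, Complex.normSq_eq_norm_sq, h1]
  simp

theorem cycChar_complexConjugation : cycChar p complexConjugation = -1 := by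
  refine PadicInt.ext_of_toZModPow.mp fun n => ?_
  have hone : 1 ≤ p ^ n := Nat.one_le_pow _ _ (Fact.out (p := p.Prime)).pos
  have h := toZModPow_cycChar_eq p (σ := complexConjugation) (n := n) (a := p ^ n - 1)
    fun ζ hζ => by
      have : NeZero (p ^ n) := ⟨by omega⟩
      rw [complexConjugation_pow_eq_inv (p ^ n) hζ]
      refine inv_eq_of_mul_eq_one_right ?_
      rw [← pow_succ', Nat.sub_add_cancel hone, hζ]
  rw [h, map_neg, map_one, Nat.cast_sub hone, ZMod.natCast_self, zero_sub, Nat.cast_one]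

end FermatAgent.GalRep
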