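import Fermat.Prelude.Def_CuspForm_HeckeAlgebra
import Fermat.Prelude.Def_ModularCurve_HeckeModule
import Mathlib.NumberTheory.Padics.RingHoms
import Mathlib.Data.Matrix.Basic

/-!
The data and properties used in the construction of the Galois representations attached to
weight two Hecke eigensystems; they are established in `Construct/Inputs` and `Construct/TateData`.

* `FrobDense` : the density input (Frobenius density).
* `HeckeTorsionData N p S` : what is needed from the torsion of `J₀(N)` and its Hecke action.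
* `TorsionUnramified N p`, `TorsionFrobQuadratic N p` : the Eichler-Shimura inputs.
* `HeckeTateData N p S` : the matrix form in which the construction consumes all of these.
-/

set_option autoImplicit false

noncomputable section

namespace FermatAgent.GalRep

open CuspForm ModularCurve AlgebraicCurve

local notation "Qb" => AlgebraicClosure ℚ
local notation "GQ" => AlgebraicClosure ℚ ≃ₐ[ℚ] AlgebraicClosure ℚ

/-- Every automorphism agrees, on any given finite subextension, with a power of a Frobenius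
element at a prime avoiding any given finite set. -/
def FrobDense : Prop :=
  ∀ U : IntermediateField ℚ Qb, FiniteDimensional ℚ U → ∀ S : Finset ℕ, ∀ σ : GQ,
    ∃ ℓ : ℕ, ℓ.Prime ∧ ℓ ∉ S ∧ ∃ A : ValuationSubring Qb, A.LiesOverPrime ℓ ∧
      ∃ τ : GQ, A.IsFrobeniusAt τ ℓ ∧ ∃ m : ℕ, ∀ x ∈ U, σ x = (τ ^ m) x

/-- The `pⁿ`-torsion of `J₀(N)` as the reduction of a lattice with faithful Hecke action. -/
structure HeckeTorsionData (N p : ℕ) [NeZero N] (S : Set ℕ) where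
  rank : ℕ
  ι : heckeAlgebra N 2 S →+* Matrix (Fin rank) (Fin rank) ℤ
  ι_injective : Function.Injective ι
  e : ∀ n : ℕ, Pic0.torsion Qb (modularFunctionFieldBar N) (p ^ n) ≃+
    (Fin rank → ZMod (p ^ n))
  e_mul : ∀ (n : ℕ) (x : Pic0.torsion Qb (modularFunctionFieldBar N) (p ^ (n + 1)))
      (y : Pic0.torsion Qb (modularFunctionFieldBar N) (p ^ n)),
      (y : JZero N) = p • (x : JZero N) → ∀ i,
        e n y i = ZMod.castHom (pow_dvd_pow p n.le_succ) (ZMod (p ^ n)) (e (n + 1) x i)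
  e_hecke : ∀ (n ℓ : ℕ) (hℓ : ℓ.Prime) (hℓN : ¬ ℓ ∣ N) (hℓS : ℓ ∉ S)
      (x y : Pic0.torsion Qb (modularFunctionFieldBar N) (p ^ n)),
      (y : JZero N) = heckeOperatorBar N ⟨ℓ, hℓ⟩ (x : JZero N) →
        e n y = ((ι (heckeAlgebra.T hℓ hℓN hℓS)).map (Int.cast : ℤ → ZMod (p ^ n))).mulVec (e n x)
  hecke_smul : ∀ (n ℓ : ℕ) (hℓ : ℓ.Prime), ¬ ℓ ∣ N → ℓ ∉ S → ∀ (σ : GQ) (x : JZero N),
      p ^ n • x = 0 →
        heckeOperatorBar N ⟨ℓ, hℓ⟩ (σ • x) = σ • heckeOperatorBar N ⟨ℓ, hℓ⟩ x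
  finite_level : ∀ n : ℕ, ∃ L : IntermediateField ℚ Qb, FiniteDimensional ℚ L ∧
    ∀ σ : GQ, (∀ a ∈ L, σ a = a) → ∀ x : JZero N, p ^ n • x = 0 → σ • x = x

/-- Inertia outside `Np` fixes the `p`-power torsion of `J₀(N)`. -/
def TorsionUnramified (N p : ℕ) : Prop :=
  ∀ ℓ : ℕ, ℓ.Prime → ¬ ℓ ∣ N * p → ∀ A : ValuationSubring Qb, A.LiesOverPrime ℓ →
    ∀ σ ∈ A.inertiaSubgroupIn ℚ, ∀ (n : ℕ) (x : JZero N), p ^ n • x = 0 → σ • x = x

/-- The Eichler-Shimura relation on the `p`-power torsion of `J₀(N)`. -/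
def TorsionFrobQuadratic (N p : ℕ) [NeZero N] : Prop :=
  ∀ (ℓ : ℕ) (hℓ : ℓ.Prime), ¬ ℓ ∣ N * p → ∀ A : ValuationSubring Qb, A.LiesOverPrime ℓ →
    ∀ τ : GQ, A.IsFrobeniusAt τ ℓ → ∀ (n : ℕ) (x : JZero N), p ^ n • x = 0 →
      τ • τ • x - heckeOperatorBar N ⟨ℓ, hℓ⟩ (τ • x) + ℓ • x = 0

/-- A `p`-adic Galois representation on a lattice commuting with a faithful action of the Hecke
algebra and satisfying the Eichler-Shimura relation. -/
structure HeckeTateData (N p : ℕ) [NeZero N] [Fact p.Prime] (S : Set ℕ) where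
  rank : ℕ
  ι : heckeAlgebra N 2 S →+* Matrix (Fin rank) (Fin rank) ℤ
  ι_injective : Function.Injective ι
  ρ : GQ →* Matrix (Fin rank) (Fin rank) ℤ_[p]
  comm : ∀ σ t, Commute (ρ σ) ((ι t).map (Int.cast : ℤ → ℤ_[p]))
  continuous : ∀ n : ℕ, ∃ L : IntermediateField ℚ Qb, FiniteDimensional ℚ L ∧
    ∀ σ : GQ, (∀ a ∈ L, σ a = a) → ∀ i j, (p : ℤ_[p]) ^ n ∣ (ρ σ - 1) i j
  unramified : ∀ ℓ : ℕ, ℓ.Prime → ¬ ℓ ∣ N * p → ∀ A : ValuationSubring Qb, A.LiesOverPrime ℓ →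
    ∀ σ ∈ A.inertiaSubgroupIn ℚ, ρ σ = 1
  quad : ∀ (ℓ : ℕ) (hℓ : ℓ.Prime) (hℓN : ¬ ℓ ∣ N) (hℓS : ℓ ∉ S), ℓ ≠ p →
    ∀ A : ValuationSubring Qb, A.LiesOverPrime ℓ → ∀ τ : GQ, A.IsFrobeniusAt τ ℓ →
      ρ τ * ρ τ - (ι (heckeAlgebra.T hℓ hℓN hℓS)).map (Int.cast : ℤ → ℤ_[p]) * ρ τ +
        (ℓ : Matrix (Fin rank) (Fin rank) ℤ_[p]) = 0

/-- Existence of the torsion data for all levels, primes and excluded sets containing the primes
of the level. -/
def HeckeTorsionInput : Prop :=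
  ∀ (N p : ℕ) [NeZero N], p.Prime → ∀ S : Set ℕ,
    (∀ q : ℕ, q.Prime → q ∣ N → q ∈ S) → Nonempty (HeckeTorsionData N p S)

end FermatAgent.GalRep
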