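import Fermat.Agent.GalRep.Construct.TateData
import Fermat.Agent.GalRep.Density.Frobenius
import Fermat.Agent.ModCurve.Torsion.ForGalRep
import Fermat.Agent.ES.Main

/-!
The inputs of the construction, discharged: Frobenius density, the Tate module of `J₀(N)`.
-/

set_option autoImplicit false

noncomputable section

namespace FermatAgent.GalRep

theorem frobDense : FrobDense := fun U hU S σ => by
  obtain ⟨ℓ, hℓ, hℓS, A, hA, τ, hτ, m, -, hm, -⟩ :=
    exists_isFrobeniusAt_pow_eq U σ S.finite_toSet
  exact ⟨ℓ, hℓ, hℓS, A, hA, τ, hτ, m, fun x hx => (hm x hx).symm⟩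

/-- The Tate module data exist for every level, prime and excluded set containing the primes of
the level. -/
theorem tateData_nonempty (N p : ℕ) [NeZero N] [Fact p.Prime] {S : Set ℕ}
    (hS : ∀ q : ℕ, q.Prime → q ∣ N → q ∈ S) : Nonempty (HeckeTateData N p S) :=
  nonempty_heckeTateData FermatAgent.ModCurveTorsion.heckeTorsionInput
    (FermatAgent.ES.torsionUnramified N p) (FermatAgent.ES.torsionFrobQuadratic N p) hS

end FermatAgent.GalRep
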