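import Mathlib.NumberTheory.Padics.RingHoms
import Mathlib.RingTheory.AdicCompletion.Basic
import Mathlib.RingTheory.Filtration
import Mathlib.RingTheory.Localization.AtPrime.Basic
import Mathlib.RingTheory.Finiteness.Nakayama
import Mathlib.RingTheory.Nakayama
import Mathlib.LinearAlgebra.Matrix.ToLin
import Mathlib.RingTheory.Localization.Finiteness
import Mathlib.LinearAlgebra.Dual.Lemmas
import Mathlib.Algebra.Module.Torsion.Basic

/-!
Algebraic lemmas for the construction: the map `ℤ_p → R`, the polynomial giving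
`x ^ m + y ^ m` from `x + y` and `x y`, common eigenvectors for faithful integral matrix algebras,
and an Artin-Rees bound.
-/

set_option autoImplicit false

noncomputable section

namespace FermatAgent.GalRep

open Matrix

section PowTrace

variable {R : Type*} [CommRing R]

/-- `powTrace a l m = xᵐ + yᵐ` if `x + y = a` and `x y = l`. -/
def powTrace (a l : R) : ℕ → R
  | 0 => 2
  | 1 => a
  | m + 2 => a * powTrace a l (m + 1) - l * powTrace a l m

theorem map_powTrace {R' : Type*} [CommRing R'] (f : R →+* R') (a l : R) :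
    ∀ m, f (powTrace a l m) = powTrace (f a) (f l) m
  | 0 => by simp [powTrace, map_ofNat f 2]
  | 1 => by simp [powTrace]
  | m + 2 => by
    simp [powTrace, map_powTrace f a l m, map_powTrace f a l (m + 1)]

theorem pow_add_pow_eq_powTrace {A : Type*} [Ring A] (f : R →+* A) (a l : R) {x y : A}
    (hsum : x + y = f a) (hxy : x * y = f l) (hyx : y * x = f l) :
    ∀ m, x ^ m + y ^ m = f (powTrace a l m)
  | 0 => by simp only [powTrace, pow_zero, map_ofNat]; norm_num
  | 1 => by simpa [powTrace] using hsum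
  | m + 2 => by
    rw [powTrace, map_sub, map_mul, map_mul, ← pow_add_pow_eq_powTrace f a l hsum hxy hyx m,
      ← pow_add_pow_eq_powTrace f a l hsum hxy hyx (m + 1), ← hsum, add_mul, mul_add, mul_add,
      ← pow_succ' x, ← pow_succ' y, mul_add (f l), pow_succ' y m, ← mul_assoc x y, hxy,
      pow_succ' x m, ← mul_assoc y x, hyx]
    abel

end PowTrace

section PadicToRing

variable (p : ℕ) [Fact p.Prime] (R : Type*) [CommRing R] [IsLocalRing R]

omit [Fact p.Prime] in
/-- Naturals congruent modulo `pⁿ` agree modulo `mⁿ`. -/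
theorem pow_mem_maximalIdeal_pow (hp : (p : R) ∈ IsLocalRing.maximalIdeal R) {n : ℕ} {a b : ℕ}
    (h : ((p : ℤ) ^ n) ∣ (a : ℤ) - b) : (a : R) - b ∈ IsLocalRing.maximalIdeal R ^ n := by
  obtain ⟨c, hc⟩ := h
  have : (a : R) - b = (p : R) ^ n * (c : R) := by
    have := congrArg (fun z : ℤ => (z : R)) hc
    simpa using this
  rw [this]
  exact Ideal.mul_mem_right _ _ (Ideal.pow_mem_pow hp n)

variable {p R} [IsAdicComplete (IsLocalRing.maximalIdeal R) R]
  (hp : (p : R) ∈ IsLocalRing.maximalIdeal R)

omit [Fact p.Prime] in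
theorem eq_of_forall_sub_mem_pow {x y : R}
    (h : ∀ n : ℕ, x - y ∈ IsLocalRing.maximalIdeal R ^ n) : x = y :=
  sub_eq_zero.mp (IsHausdorff.haus (I := IsLocalRing.maximalIdeal R) inferInstance _ fun n => by
    rw [SModEq.zero, smul_eq_mul, Ideal.mul_top]; exact h n)

include hp in
theorem exists_limit (x : ℤ_[p]) :
    ∃ L : R, ∀ n a : ℕ, (p : ℤ_[p]) ^ n ∣ x - a →
      L - (a : R) ∈ IsLocalRing.maximalIdeal R ^ n := by
  have hcongr : ∀ {m a b : ℕ}, (p : ℤ_[p]) ^ m ∣ x - a → (p : ℤ_[p]) ^ m ∣ x - b →
      (a : R) - b ∈ IsLocalRing.maximalIdeal R ^ m := fun {m a b} ha hb => by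
    refine pow_mem_maximalIdeal_pow p R hp ((PadicInt.pow_p_dvd_int_iff m _).mp ?_)
    push_cast
    simpa using dvd_sub hb ha
  have happr : ∀ n, (p : ℤ_[p]) ^ n ∣ x - (x.appr n : ℕ) := fun n =>
    Ideal.mem_span_singleton.mp (PadicInt.appr_spec n x)
  obtain ⟨L, hL⟩ := IsPrecomplete.prec (I := IsLocalRing.maximalIdeal R) inferInstance
    (f := fun n => ((x.appr n : ℕ) : R)) (fun {m n} hmn => by
      rw [SModEq.sub_mem, smul_eq_mul, Ideal.mul_top]
      exact hcongr (happr m) ((pow_dvd_pow _ hmn).trans (happr n)))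
  refine ⟨L, fun n a ha => ?_⟩
  have h1 := hL n
  rw [SModEq.sub_mem, smul_eq_mul, Ideal.mul_top] at h1
  have h2 := hcongr (happr n) ha
  have := Ideal.add_mem _ h2 (neg_mem h1)
  ring_nf at this ⊢
  exact this

/-- The canonical homomorphism `ℤ_p → R`. -/
def padicToRing : ℤ_[p] →+* R where
  toFun x := (exists_limit hp x).choose
  map_one' := eq_of_forall_sub_mem_pow fun n => by
    simpa using (exists_limit hp 1).choose_spec n 1 (by simp)
  map_zero' := eq_of_forall_sub_mem_pow fun n => by
    simpa using (exists_limit hp 0).choose_spec n 0 (by simp)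
  map_add' x y := eq_of_forall_sub_mem_pow fun n => by
    have hx := (exists_limit hp x).choose_spec n _ (Ideal.mem_span_singleton.mp
      (PadicInt.appr_spec n x))
    have hy := (exists_limit hp y).choose_spec n _ (Ideal.mem_span_singleton.mp
      (PadicInt.appr_spec n y))
    have hxy := (exists_limit hp (x + y)).choose_spec n (x.appr n + y.appr n) (by
      have := dvd_add (Ideal.mem_span_singleton.mp (PadicInt.appr_spec n x))
        (Ideal.mem_span_singleton.mp (PadicInt.appr_spec n y))
      push_cast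
      convert this using 1; ring)
    push_cast at hxy
    convert Ideal.sub_mem _ hxy (Ideal.add_mem _ hx hy) using 1; ring
  map_mul' x y := eq_of_forall_sub_mem_pow fun n => by
    have hx := (exists_limit hp x).choose_spec n _ (Ideal.mem_span_singleton.mp
      (PadicInt.appr_spec n x))
    have hy := (exists_limit hp y).choose_spec n _ (Ideal.mem_span_singleton.mp
      (PadicInt.appr_spec n y))
    have hxy := (exists_limit hp (x * y)).choose_spec n (x.appr n * y.appr n) (by
      have := dvd_add ((Ideal.mem_span_singleton.mp (PadicInt.appr_spec n x)).mul_right y)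
        ((Ideal.mem_span_singleton.mp (PadicInt.appr_spec n y)).mul_left (x.appr n : ℤ_[p]))
      push_cast
      convert this using 1; ring)
    push_cast at hxy
    convert Ideal.sub_mem _ hxy (Ideal.add_mem _
      (Ideal.mul_mem_right (exists_limit hp y).choose _ hx)
      (Ideal.mul_mem_left _ (x.appr n : R) hy)) using 1
    ring

theorem padicToRing_mem_pow {x : ℤ_[p]} {n : ℕ} (h : (p : ℤ_[p]) ^ n ∣ x) :
    padicToRing hp x ∈ IsLocalRing.maximalIdeal R ^ n := by
  obtain ⟨y, rfl⟩ := h
  rw [map_mul, map_pow, map_natCast]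
  exact Ideal.mul_mem_right _ _ (Ideal.pow_mem_pow hp n)

end PadicToRing

section Eigenvector

variable {T : Type*} [CommRing T] {r : ℕ} (ι : T →+* Matrix (Fin r) (Fin r) ℤ)

/-- A faithful integral matrix algebra has, for each character to a field, a nonzero compatible
functional. -/
theorem exists_compatible_functional (hι : Function.Injective ι) {K : Type*} [Field K]
    (χ : T →+* K) :
    ∃ f : (Fin r → ℤ) →+ K, f ≠ 0 ∧ ∀ t x, f (ι t *ᵥ x) = χ t * f x := by
  let _ : Module T (Fin r → ℤ) := Module.compHom (Fin r → ℤ)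
    ((Matrix.toLinAlgEquiv' (R := ℤ) (n := Fin r)).toRingEquiv.toRingHom.comp ι)
  have hsmul : ∀ (t : T) (x : Fin r → ℤ), t • x = ι t *ᵥ x := fun _ _ => rfl
  have : Module.Finite T (Fin r → ℤ) := by
    refine ⟨⟨Finset.univ.image (fun i => Pi.single i 1), eq_top_iff.mpr fun x _ => ?_⟩⟩
    rw [pi_eq_sum_univ' x]
    refine Submodule.sum_mem _ fun i _ => ?_
    rw [← Int.cast_smul_eq_zsmul T]
    exact Submodule.smul_mem _ _ (Submodule.subset_span (by simp))
  let P := RingHom.ker χ
  have : P.IsPrime := RingHom.ker_isPrime χ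
  let Rp := Localization.AtPrime P
  let Mp := LocalizedModule P.primeCompl (Fin r → ℤ)
  have hnt : Nontrivial Mp := by
    by_contra hM
    rw [not_nontrivial_iff_subsingleton] at hM
    have h0 : ∀ i, ∃ a ∈ P.primeCompl, a • (Pi.single i (1 : ℤ) : Fin r → ℤ) = 0 := fun i =>
      LocalizedModule.subsingleton_iff.mp hM _
    choose a haP ha using h0
    have hprod : ∏ i, a i ∈ P.primeCompl := Submonoid.prod_mem _ fun i _ => haP i
    refine hprod ?_
    have : ∏ i, a i = 0 := hι (Matrix.ext fun j k => by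
      have h1 : (∏ i, a i) • (Pi.single k (1 : ℤ) : Fin r → ℤ) = 0 := by
        rw [← Finset.prod_erase_mul _ _ (Finset.mem_univ k), mul_smul, ha, smul_zero]
      have h2 := congrFun h1 j
      rw [hsmul] at h2
      simpa using h2)
    show χ (∏ i, a i) = 0
    rw [this, map_zero]
  let m := IsLocalRing.maximalIdeal Rp
  have : Module.Finite Rp Mp := inferInstance
  have hne : m • (⊤ : Submodule Rp Mp) ≠ ⊤ := fun h => top_ne_bot (α := Submodule Rp Mp)
    (Submodule.eq_bot_of_le_smul_of_le_jacobson_bot m ⊤ Module.Finite.fg_top h.ge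
      (IsLocalRing.maximalIdeal_le_jacobson _))
  let k := Rp ⧸ m
  let Q := Mp ⧸ m • (⊤ : Submodule Rp Mp)
  let _ : Field k := Ideal.Quotient.field m
  have htors : Module.IsTorsionBySet Rp Q (m : Set Rp) := by
    intro y a
    obtain ⟨y, rfl⟩ := Submodule.Quotient.mk_surjective _ y
    rw [← Submodule.Quotient.mk_smul, Submodule.Quotient.mk_eq_zero]
    exact Submodule.smul_mem_smul a.2 Submodule.mem_top
  let _ : Module k Q := htors.module
  have : Nontrivial Q := Submodule.Quotient.nontrivial_iff.mpr hne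
  obtain ⟨z, hz⟩ := exists_ne (0 : Q)
  obtain ⟨g, hg⟩ : ∃ g : Module.Dual k Q, g z ≠ 0 := by
    by_contra! h
    exact hz ((Module.forall_dual_apply_eq_zero_iff k z).mp h)
  have hlift : ∀ y : P.primeCompl, IsUnit (χ y) := fun y => isUnit_iff_ne_zero.mpr y.2
  let ψ : Rp →+* K := IsLocalization.lift hlift
  have hψ : ∀ x ∈ m, ψ x = 0 := fun x hx => by
    obtain ⟨a, s, rfl⟩ := IsLocalization.exists_mk'_eq P.primeCompl x
    rw [IsLocalization.AtPrime.mk'_mem_maximal_iff (S := Rp) P a s] at hx
    rw [IsLocalization.lift_mk', show χ a = 0 from hx, zero_mul]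
  let ψ' : k →+* K := Ideal.Quotient.lift m ψ hψ
  let mk : (Fin r → ℤ) → Q := fun x => Submodule.Quotient.mk (LocalizedModule.mkLinearMap _ _ x)
  refine ⟨{ toFun := fun x => ψ' (g (mk x))
            map_zero' := by simp [mk]
            map_add' := fun x y => by simp only [mk, map_add, Submodule.Quotient.mk_add] }, fun h => hg ?_, fun t x => ?_⟩
  · obtain ⟨y, rfl⟩ := Submodule.Quotient.mk_surjective _ z
    induction y using LocalizedModule.induction_on with
    | h x s =>
      have h1 : g (mk x) = 0 := by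
        apply ψ'.injective
        rw [map_zero]
        exact DFunLike.congr_fun h x
      have h2 : LocalizedModule.mk x s =
          Localization.mk 1 s • LocalizedModule.mkLinearMap P.primeCompl _ x := by
        rw [LocalizedModule.mkLinearMap_apply, LocalizedModule.mk_smul_mk, one_smul, mul_one]
      rw [h2]
      show g ((Ideal.Quotient.mk m (Localization.mk 1 s)) • mk x) = 0
      rw [map_smul, h1, smul_zero]
  · show ψ' (g (mk (ι t *ᵥ x))) = χ t * ψ' (g (mk x))
    have h2 : mk (ι t *ᵥ x) = (Ideal.Quotient.mk m (algebraMap T Rp t)) • mk x := by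
      rw [← hsmul]
      show Submodule.Quotient.mk _ = Submodule.Quotient.mk _
      rw [map_smul]
      congr 1
      exact (algebraMap_smul Rp t _).symm
    rw [h2, map_smul, smul_eq_mul, map_mul]
    congr 1
    exact IsLocalization.lift_eq hlift t

/-- A faithful integral matrix algebra has, for each character to a field, a nonzero common
eigenvector. -/
theorem exists_common_eigenvector (hι : Function.Injective ι) {K : Type*} [Field K]
    (χ : T →+* K) :
    ∃ v : Fin r → K, v ≠ 0 ∧ ∀ t, (ι t).map (Int.cast : ℤ → K) *ᵥ v = χ t • v := by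
  let ι' : T →+* Matrix (Fin r) (Fin r) ℤ :=
    { toFun := fun t => (ι t)ᵀ
      map_one' := by simp
      map_zero' := by simp
      map_mul' := fun a b => by rw [mul_comm, map_mul, Matrix.transpose_mul]
      map_add' := fun a b => by simp }
  obtain ⟨f, hf, hft⟩ := exists_compatible_functional ι'
    (fun a b h => hι (Matrix.transpose_injective h)) χ
  have hsum : ∀ x : Fin r → ℤ, f x = ∑ i, (x i : K) * f (Pi.single i 1) := by
    intro x
    conv_lhs => rw [pi_eq_sum_univ' x]
    rw [map_sum]
    refine Finset.sum_congr rfl fun i _ => ?_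
    rw [map_zsmul, zsmul_eq_mul]
  refine ⟨fun i => f (Pi.single i 1), fun h => hf (AddMonoidHom.ext fun x => ?_),
    fun t => funext fun j => ?_⟩
  · rw [hsum]
    simp [congrFun h]
  · have h1 := hft t (Pi.single j 1)
    rw [hsum] at h1
    simp only [ι', RingHom.coe_mk, MonoidHom.coe_mk, OneHom.coe_mk, Matrix.mulVec_single_one,
      Matrix.col_apply, Matrix.transpose_apply] at h1
    simpa [Matrix.mulVec, dotProduct] using h1

/-- Artin-Rees: elements whose image is very divisible by `p` are divisible by `p`. -/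
theorem exists_dvd_of_dvd_image (hι : Function.Injective ι) (p : ℕ) :
    ∃ c : ℕ, ∀ (n : ℕ) (t : T), (∀ i j, (p : ℤ) ^ (n + c) ∣ ι t i j) →
      ∃ u : T, t = (p : T) ^ n * u := by
  let N : Submodule ℤ (Matrix (Fin r) (Fin r) ℤ) := AddSubgroup.toIntSubmodule ι.toAddMonoidHom.range
  obtain ⟨k, hk⟩ := Ideal.exists_pow_inf_eq_pow_smul (Ideal.span {(p : ℤ)}) N
  refine ⟨k, fun n t ht => ?_⟩
  choose q hq using ht
  have hmem : ι t ∈ Ideal.span {(p : ℤ)} ^ (n + k) • (⊤ : Submodule ℤ _) ⊓ N := by
    refine ⟨?_, ⟨t, rfl⟩⟩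
    rw [Ideal.span_singleton_pow, Submodule.ideal_span_singleton_smul]
    exact ⟨Matrix.of q, Submodule.mem_top, Matrix.ext fun i j => by
      rw [DistribSMul.toLinearMap_apply, Matrix.smul_apply, Matrix.of_apply, smul_eq_mul, hq i j]⟩
  rw [hk (n + k) (by omega), Nat.add_sub_cancel, Ideal.span_singleton_pow,
    Submodule.ideal_span_singleton_smul] at hmem
  obtain ⟨y, ⟨-, ⟨u, rfl⟩⟩, hy⟩ := hmem
  refine ⟨u, hι ?_⟩
  rw [← hy, map_mul, map_pow, map_natCast]
  show ((p : ℤ) ^ n) • ι u = _
  rw [zsmul_eq_mul]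
  simp

end Eigenvector

end FermatAgent.GalRep
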