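import Fermat.Agent.GalRep.Construct.Interface
import Fermat.Agent.GalRep.Construct.Cyclotomic
import Fermat.Agent.GalRep.Construct.Algebra

/-!
The trace pseudo-character with values in the completed Hecke algebra, in congruence form: for
every `σ` and `n` there is a Hecke element congruent modulo `pⁿ` to `ρ σ + ω σ ρ σ⁻¹`, and it is
unique modulo a bounded loss.
-/

set_option autoImplicit false

noncomputable section

namespace FermatAgent.GalRep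

open CuspForm Matrix

local notation "Qb" => AlgebraicClosure ℚ
local notation "GQ" => AlgebraicClosure ℚ ≃ₐ[ℚ] AlgebraicClosure ℚ

variable {p : ℕ} [Fact p.Prime] {N : ℕ} [NeZero N] {S : Set ℕ} (D : HeckeTateData N p S)

/-- Integral matrices as `p`-adic matrices. -/
def hecMat : heckeAlgebra N 2 S →+* Matrix (Fin D.rank) (Fin D.rank) ℤ_[p] :=
  ((Int.castRingHom ℤ_[p]).mapMatrix).comp D.ι

theorem hecMat_apply (t : heckeAlgebra N 2 S) :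
    hecMat D t = (D.ι t).map (Int.cast : ℤ → ℤ_[p]) := rfl

/-- `ρ σ + ω σ ρ σ⁻¹`. -/
def xMat (σ : GQ) : Matrix (Fin D.rank) (Fin D.rank) ℤ_[p] :=
  D.ρ σ + cycChar p σ • D.ρ σ⁻¹

/-- At powers of Frobenius elements `ρ + ω ρ⁻¹` is a Hecke operator. -/
theorem xMat_frobenius_pow {ℓ : ℕ} (hℓ : ℓ.Prime) (hℓN : ¬ ℓ ∣ N) (hℓS : ℓ ∉ S) (hℓp : ℓ ≠ p)
    {A : ValuationSubring Qb} (hA : A.LiesOverPrime ℓ) {τ : GQ} (hτ : A.IsFrobeniusAt τ ℓ)
    (m : ℕ) :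
    xMat D (τ ^ m) =
      hecMat D (powTrace (heckeAlgebra.T hℓ hℓN hℓS) (ℓ : heckeAlgebra N 2 S) m) := by
  set a := heckeAlgebra.T (k := 2) hℓ hℓN hℓS
  have hω := cycChar_frobenius p hℓ hℓp hA hτ
  have hinv : D.ρ τ⁻¹ * D.ρ τ = 1 := by rw [← map_mul, inv_mul_cancel, map_one]
  have hinv' : D.ρ τ * D.ρ τ⁻¹ = 1 := by rw [← map_mul, mul_inv_cancel, map_one]
  have hq : D.ρ τ * D.ρ τ - hecMat D a * D.ρ τ + (ℓ : Matrix _ _ ℤ_[p]) = 0 :=
    D.quad ℓ hℓ hℓN hℓS hℓp A hA τ hτ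
  have hsum : D.ρ τ + (ℓ : ℤ_[p]) • D.ρ τ⁻¹ = hecMat D a := by
    have h := congrArg (· * D.ρ τ⁻¹) hq
    simp only [add_mul, sub_mul, mul_assoc, hinv', mul_one, zero_mul] at h
    rw [← nsmul_one ℓ, smul_mul_assoc, one_mul, ← Nat.cast_smul_eq_nsmul ℤ_[p]] at h
    linear_combination (norm := module) h
  have hl : hecMat D (ℓ : heckeAlgebra N 2 S) = (ℓ : ℤ_[p]) • 1 := by
    rw [map_natCast, Nat.cast_smul_eq_nsmul, nsmul_one]
  rw [← pow_add_pow_eq_powTrace (hecMat D) a _ hsum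
    (by rw [mul_smul_comm, hinv', hl]) (by rw [smul_mul_assoc, hinv, hl]) m]
  rw [xMat, map_pow, map_pow, hω, smul_pow, ← map_pow D.ρ τ⁻¹, inv_pow]

theorem dvd_map_entries {r : ℕ} {n : ℕ} {A B M : Matrix (Fin r) (Fin r) ℤ_[p]}
    (hM : ∀ i j, (p : ℤ_[p]) ^ n ∣ M i j) :
    ∀ i j, (p : ℤ_[p]) ^ n ∣ (A * M * B) i j := by
  intro i j
  simp only [Matrix.mul_apply, Finset.sum_mul]
  exact Finset.dvd_sum fun x _ => Finset.dvd_sum fun y _ =>
    Dvd.dvd.mul_right (Dvd.dvd.mul_left (hM y x) _) _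

/-- Elements agreeing on a suitable finite level have congruent `ρ + ω ρ⁻¹`. -/
theorem exists_level_xMat (n : ℕ) :
    ∃ U : IntermediateField ℚ Qb, FiniteDimensional ℚ U ∧
      ∀ σ τ : GQ, (∀ a ∈ U, σ a = τ a) → ∀ i j, (p : ℤ_[p]) ^ n ∣ (xMat D σ - xMat D τ) i j := by
  obtain ⟨L, hL, hL1⟩ := D.continuous n
  obtain ⟨L', hL', hL'1⟩ := exists_level_cycChar p n
  refine ⟨L ⊔ L', IntermediateField.finiteDimensional_sup L L', fun σ τ h i j => ?_⟩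
  have hg : ∀ a ∈ L ⊔ L', (τ⁻¹ * σ) a = a := fun a ha => by
    rw [AlgEquiv.mul_apply, h a ha, ← AlgEquiv.mul_apply, inv_mul_cancel, AlgEquiv.one_apply]
  have hg' : ∀ a ∈ L ⊔ L', (σ⁻¹ * τ) a = a := fun a ha => by
    rw [AlgEquiv.mul_apply, ← h a ha, ← AlgEquiv.mul_apply, inv_mul_cancel, AlgEquiv.one_apply]
  have h1 : ∀ i j, (p : ℤ_[p]) ^ n ∣ (D.ρ (τ⁻¹ * σ) - 1) i j :=
    hL1 _ fun a ha => hg a (le_sup_left (b := L') ha)
  have h2 : ∀ i j, (p : ℤ_[p]) ^ n ∣ (D.ρ (σ⁻¹ * τ) - 1) i j :=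
    hL1 _ fun a ha => hg' a (le_sup_left (b := L') ha)
  have h3 : (p : ℤ_[p]) ^ n ∣ cycChar p (τ⁻¹ * σ) - 1 :=
    hL'1 _ fun a ha => hg a (le_sup_right (a := L) ha)
  have key : xMat D σ - xMat D τ =
      D.ρ τ * (D.ρ (τ⁻¹ * σ) - 1) * 1 +
        cycChar p σ • (1 * (D.ρ (σ⁻¹ * τ) - 1) * D.ρ τ⁻¹) +
        (cycChar p τ * (cycChar p (τ⁻¹ * σ) - 1)) • D.ρ τ⁻¹ := by
    have hcσ : cycChar p τ * cycChar p (τ⁻¹ * σ) = cycChar p σ := by
      rw [← map_mul, mul_inv_cancel_left]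
    rw [mul_one, one_mul, mul_sub, sub_mul, mul_one, one_mul, ← map_mul, mul_inv_cancel_left,
      ← map_mul, mul_assoc, mul_inv_cancel, mul_one, mul_sub, mul_one, hcσ, smul_sub, sub_smul]
    simp only [xMat]
    abel
  rw [key, Matrix.add_apply, Matrix.add_apply, Matrix.smul_apply, Matrix.smul_apply, smul_eq_mul,
    smul_eq_mul]
  exact dvd_add (dvd_add (dvd_map_entries h1 i j) (Dvd.dvd.mul_left (dvd_map_entries h2 i j) _))
    (Dvd.dvd.mul_right (Dvd.dvd.mul_left h3 _) _)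

/-- The hypothesis on `S`: it is finite and contains `p` and the primes of the level. -/
theorem exists_hecke_approx (hd : FrobDense) (hSfin : S.Finite) (σ : GQ) (n : ℕ) :
    ∃ t : heckeAlgebra N 2 S, ∀ i j, (p : ℤ_[p]) ^ n ∣ (xMat D σ - hecMat D t) i j := by
  classical
  obtain ⟨U, hU, hUc⟩ := exists_level_xMat D n
  obtain ⟨ℓ, hℓ, hℓS, A, hA, τ, hτ, m, hm⟩ :=
    hd U hU (hSfin.toFinset ∪ insert p N.primeFactors) σ
  simp only [Finset.mem_union, Set.Finite.mem_toFinset, Finset.mem_insert, not_or] at hℓS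
  have hℓN : ¬ ℓ ∣ N := fun h => hℓS.2.2 (Nat.mem_primeFactors.mpr ⟨hℓ, h, NeZero.ne N⟩)
  refine ⟨powTrace (heckeAlgebra.T hℓ hℓN hℓS.1) (ℓ : heckeAlgebra N 2 S) m, fun i j => ?_⟩
  rw [← xMat_frobenius_pow D hℓ hℓN hℓS.1 hℓS.2.1 hA hτ m]
  exact hUc σ (τ ^ m) hm i j

/-- The approximating element is unique modulo a bounded loss. -/
theorem exists_approx_unique :
    ∃ c : ℕ, ∀ (n : ℕ) (σ : GQ) (t t' : heckeAlgebra N 2 S),
      (∀ i j, (p : ℤ_[p]) ^ (n + c) ∣ (xMat D σ - hecMat D t) i j) →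
      (∀ i j, (p : ℤ_[p]) ^ (n + c) ∣ (xMat D σ - hecMat D t') i j) →
      ∃ u, t - t' = (p : heckeAlgebra N 2 S) ^ n * u := by
  obtain ⟨c, hc⟩ := exists_dvd_of_dvd_image D.ι D.ι_injective p
  refine ⟨c, fun n σ t t' h h' => hc n _ fun i j => ?_⟩
  have h1 := dvd_sub (h' i j) (h i j)
  rw [← Matrix.sub_apply, sub_sub_sub_cancel_left, ← map_sub, hecMat_apply, Matrix.map_apply] at h1
  exact (PadicInt.pow_p_dvd_int_iff _ _).mp h1

/-- Inertia outside `Np` leaves the approximations unchanged. -/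
theorem xMat_mul_inertia {ℓ : ℕ} (hℓ : ℓ.Prime) (hℓNp : ¬ ℓ ∣ N * p)
    {A : ValuationSubring Qb} (hA : A.LiesOverPrime ℓ) {σ : GQ}
    (hσ : σ ∈ A.inertiaSubgroupIn ℚ) (g : GQ) : xMat D (σ * g) = xMat D g := by
  have hℓp : ℓ ≠ p := fun h => hℓNp (h ▸ dvd_mul_left p N)
  have h1 := D.unramified ℓ hℓ hℓNp A hA σ hσ
  have h2 := D.unramified ℓ hℓ hℓNp A hA σ⁻¹ (inv_mem hσ)
  rw [xMat, xMat, _root_.mul_inv_rev, map_mul, map_mul (cycChar p), map_mul, h1, h2,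
    cycChar_inertia p hℓ hℓp hA hσ, one_mul, one_mul, mul_one]

end FermatAgent.GalRep
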