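import Fermat.Agent.GalRep.Construct.Inputs
import Fermat.Agent.GalRep.Construct.Residual
import Fermat.Agent.GalRep.Construct.Adic
import Fermat.Agent.GalRep.Construct.Datum
import Fermat.Agent.DSLift.Eigenform
import Fermat.Agent.Local.TorsionCount
import Fermat.Agent.Wiring.Frey
import Fermat.Prelude.Def_FreyPackage_EigenformResidualAttachment

/-!
The main theorems: representations attached to points of the Hecke algebra and to eigenforms,
and unramifiedness of Hecke-Galois data.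
-/

set_option autoImplicit false

noncomputable section

namespace FermatAgent.GalRep

open CuspForm Polynomial

local notation "Qb" => AlgebraicClosure ℚ
local notation "GQ" => AlgebraicClosure ℚ ≃ₐ[ℚ] AlgebraicClosure ℚ

/-- A Galois representation over `R` attached to a point `χ` of the Hecke algebra (statement of
S30 over `R` itself, with cyclotomic determinant). -/
theorem exists_galoisRepAdic_of_point (p : ℕ) [Fact p.Prime] (N : ℕ) [NeZero N] (S : Finset ℕ)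
    (hpS : p ∈ S) (hNS : ∀ q : ℕ, q.Prime → q ∣ N → q ∈ S)
    (R : Type) [CommRing R] [IsDomain R] [IsDiscreteValuationRing R]
    [IsAdicComplete (IsLocalRing.maximalIdeal R) R] [CharZero R]
    (hp : (p : R) ∈ IsLocalRing.maximalIdeal R)
    (χ : CuspForm.heckeAlgebra N 2 (↑S : Set ℕ) →+* R) :
    ∃ ρ : GaloisRepAdic R,
      (∀ (ℓ : ℕ) (hℓ : ℓ.Prime) (hℓN : ¬ ℓ ∣ N) (hℓS : ℓ ∉ (↑S : Set ℕ)),
        ∀ A : ValuationSubring Qb, A.LiesOverPrime ℓ → ∀ σ : GQ, A.IsFrobeniusAt σ ℓ →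
          LinearMap.charpoly (ρ.ρ σ) =
            X ^ 2 - C (χ (CuspForm.heckeAlgebra.T hℓ hℓN hℓS)) * X + C ((ℓ : R))) ∧
      (∀ q : ℕ, q.Prime → ¬ q ∣ N → q ≠ p → ρ.IsUnramifiedAt q) ∧
      (∀ σ : GQ, LinearMap.det (ρ.ρ σ) = padicToRing hp (cycChar p σ)) := by
  obtain ⟨D⟩ := tateData_nonempty N p (S := (↑S : Set ℕ)) hNS
  obtain ⟨ρ, hF, hU, hdet, -⟩ := exists_galoisRepAdic D frobDense S.finite_toSet hp χ
  refine ⟨ρ, fun ℓ hℓ hℓN hℓS A hA σ hσ => ?_, fun q hq hqN hqp => hU q hq ?_, hdet⟩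
  · exact hF ℓ hℓ hℓN hℓS (fun h => hℓS (h ▸ hpS)) A hA σ hσ
  · exact fun h => (hq.dvd_mul.mp h).elim hqN
      fun h' => hqp ((Nat.prime_dvd_prime_iff_eq hq Fact.out).mp h')

-- The instance binders repeat those of the frozen statement S30.
set_option linter.overlappingInstances false in
/-- S30. -/
theorem exists_galoisRep_of_point' :
    ∀ (p : ℕ) [Fact p.Prime] (N : ℕ) [NeZero N] (S : Finset ℕ)
      (_hpS : p ∈ S) (_hNS : ∀ q : ℕ, q.Prime → q ∣ N → q ∈ S)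
      (𝒪' : Type) [CommRing 𝒪'] [IsDomain 𝒪'] [IsDiscreteValuationRing 𝒪']
      [IsAdicComplete (IsLocalRing.maximalIdeal 𝒪') 𝒪'] [Finite (IsLocalRing.ResidueField 𝒪')]
      [CharZero 𝒪'] (_hp𝒪' : (p : 𝒪') ∈ IsLocalRing.maximalIdeal 𝒪')
      (χ : CuspForm.heckeAlgebra N 2 (↑S : Set ℕ) →+* 𝒪'),
      ∃ (𝒪'' : Type) (_ : CommRing 𝒪'') (_ : IsDomain 𝒪'') (_ : IsDiscreteValuationRing 𝒪'')
        (_ : IsAdicComplete (IsLocalRing.maximalIdeal 𝒪'') 𝒪'')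
        (_ : Finite (IsLocalRing.ResidueField 𝒪'')) (_ : CharZero 𝒪'')
        (_ : Algebra 𝒪' 𝒪'') (_ : Module.Finite 𝒪' 𝒪'') (_ : IsLocalHom (algebraMap 𝒪' 𝒪'')),
      Function.Injective (algebraMap 𝒪' 𝒪'') ∧
      ∃ ρ : GaloisRepAdic 𝒪'',
        (∀ (ℓ : ℕ) (hℓ : ℓ.Prime) (hℓN : ¬ ℓ ∣ N) (hℓS : ℓ ∉ (↑S : Set ℕ)),
          ∀ A : ValuationSubring (AlgebraicClosure ℚ), A.LiesOverPrime ℓ →
            ∀ σ : AlgebraicClosure ℚ ≃ₐ[ℚ] AlgebraicClosure ℚ, A.IsFrobeniusAt σ ℓ →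
              LinearMap.charpoly (ρ.ρ σ) =
                X ^ 2 - C (algebraMap 𝒪' 𝒪'' (χ (CuspForm.heckeAlgebra.T hℓ hℓN hℓS))) * X
                  + C ((ℓ : 𝒪''))) ∧
        (∀ q : ℕ, q.Prime → ¬ q ∣ N → q ≠ p → ρ.IsUnramifiedAt q) := by
  intro p _ N _ S hpS hNS O _ _ _ _ _ _ hp χ
  obtain ⟨ρ, hF, hU, -⟩ := exists_galoisRepAdic_of_point p N S hpS hNS O hp χ
  have hloc : IsLocalHom (algebraMap O O) := ⟨fun a ha => ha⟩
  exact ⟨O, inferInstance, inferInstance, inferInstance, inferInstance, inferInstance,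
    inferInstance, Algebra.id O, inferInstance, hloc, fun _ _ h => h, ρ, hF, hU⟩

/-- The finite field generated by the values of a character of the Hecke algebra. -/
theorem range_finite {T : Type} [CommRing T] [Module.Finite ℤ T] {k : Type} [CommRing k] {p : ℕ}
    (hp : p.Prime) [CharP k p] (f : T →+* k) : Finite f.range := by
  have : Module.Finite ℤ f.range :=
    Module.Finite.of_surjective f.rangeRestrict.toAddMonoidHom.toIntLinearMap
      f.rangeRestrict_surjective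
  have : AddGroup.FG f.range := Module.Finite.iff_addGroup_fg.mp this
  refine AddCommGroup.finite_of_fg_isAddTorsion _ fun x => ?_
  refine isOfFinAddOrder_iff_nsmul_eq_zero.mpr ⟨p, hp.pos, Subtype.ext ?_⟩
  show p • (x : k) = 0
  rw [nsmul_eq_mul, CharP.cast_eq_zero k p, zero_mul]

/-- S29. -/
theorem exists_residualGaloisRep_isAttachedTo'
    {N : ℕ} {g : CuspForm (CongruenceSubgroup.Gamma0 N) 2} (hg : g.IsNormalizedEigenform)
    {p : ℕ} (hp : p.Prime) {k : Type} [Field k] [CharP k p]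
    (φ : integralClosure ℤ ℂ →+* k) :
    ∃ ρ : ResidualGaloisRep k, ρ.IsAttachedTo g φ ∧
      ∀ ℓ : ℕ, ℓ.Prime → ¬ ℓ ∣ N * p → ρ.IsUnramifiedAt ℓ := by
  rcases eq_or_ne N 0 with rfl | hN
  · exact ⟨{ V := Fin 2 → k, finrank_eq := by simp, ρ := 1,
             factorsThroughFiniteLevel := ⟨⊥, inferInstance, fun _ _ => rfl⟩ },
      fun ℓ _ h => absurd (dvd_zero ℓ) h, fun ℓ _ h => absurd (by simp) h⟩
  have : NeZero N := ⟨hN⟩
  have : Fact p.Prime := ⟨hp⟩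
  let S : Finset ℕ := insert p N.primeFactors
  obtain ⟨D⟩ := tateData_nonempty N p (S := (↑S : Set ℕ)) fun q hq hqN => by
    simp [S, Nat.mem_primeFactors.mpr ⟨hq, hqN, hN⟩]
  obtain ⟨χ, -, hχ, -⟩ := DSLift.exists_ringHom_of_isNormalizedEigenform hg (↑S : Set ℕ)
  have : Module.Finite ℤ (heckeAlgebra N 2 (↑S : Set ℕ)) :=
    Module.Finite.of_injective D.ι.toAddMonoidHom.toIntLinearMap D.ι_injective
  let χ₀ : heckeAlgebra N 2 (↑S : Set ℕ) →+* integralClosure ℤ ℂ :=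
    χ.codRestrict (integralClosure ℤ ℂ).toSubring fun t =>
      (IsIntegral.map χ.toIntAlgHom (Algebra.IsIntegral.isIntegral (R := ℤ) t) :)
  let f : heckeAlgebra N 2 (↑S : Set ℕ) →+* k := φ.comp χ₀
  classical
  let K : Subring k := f.range
  have : Finite K := range_finite hp f
  let _ : Fintype K := Fintype.ofFinite K
  let _ : Field K := Fintype.fieldOfDomain K
  obtain ⟨ρ₀, hF, hU⟩ := exists_residualGaloisRep D frobDense S.finite_toSet f.rangeRestrict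
  refine ⟨ρ₀.baseChangeAlong K.subtype, fun ℓ hℓ hℓN hℓk A hA σ hσ => ?_,
    fun ℓ hℓ hℓNp A hA σ hσ => ?_⟩
  · have hℓp : ℓ ≠ p := fun h => hℓk (h ▸ CharP.cast_eq_zero k p)
    have hℓS : ℓ ∉ (↑S : Set ℕ) := by
      simp only [S, Finset.coe_insert, Set.mem_insert_iff, Finset.mem_coe, not_or]
      exact ⟨hℓp, fun h => hℓN (Nat.dvd_of_mem_primeFactors h)⟩
    refine ⟨χ₀ (heckeAlgebra.T hℓ hℓN hℓS), hχ ℓ hℓ hℓN hℓS, ?_⟩
    let _ : Algebra K k := K.subtype.toAlgebra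
    show LinearMap.charpoly ((ρ₀.ρ σ).baseChange k) = _
    rw [LinearMap.charpoly_baseChange, hF ℓ hℓ hℓN hℓS hℓp A hA σ hσ]
    simp only [Polynomial.map_add, Polynomial.map_sub, Polynomial.map_pow, Polynomial.map_X,
      Polynomial.map_mul, Polynomial.map_C, map_natCast, Polynomial.map_natCast]
    rfl
  · let _ : Algebra K k := K.subtype.toAlgebra
    show (ρ₀.ρ σ).baseChange k = 1
    rw [hU ℓ hℓ hℓNp A hA σ hσ, LinearMap.baseChange_one]

/-- S31. -/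
theorem datum_isUnramifiedAt_of_notMem {p : ℕ} {N : ℕ} [NeZero N] {S : Finset ℕ}
    {𝒪 : Type} [CommRing 𝒪] [IsDomain 𝒪] [IsDiscreteValuationRing 𝒪]
    [IsAdicComplete (IsLocalRing.maximalIdeal 𝒪) 𝒪]
    {θ : CuspForm.heckeAlgebra N 2 (↑S : Set ℕ) →+* IsLocalRing.ResidueField 𝒪}
    {T : Type} [CommRing T] [IsLocalRing T] [IsNoetherianRing T]
    [IsAdicComplete (IsLocalRing.maximalIdeal T) T] [Algebra 𝒪 T] [IsLocalHom (algebraMap 𝒪 T)]
    [Module.Finite 𝒪 T] [Module.Free 𝒪 T] (hp : p.Prime)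
    (hp𝒪 : (p : 𝒪) ∈ IsLocalRing.maximalIdeal 𝒪) (hpS : p ∈ S)
    (hNS : ∀ q : ℕ, q.Prime → q ∣ N → q ∈ S)
    (H : CuspForm.HeckeGaloisRepDatum N (↑S : Set ℕ) 𝒪 θ T)
    (q : ℕ) (hq : q.Prime) (hqS : q ∉ S) :
    H.ρ.IsUnramifiedAt q := by
  have : Fact p.Prime := ⟨hp⟩
  obtain ⟨D⟩ := tateData_nonempty N p (S := (↑S : Set ℕ)) hNS
  exact datum_isUnramifiedAt D frobDense hp𝒪 H q hq fun h => (hq.dvd_mul.mp h).elim
    (fun h' => hqS (hNS q hq h')) fun h' => hqS ((Nat.prime_dvd_prime_iff_eq hq hp).mp h' ▸ hpS)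

/-- S42. -/
theorem eigenformResidualAttachmentAt' (P : FreyPackage) :
    ∀ M : ℕ, 0 < M → P.EigenformResidualAttachmentAt M := by
  intro M hM g hg 𝔪 h𝔪 hp𝔪
  have : Fact P.p.Prime := ⟨P.pp⟩
  let _ : Field (integralClosure ℤ ℂ ⧸ 𝔪) := Ideal.Quotient.field 𝔪
  have : CharP (integralClosure ℤ ℂ ⧸ 𝔪) P.p := by
    rw [CharP.charP_iff_prime_eq_zero P.pp, ← map_natCast (Ideal.Quotient.mk 𝔪),
      Ideal.Quotient.eq_zero_iff_mem]
    exact hp𝔪
  obtain ⟨ρ, hatt, -⟩ :=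
    exists_residualGaloisRep_isAttachedTo' hg P.pp (Ideal.Quotient.mk 𝔪)
  obtain ⟨L, hL, hL1⟩ := ρ.factorsThroughFiniteLevel
  have hΔ : P.freyCurve.Δ ≠ 0 := by
    rw [← Wiring.map_freyCurveInt, WeierstrassCurve.map_Δ]
    exact (Int.cast_injective (α := ℚ)).ne_iff' (map_zero (Int.castRingHom ℚ)) |>.mpr
      (Wiring.freyCurveInt_Δ_ne_zero P)
  obtain ⟨L', hL', hL'1⟩ :=
    Local.galoisRep_factorsThroughFiniteLevel P.freyCurve hΔ P.pp.ne_zero
  have : IsAlgClosure ℚ Qb := AlgebraicClosure.instIsAlgClosure ℚ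
  have : Normal ℚ Qb := IsAlgClosure.normal ℚ Qb
  let F := IntermediateField.normalClosure ℚ ↥(L ⊔ L') Qb
  have : FiniteDimensional ℚ ↥(L ⊔ L') := IntermediateField.finiteDimensional_sup L L'
  have : Normal ℚ F := normalClosure.normal ℚ ↥(L ⊔ L') Qb
  have : FiniteDimensional ℚ F := normalClosure.is_finiteDimensional ℚ ↥(L ⊔ L') Qb
  have : Algebra.IsSeparable ℚ F := Algebra.IsSeparable.of_integral ℚ F
  have : IsGalois ℚ F := ⟨⟩
  have : NumberField F := ⟨⟩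
  have hle : L ⊔ L' ≤ F := IntermediateField.le_normalClosure (L ⊔ L')
  refine ⟨_, inferInstance, ZMod.algebra _ P.p, ρ.V, inferInstance, inferInstance, ρ.ρ,
    Ideal.Quotient.mk 𝔪, F, inferInstance, inferInstance, inferInstance, inferInstance,
    inferInstance, Ideal.mk_ker.ge, ρ.finrank_eq, fun σ hσ => ?_, ?_, ?_⟩
  · have hfix : ∀ x ∈ F, σ x = x := fun x hx => by
      have h1 := AlgEquiv.restrictNormal_commutes σ F ⟨x, hx⟩
      rw [show AlgEquiv.restrictNormal σ F = 1 from MonoidHom.mem_ker.mp hσ] at h1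
      exact h1.symm
    exact ⟨MonoidHom.mem_ker.mpr (hL'1 σ fun x hx => hfix x (hle (le_sup_right (a := L) hx))),
      MonoidHom.mem_ker.mpr (hL1 σ fun x hx => hfix x (hle (le_sup_left (b := L') hx)))⟩
  · intro ℓ hℓ hℓM hℓp A hA τ hτ
    have hℓk : (ℓ : integralClosure ℤ ℂ ⧸ 𝔪) ≠ 0 := fun h =>
      hℓp ((Nat.prime_dvd_prime_iff_eq P.pp hℓ).mp ((CharP.cast_eq_zero_iff _ P.p ℓ).mp h)).symm
    obtain ⟨a, ha, hcp⟩ := hatt ℓ hℓ hℓM hℓk A hA τ hτ
    refine ⟨a, ha, ?_⟩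
    have := trace_pow_of_charpoly ρ.finrank_eq _ _ _ hcp 1
    rwa [pow_one] at this
  · intro ℓ hℓ hℓM hℓp A hA τ hτ
    have hℓk : (ℓ : integralClosure ℤ ℂ ⧸ 𝔪) ≠ 0 := fun h =>
      hℓp ((Nat.prime_dvd_prime_iff_eq P.pp hℓ).mp ((CharP.cast_eq_zero_iff _ P.p ℓ).mp h)).symm
    obtain ⟨a, ha, hcp⟩ := hatt ℓ hℓ hℓM hℓk A hA τ hτ
    rw [LinearMap.det_eq_sign_charpoly_coeff, ρ.finrank_eq, hcp]
    simp

end FermatAgent.GalRep
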