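import Fermat.Agent.GalRep.Construct.Interface
import Fermat.Agent.GalRep.Construct.Cyclotomic
import Mathlib.LinearAlgebra.Matrix.ToLin

/-!
The `p`-adic matrix representation on the Tate module, from the torsion data and the
Eichler-Shimura inputs.
-/

set_option autoImplicit false

noncomputable section

namespace FermatAgent.GalRep

open CuspForm ModularCurve AlgebraicCurve Matrix

local notation "Qb" => AlgebraicClosure ℚ
local notation "GQ" => AlgebraicClosure ℚ ≃ₐ[ℚ] AlgebraicClosure ℚ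

variable {p : ℕ} [Fact p.Prime]

/-- A compatible system of residues is a `p`-adic integer. -/
theorem exists_padicInt_of_compatible (a : ∀ n, ZMod (p ^ n))
    (h : ∀ n, ZMod.castHom (pow_dvd_pow p n.le_succ) (ZMod (p ^ n)) (a (n + 1)) = a n) :
    ∃ x : ℤ_[p], ∀ n, x.toZModPow n = a n := by
  have hdiv : ∀ i, (p : ℤ) ^ i ∣ ((a (i + 1)).val : ℤ) - ((a i).val : ℤ) := fun i => by
    have : ((((a (i + 1)).val : ℤ) - ((a i).val : ℤ) : ℤ) : ZMod (p ^ i)) = 0 := by
      push_cast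
      rw [ZMod.natCast_zmod_val, sub_eq_zero, ← h i, ZMod.natCast_val, ZMod.castHom_apply]
    have h2 := (ZMod.intCast_zmod_eq_zero_iff_dvd _ _).mp this
    exact_mod_cast h2
  refine ⟨PadicInt.ofIntSeq _ (PadicInt.isCauSeq_padicNorm_of_pow_dvd_sub
    (fun i => ((a i).val : ℤ)) _ hdiv), fun n => ?_⟩
  refine (PadicInt.toZModPow_ofIntSeq_of_pow_dvd_sub (fun i => ((a i).val : ℤ)) _ hdiv n).trans ?_
  simp

theorem matrix_ext_of_toZModPow {r : ℕ} {A B : Matrix (Fin r) (Fin r) ℤ_[p]}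
    (h : ∀ n, (PadicInt.toZModPow n).mapMatrix A = (PadicInt.toZModPow n).mapMatrix B) : A = B :=
  Matrix.ext fun i j => PadicInt.ext_of_toZModPow.mp fun n => congrFun (congrFun (h n) i) j

variable {N : ℕ} [NeZero N] {S : Set ℕ} (D : HeckeTorsionData N p S)

local notation "Tor" n => Pic0.torsion Qb (modularFunctionFieldBar N) (p ^ n)

omit [Fact p.Prime] [NeZero N] in
theorem mem_torsion_pow {n : ℕ} {x : JZero N} :
    x ∈ (Tor n) ↔ p ^ n • x = 0 := by
  rw [Pic0.mem_torsion, ← natCast_zsmul]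

omit [Fact p.Prime] [NeZero N] in
theorem galois_nsmul (σ : GQ) (k : ℕ) (x : JZero N) : σ • (k • x) = k • (σ • x) :=
  map_nsmul (DistribSMul.toAddMonoidHom (JZero N) σ) k x

omit [Fact p.Prime] [NeZero N] in
theorem galois_torsion (σ : GQ) {k : ℕ} {x : JZero N} (h : k • x = 0) : k • (σ • x) = 0 := by
  rw [← galois_nsmul σ, h]
  exact (DistribSMul.toAddMonoidHom (JZero N) σ).map_zero

/-- Galois on the `pⁿ`-torsion in coordinates. -/
def levelHom (n : ℕ) (σ : GQ) :
    (Fin D.rank → ZMod (p ^ n)) →+ (Fin D.rank → ZMod (p ^ n)) :=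
  (D.e n).toAddMonoidHom.comp
    (({ toFun := fun x =>
          ⟨σ • (x : JZero N), mem_torsion_pow.mpr (galois_torsion σ (mem_torsion_pow.mp x.2))⟩
        map_zero' := Subtype.ext (smul_zero _)
        map_add' := fun _ _ => Subtype.ext (smul_add _ _ _) } :
        Pic0.torsion Qb (modularFunctionFieldBar N) (p ^ n) →+
          Pic0.torsion Qb (modularFunctionFieldBar N) (p ^ n)).comp (D.e n).symm.toAddMonoidHom)

omit [Fact p.Prime] in
theorem levelHom_e (n : ℕ) (σ : GQ) (x y : Tor n) (h : (y : JZero N) = σ • (x : JZero N)) :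
    levelHom D n σ (D.e n x) = D.e n y := by
  show D.e n _ = _
  congr 1
  apply Subtype.ext
  simp [h]

/-- The matrix of `σ` on the `pⁿ`-torsion. -/
def levelMat (n : ℕ) (σ : GQ) : Matrix (Fin D.rank) (Fin D.rank) (ZMod (p ^ n)) :=
  LinearMap.toMatrix' ((levelHom D n σ).toZModLinearMap (p ^ n))

omit [Fact p.Prime] in
theorem levelMat_e (n : ℕ) (σ : GQ) (x y : Tor n) (h : (y : JZero N) = σ • (x : JZero N)) :
    levelMat D n σ *ᵥ D.e n x = D.e n y := by
  rw [levelMat, LinearMap.toMatrix'_mulVec]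
  exact levelHom_e D n σ x y h

omit [Fact p.Prime] in
theorem levelMat_eq_of_forall (n : ℕ) (σ : GQ) (M : Matrix (Fin D.rank) (Fin D.rank) (ZMod (p ^ n)))
    (h : ∀ x y : Tor n, (y : JZero N) = σ • (x : JZero N) → M *ᵥ D.e n x = D.e n y) :
    M = levelMat D n σ := by
  refine Matrix.ext fun i j => ?_
  have h1 : M *ᵥ Pi.single j 1 = levelMat D n σ *ᵥ Pi.single j 1 := by
    obtain ⟨x, hx⟩ := (D.e n).surjective (Pi.single j 1)
    let y : Tor n := ⟨σ • (x : JZero N), mem_torsion_pow.mpr (galois_torsion σ (mem_torsion_pow.mp x.2))⟩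
    rw [← hx, h x y rfl, levelMat_e D n σ x y rfl]
  simpa using congrFun h1 i

omit [Fact p.Prime] in
theorem levelMat_mul (n : ℕ) (σ τ : GQ) :
    levelMat D n (σ * τ) = levelMat D n σ * levelMat D n τ := by
  refine (levelMat_eq_of_forall D n (σ * τ) _ fun x y hy => ?_).symm
  let z : Tor n := ⟨τ • (x : JZero N), mem_torsion_pow.mpr (galois_torsion τ (mem_torsion_pow.mp x.2))⟩
  rw [← Matrix.mulVec_mulVec, levelMat_e D n τ x z rfl,
    levelMat_e D n σ z y (by rw [hy, mul_smul])]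

omit [Fact p.Prime] in
theorem levelMat_of_fixing (n : ℕ) (σ : GQ) (h : ∀ x : JZero N, p ^ n • x = 0 → σ • x = x) :
    levelMat D n σ = 1 := by
  refine (levelMat_eq_of_forall D n σ 1 fun x y hy => ?_).symm
  rw [Matrix.one_mulVec]
  congr 1
  exact Subtype.ext (by rw [hy, h _ (mem_torsion_pow.mp x.2)])

omit [Fact p.Prime] in
theorem levelMat_succ (n : ℕ) (σ : GQ) :
    (ZMod.castHom (pow_dvd_pow p n.le_succ) (ZMod (p ^ n))).mapMatrix (levelMat D (n + 1) σ) =
      levelMat D n σ := by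
  set c := ZMod.castHom (pow_dvd_pow p n.le_succ) (ZMod (p ^ n))
  refine Matrix.ext fun i j => ?_
  obtain ⟨x, hx⟩ := (D.e (n + 1)).surjective (Pi.single j 1)
  have hx' : p ^ (n + 1) • (x : JZero N) = 0 := mem_torsion_pow.mp x.2
  let x₀ : Tor n := ⟨p • (x : JZero N), mem_torsion_pow.mpr (by
    rw [← mul_nsmul', ← pow_succ, hx'])⟩
  let y : Tor (n + 1) := ⟨σ • (x : JZero N), mem_torsion_pow.mpr (galois_torsion σ hx')⟩
  let y₀ : Tor n := ⟨p • (σ • (x : JZero N)), mem_torsion_pow.mpr (by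
    rw [← mul_nsmul', ← pow_succ, galois_torsion σ hx'])⟩
  have h0 := levelMat_e D n σ x₀ y₀ (galois_nsmul σ p _).symm
  have h1 := levelMat_e D (n + 1) σ x y rfl
  have hx0 : D.e n x₀ = Pi.single j 1 := funext fun k => by
    rw [D.e_mul n x x₀ rfl k, hx]
    rcases eq_or_ne k j with rfl | hk
    · rw [Pi.single_eq_same, Pi.single_eq_same, map_one]
    · simp [hk]
  rw [hx0] at h0
  rw [hx] at h1
  have h2 := congrFun h0 i
  have h3 := congrFun h1 i
  simp only [Matrix.mulVec_single_one, Matrix.col_apply] at h2 h3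
  rw [h2, RingHom.mapMatrix_apply, Matrix.map_apply, h3, D.e_mul n y y₀ rfl i]

omit [Fact p.Prime] in
theorem levelMat_comm_T (n : ℕ) (σ : GQ) {ℓ : ℕ} (hℓ : ℓ.Prime) (hℓN : ¬ ℓ ∣ N) (hℓS : ℓ ∉ S) :
    Commute (levelMat D n σ)
      ((D.ι (heckeAlgebra.T hℓ hℓN hℓS)).map (Int.cast : ℤ → ZMod (p ^ n))) := by
  refine Matrix.ext fun i j => ?_
  obtain ⟨x, hx⟩ := (D.e n).surjective (Pi.single j 1)
  have hx' := mem_torsion_pow.mp x.2
  set T := heckeOperatorBar N ⟨ℓ, hℓ⟩
  let Tx : Tor n := ⟨T x, mem_torsion_pow.mpr (by rw [← map_nsmul, hx', map_zero])⟩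
  let σx : Tor n := ⟨σ • (x : JZero N), mem_torsion_pow.mpr (galois_torsion σ hx')⟩
  let σTx : Tor n := ⟨σ • T x, mem_torsion_pow.mpr
    (galois_torsion σ (by rw [← map_nsmul, hx', map_zero]))⟩
  have h1 := D.e_hecke n ℓ hℓ hℓN hℓS x Tx rfl
  have h2 := D.e_hecke n ℓ hℓ hℓN hℓS σx σTx (D.hecke_smul n ℓ hℓ hℓN hℓS σ x hx').symm
  rw [← levelMat_e D n σ Tx σTx rfl, h1, ← levelMat_e D n σ x σx rfl, hx, Matrix.mulVec_mulVec,
    Matrix.mulVec_mulVec] at h2
  simpa using congrFun h2 i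

/-- The `p`-adic matrix of `σ`. -/
def tateMat (σ : GQ) : Matrix (Fin D.rank) (Fin D.rank) ℤ_[p] :=
  Matrix.of fun i j => (exists_padicInt_of_compatible (fun n => levelMat D n σ i j)
    (fun n => congrFun (congrFun (levelMat_succ D n σ) i) j)).choose

theorem tateMat_toZModPow (n : ℕ) (σ : GQ) :
    (PadicInt.toZModPow n).mapMatrix (tateMat D σ) = levelMat D n σ :=
  Matrix.ext fun i j => (exists_padicInt_of_compatible (fun n => levelMat D n σ i j)
    (fun n => congrFun (congrFun (levelMat_succ D n σ) i) j)).choose_spec n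

theorem map_intCast_toZModPow (n : ℕ) (M : Matrix (Fin D.rank) (Fin D.rank) ℤ) :
    (PadicInt.toZModPow n).mapMatrix (M.map (Int.cast : ℤ → ℤ_[p])) =
      M.map (Int.cast : ℤ → ZMod (p ^ n)) := by
  ext i j; simp

/-- The Galois representation on the Tate module. -/
def tateHom : GQ →* Matrix (Fin D.rank) (Fin D.rank) ℤ_[p] where
  toFun := tateMat D
  map_one' := matrix_ext_of_toZModPow fun n => by
    rw [tateMat_toZModPow, map_one]
    exact levelMat_of_fixing D n 1 fun x _ => one_smul _ x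
  map_mul' σ τ := matrix_ext_of_toZModPow fun n => by
    rw [map_mul, tateMat_toZModPow, tateMat_toZModPow, tateMat_toZModPow, levelMat_mul]

theorem commute_tateHom (hS : ∀ q : ℕ, q.Prime → q ∣ N → q ∈ S) (σ : GQ)
    (t : heckeAlgebra N 2 S) :
    Commute (tateHom D σ) ((D.ι t).map (Int.cast : ℤ → ℤ_[p])) := by
  suffices h : ∀ u (hu : u ∈ heckeAlgebra N 2 S),
      Commute (tateHom D σ) ((Int.castRingHom ℤ_[p]).mapMatrix (D.ι ⟨u, hu⟩)) from h t t.2
  intro u hu
  induction hu using Algebra.adjoin_induction with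
  | mem u hu =>
    rcases hu with ⟨ℓ, hℓ, hℓN, hℓS, rfl⟩ | ⟨q, hqN, hq, hqS, -⟩
    · refine matrix_ext_of_toZModPow fun n => ?_
      show (PadicInt.toZModPow n).mapMatrix (tateMat D σ *
          (D.ι (heckeAlgebra.T hℓ hℓN hℓS)).map (Int.cast : ℤ → ℤ_[p])) =
        (PadicInt.toZModPow n).mapMatrix ((D.ι (heckeAlgebra.T hℓ hℓN hℓS)).map
          (Int.cast : ℤ → ℤ_[p]) * tateMat D σ)
      rw [map_mul, map_mul, tateMat_toZModPow, map_intCast_toZModPow]
      exact levelMat_comm_T D n σ hℓ hℓN hℓS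
    · exact absurd (hS q hq hqN) hqS
  | algebraMap c =>
    have h : (⟨algebraMap ℤ _ c, (heckeAlgebra N 2 S).algebraMap_mem c⟩ : heckeAlgebra N 2 S) =
        algebraMap ℤ (heckeAlgebra N 2 S) c := rfl
    rw [h, eq_intCast, map_intCast, map_intCast]
    exact (Int.commute_cast _ c)
  | add u v hu hv h1 h2 =>
    have h : (⟨u + v, add_mem hu hv⟩ : heckeAlgebra N 2 S) = ⟨u, hu⟩ + ⟨v, hv⟩ := rfl
    rw [h, map_add, map_add]
    exact h1.add_right h2
  | mul u v hu hv h1 h2 =>
    have h : (⟨u * v, mul_mem hu hv⟩ : heckeAlgebra N 2 S) = ⟨u, hu⟩ * ⟨v, hv⟩ := rfl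
    rw [h, map_mul, map_mul]
    exact h1.mul_right h2

/-- The Tate module data given by the torsion data and the Eichler-Shimura inputs. -/
def heckeTateDataOf (hU : TorsionUnramified N p) (hQ : TorsionFrobQuadratic N p)
    (hS : ∀ q : ℕ, q.Prime → q ∣ N → q ∈ S) : HeckeTateData N p S := by
  refine { rank := D.rank, ι := D.ι, ι_injective := D.ι_injective, ρ := tateHom D,
           comm := commute_tateHom D hS, continuous := fun n => ?_,
           unramified := fun ℓ hℓ hℓNp A hA σ hσ => ?_,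
           quad := fun ℓ hℓ hℓN hℓS hℓp A hA τ hτ => ?_ }
  · obtain ⟨L, hL, h⟩ := D.finite_level n
    refine ⟨L, hL, fun σ hσ i j => ?_⟩
    rw [← Ideal.mem_span_singleton, ← PadicInt.ker_toZModPow, RingHom.mem_ker]
    show (PadicInt.toZModPow n).mapMatrix (tateMat D σ - 1) i j = 0
    rw [map_sub, map_one, tateMat_toZModPow, levelMat_of_fixing D n σ (h σ hσ), sub_self,
      Matrix.zero_apply]
  · refine matrix_ext_of_toZModPow fun n => ?_
    show (PadicInt.toZModPow n).mapMatrix (tateMat D σ) = _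
    rw [tateMat_toZModPow, map_one]
    exact levelMat_of_fixing D n σ (hU ℓ hℓ hℓNp A hA σ hσ n)
  · have hℓNp : ¬ ℓ ∣ N * p := fun h => (hℓ.dvd_mul.mp h).elim hℓN
      fun h' => hℓp ((Nat.prime_dvd_prime_iff_eq hℓ Fact.out).mp h')
    refine matrix_ext_of_toZModPow fun n => ?_
    simp only [map_add, map_sub, map_mul, map_natCast, map_zero]
    show (PadicInt.toZModPow n).mapMatrix (tateMat D τ) *
        (PadicInt.toZModPow n).mapMatrix (tateMat D τ) -
      (PadicInt.toZModPow n).mapMatrix ((D.ι _).map (Int.cast : ℤ → ℤ_[p])) *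
        (PadicInt.toZModPow n).mapMatrix (tateMat D τ) + _ = 0
    rw [tateMat_toZModPow, map_intCast_toZModPow]
    refine Matrix.ext fun i j => ?_
    obtain ⟨x, hx⟩ := (D.e n).surjective (Pi.single j 1)
    have hx' := mem_torsion_pow.mp x.2
    set T := heckeOperatorBar N ⟨ℓ, hℓ⟩
    let τx : Pic0.torsion Qb (modularFunctionFieldBar N) (p ^ n) :=
      ⟨τ • (x : JZero N), mem_torsion_pow.mpr (galois_torsion τ hx')⟩
    let ττx : Pic0.torsion Qb (modularFunctionFieldBar N) (p ^ n) :=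
      ⟨τ • τ • (x : JZero N), mem_torsion_pow.mpr (galois_torsion τ (galois_torsion τ hx'))⟩
    let Tτx : Pic0.torsion Qb (modularFunctionFieldBar N) (p ^ n) :=
      ⟨T (τ • (x : JZero N)), mem_torsion_pow.mpr (by
        rw [← map_nsmul, galois_torsion τ hx', map_zero])⟩
    have hrel : ττx - Tτx + ℓ • x = 0 := Subtype.ext (by
      push_cast
      exact hQ ℓ hℓ hℓNp A hA τ hτ n x hx')
    have h0 := congrArg (D.e n) hrel
    rw [map_add, map_sub, map_nsmul, map_zero, ← levelMat_e D n τ τx ττx rfl,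
      D.e_hecke n ℓ hℓ hℓN hℓS τx Tτx rfl, ← levelMat_e D n τ x τx rfl, hx,
      Matrix.mulVec_mulVec, Matrix.mulVec_mulVec] at h0
    have h1 := congrFun h0 i
    simpa [Matrix.mulVec_single_one, Pi.single_apply, Matrix.natCast_apply, nsmul_eq_mul,
      Matrix.diagonal_apply, eq_comm (a := i) (b := j)] using h1

omit D in
/-- The torsion data and the Eichler-Shimura inputs give the Tate module data. -/
theorem nonempty_heckeTateData (hT : HeckeTorsionInput) (hU : TorsionUnramified N p)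
    (hQ : TorsionFrobQuadratic N p) (hS : ∀ q : ℕ, q.Prime → q ∣ N → q ∈ S) :
    Nonempty (HeckeTateData N p S) :=
  (hT N p Fact.out S hS).elim fun D => ⟨heckeTateDataOf D hU hQ hS⟩

end FermatAgent.GalRep
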