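import Mathlib.LinearAlgebra.Matrix.ToLin
import Mathlib.LinearAlgebra.Charpoly.ToMatrix
import Mathlib.LinearAlgebra.Matrix.Charpoly.Basic
import Mathlib.RepresentationTheory.AlgebraRepresentation.Basic
import Mathlib.RingTheory.SimpleModule.Basic
import Mathlib.FieldTheory.IsAlgClosed.Basic
import Mathlib.LinearAlgebra.Trace

/-!
An irreducible representation `r` over an algebraically closed field in which every element
satisfies `r g + ω g • r g⁻¹ = s g • 1` has dimension at most two; in dimension two `s` is the
trace and `ω` the determinant.
-/

set_option autoImplicit false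

noncomputable section

namespace FermatAgent.GalRep

open Module

variable {L : Type*} [Field L] {G : Type*} [Group G] {V : Type*} [AddCommGroup V] [Module L V]

/-- A nonzero finite-dimensional representation has an irreducible subrepresentation. -/
theorem exists_irreducible_invariant [FiniteDimensional L V] [Nontrivial V]
    (ρ : G →* Module.End L V) :
    ∃ W : Submodule L V, W ≠ ⊥ ∧ (∀ g, ∀ x ∈ W, ρ g x ∈ W) ∧
      ∀ U : Submodule L V, U ≤ W → (∀ g, ∀ x ∈ U, ρ g x ∈ U) → U = ⊥ ∨ U = W := by
  obtain ⟨W, ⟨hW0, hW⟩, hmin⟩ := WellFounded.has_min (wellFounded_lt (α := Submodule L V))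
    {W | W ≠ ⊥ ∧ ∀ g, ∀ x ∈ W, ρ g x ∈ W} ⟨⊤, by simp, fun _ _ _ => trivial⟩
  refine ⟨W, hW0, hW, fun U hUW hU => ?_⟩
  by_contra hne
  push Not at hne
  exact hmin U ⟨hne.1, hU⟩ (lt_of_le_of_ne hUW hne.2)

/-- Burnside: the image of an irreducible representation over an algebraically closed field spans
the endomorphism algebra. -/
theorem span_range_eq_top_of_irreducible [IsAlgClosed L] [FiniteDimensional L V] [Nontrivial V]
    (r : G →* Module.End L V)
    (hirr : ∀ U : Submodule L V, (∀ g, ∀ x ∈ U, r g x ∈ U) → U = ⊥ ∨ U = ⊤) :
    Submodule.span L (Set.range r) = ⊤ := by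
  let A : Subalgebra L (Module.End L V) := Algebra.adjoin L (Set.range r)
  have hA : Subalgebra.toSubmodule A = Submodule.span L (Set.range r) := by
    have hcl : ((Submonoid.closure (Set.range r)) : Set (Module.End L V)) = Set.range r := by
      rw [← MonoidHom.coe_mrange, Submonoid.closure_eq]
    rw [Algebra.adjoin_eq_span, hcl]
  have hr : ∀ g, r g ∈ A := fun g => Algebra.subset_adjoin ⟨g, rfl⟩
  have hsimple : IsSimpleModule A V := by
    rw [isSimpleModule_iff]
    refine { exists_pair_ne := ⟨⊥, ⊤, bot_ne_top⟩, eq_bot_or_eq_top := fun U => ?_ }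
    rcases hirr (U.restrictScalars L) (fun g x hx => U.smul_mem ⟨r g, hr g⟩ hx) with h | h
    · exact Or.inl ((Submodule.restrictScalars_eq_bot_iff L A V).mp h)
    · exact Or.inr ((Submodule.restrictScalars_eq_top_iff L A V).mp h)
  have hschur := IsSimpleModule.algebraMap_end_bijective_of_isAlgClosed (k := L) (A := A) (V := V)
  rw [eq_top_iff]
  intro f _
  let f' : Module.End (Module.End A V) V :=
    { toFun := f
      map_add' := f.map_add
      map_smul' := fun φ x => by
        obtain ⟨c, rfl⟩ := hschur.2 φ
        simp }
  classical
  obtain ⟨a, ha⟩ := jacobson_density (R := A) f'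
    (Finset.univ.image (Module.finBasis L V))
  have hf : f = (a : Module.End L V) := (Module.finBasis L V).ext fun i => ha _ (by simp)
  rw [← hA, hf]
  exact a.2

variable (r : G →* Module.End L V) (ω : G →* L) (s : G → L)

/-- The symmetrised product identity. -/
theorem anticomm_of_quadratic (h : ∀ g, r g + ω g • r g⁻¹ = s g • 1) (g k : G) :
    r g * r k + r k * r g = s k • r g + s g • r k + (s (g * k) - s g * s k) • 1 := by
  have hi : ∀ x, ω x • r x⁻¹ = s x • (1 : Module.End L V) - r x := fun x =>
    eq_sub_of_add_eq' (h x)
  have h1 : ω (g * k) • r (g * k)⁻¹ = (ω k • r k⁻¹) * (ω g • r g⁻¹) := by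
    rw [smul_mul_smul_comm, ← map_mul r, mul_inv_rev, map_mul, mul_comm (ω k)]
  rw [hi, hi, hi, map_mul] at h1
  simp only [sub_mul, mul_sub, smul_mul_assoc, mul_smul_comm, one_mul, mul_one] at h1
  rw [sub_smul, mul_comm (s g) (s k)]
  linear_combination (norm := module) -h1

/-- If the image spans and the dimension is at least two, `g ↦ s g` is the restriction of a linear
functional. -/
theorem exists_functional_of_quadratic [FiniteDimensional L V]
    (h : ∀ g, r g + ω g • r g⁻¹ = s g • 1) (hspan : Submodule.span L (Set.range r) = ⊤)
    (hdim : 1 < finrank L V) :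
    ∃ t : Module.End L V →ₗ[L] L, ∀ g, t (r g) = s g := by
  let ev := Finsupp.linearCombination L (fun g => r g)
  let T := Finsupp.linearCombination L s
  let ev' := Finsupp.linearCombination L (fun g => ω g • r g⁻¹)
  have hsum : ∀ c, ev c + ev' c = T c • 1 := by
    intro c
    induction c using Finsupp.induction_linear with
    | zero => simp
    | add a b ha hb => rw [map_add, map_add, map_add, add_smul, ← ha, ← hb]; abel
    | single g x =>
      simp only [ev, ev', T, Finsupp.linearCombination_single, smul_eq_mul]
      rw [← smul_add, h g, smul_smul]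
  have hker : ∀ c, ev c = 0 → T c = 0 := by
    intro c hc
    by_contra hT
    -- otherwise every element would act as a scalar
    have hscal : ∀ g, r g ∈ Submodule.span L {(1 : Module.End L V)} := by
      intro g
      let c' := c.mapDomain (fun x => g⁻¹ * x)
      have hev : ev c' = r g⁻¹ * ev c := by
        simp only [ev, c', Finsupp.linearCombination_mapDomain]
        clear hc hT c'
        induction c using Finsupp.induction_linear with
        | zero => simp
        | add a b ha hb => rw [map_add, map_add, mul_add, ha, hb]
        | single x y => simp [map_mul]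
      have hev' : ev' c' = ω g⁻¹ • (ev' c * r g) := by
        simp only [ev', c', Finsupp.linearCombination_mapDomain]
        clear hc hT hev c'
        induction c using Finsupp.induction_linear with
        | zero => simp
        | add a b ha hb => rw [map_add, map_add, add_mul, smul_add, ha, hb]
        | single x y =>
          simp only [Finsupp.linearCombination_single, Function.comp_apply, map_mul, mul_inv_rev,
            inv_inv, smul_mul_assoc, smul_smul]
          ring_nf
      have h1 := hsum c'
      have h2 := hsum c
      rw [hc, zero_add] at h2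
      rw [hev, hc, mul_zero, zero_add, hev', h2, smul_mul_assoc, one_mul, smul_smul] at h1
      have hω : ω g⁻¹ ≠ 0 := ((Group.isUnit g⁻¹).map ω).ne_zero
      refine Submodule.mem_span_singleton.mpr ⟨T c' / (ω g⁻¹ * T c), ?_⟩
      rw [div_eq_inv_mul, mul_smul, ← h1, smul_smul, inv_mul_cancel₀ (mul_ne_zero hω hT),
        one_smul]
    have hle : (⊤ : Submodule L (Module.End L V)) ≤ Submodule.span L {1} := by
      rw [← hspan, Submodule.span_le]
      rintro _ ⟨g, rfl⟩
      exact hscal g
    have h1 := (Submodule.finrank_mono hle).trans (finrank_span_le_card _)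
    rw [finrank_top, finrank_linearMap] at h1
    simp only [Set.toFinset_singleton, Finset.card_singleton] at h1
    nlinarith
  have hsurj : Function.Surjective ev := by
    rw [← LinearMap.range_eq_top]
    simpa [ev, Finsupp.range_linearCombination] using hspan
  obtain ⟨sec, hsec⟩ := LinearMap.exists_rightInverse_of_surjective ev
    (LinearMap.range_eq_top.mpr hsurj)
  refine ⟨T ∘ₗ sec, fun g => ?_⟩
  have h0 := hker (sec (r g) - Finsupp.single g 1) (by
    rw [map_sub]
    have := LinearMap.congr_fun hsec (r g)
    simp only [LinearMap.comp_apply, LinearMap.id_apply] at this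
    simp [this, ev])
  rw [map_sub, sub_eq_zero] at h0
  simpa [T] using h0

/-- An irreducible such representation has dimension at most two. -/
theorem finrank_le_two_of_quadratic [FiniteDimensional L V]
    (h : ∀ g, r g + ω g • r g⁻¹ = s g • 1) (hspan : Submodule.span L (Set.range r) = ⊤) :
    finrank L V ≤ 2 := by
  by_contra hdim
  push Not at hdim
  obtain ⟨t, ht⟩ := exists_functional_of_quadratic r ω s h hspan (by omega)
  have key : ∀ x y : Module.End L V,
      x * y + y * x = t y • x + t x • y + (t (x * y) - t x * t y) • 1 := by
    intro x y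
    have hx : x ∈ Submodule.span L (Set.range r) := hspan ▸ Submodule.mem_top
    induction hx using Submodule.span_induction generalizing y with
    | mem x hx =>
      obtain ⟨g, rfl⟩ := hx
      have hy : y ∈ Submodule.span L (Set.range r) := hspan ▸ Submodule.mem_top
      induction hy using Submodule.span_induction with
      | mem y hy =>
        obtain ⟨k, rfl⟩ := hy
        rw [← map_mul r, ht, ht, ht, map_mul]
        exact anticomm_of_quadratic r ω s h g k
      | zero => simp
      | add a b _ _ ha hb =>
        simp only [mul_add, add_mul, map_add]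
        linear_combination (norm := module) ha + hb
      | smul c a _ ha =>
        simp only [mul_smul_comm, smul_mul_assoc, map_smul, smul_eq_mul]
        linear_combination (norm := module) c • ha
    | zero => simp
    | add a b _ _ ha hb =>
      have ha' := ha y
      have hb' := hb y
      simp only [mul_add, add_mul, map_add]
      linear_combination (norm := module) ha' + hb'
    | smul c a _ ha =>
      have ha' := ha y
      simp only [mul_smul_comm, smul_mul_assoc, map_smul, smul_eq_mul]
      linear_combination (norm := module) c • ha'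
  let b := Module.finBasis L V
  let i : Fin (finrank L V) := ⟨0, by omega⟩
  let j : Fin (finrank L V) := ⟨1, by omega⟩
  let k : Fin (finrank L V) := ⟨2, by omega⟩
  have hij : i ≠ j := by simp [i, j]
  have hjk : j ≠ k := by simp [j, k]
  have hik : i ≠ k := by simp [i, k]
  have hk := congrArg (LinearMap.toMatrixAlgEquiv b)
    (key ((LinearMap.toMatrixAlgEquiv b).symm (Matrix.single i j 1))
      ((LinearMap.toMatrixAlgEquiv b).symm (Matrix.single j k 1)))
  simp only [map_add, map_mul, map_smul, map_one, AlgEquiv.apply_symm_apply] at hk
  have hik' := congrFun (congrFun hk i) k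
  simp [hij.symm, hjk, hik, hik.symm] at hik'

/-- In dimension two, `s` is the trace and `ω` the determinant. -/
theorem trace_det_of_quadratic (r : G →* Matrix (Fin 2) (Fin 2) L) (ω : G →* L) (s : G → L)
    (h : ∀ g, r g + ω g • r g⁻¹ = s g • 1) (hspan : Submodule.span L (Set.range r) = ⊤) (g : G) :
    (r g).trace = s g ∧ (r g).det = ω g := by
  let e := Matrix.toLinAlgEquiv' (R := L) (n := Fin 2)
  let r' : G →* Module.End L (Fin 2 → L) := (e : _ ≃* _).toMonoidHom.comp r
  have hr' : ∀ x, r' x = e (r x) := fun _ => rfl
  have h' : ∀ x, r' x + ω x • r' x⁻¹ = s x • 1 := fun x => by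
    rw [hr', hr', ← map_smul e, ← map_add e, h x, map_smul, map_one]
  have hspan' : Submodule.span L (Set.range r') = ⊤ := by
    have hrange : Set.range r' = e.toLinearMap '' Set.range r := by
      rw [← Set.range_comp]; rfl
    rw [hrange, Submodule.span_image, hspan, Submodule.map_top, LinearMap.range_eq_top]
    exact e.surjective
  obtain ⟨t, ht⟩ := exists_functional_of_quadratic r' ω s h' hspan' (by simp)
  have hq : r g * r g - s g • r g + ω g • (1 : Matrix (Fin 2) (Fin 2) L) = 0 := by
    have h1 := congrArg (· * r g) (h g)
    simp only [add_mul, smul_mul_assoc, one_mul, ← map_mul r, inv_mul_cancel, map_one] at h1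
    rw [map_mul] at h1
    rw [← h1]
    abel
  have hCH := Matrix.aeval_self_charpoly (r g)
  rw [Matrix.charpoly_fin_two] at hCH
  simp only [map_add, map_sub, map_mul, Polynomial.aeval_C, Polynomial.aeval_X,
    Algebra.algebraMap_eq_smul_one, smul_mul_assoc, one_mul, sq] at hCH
  have hdiff : ((r g).trace - s g) • r g = ((r g).det - ω g) • (1 : Matrix (Fin 2) (Fin 2) L) := by
    linear_combination (norm := module) hq - hCH
  have htr : (r g).trace = s g := by
    by_contra hne
    have hne' : (r g).trace - s g ≠ 0 := sub_ne_zero.mpr hne
    have hsc : r g = (((r g).det - ω g) / ((r g).trace - s g)) • (1 : Matrix (Fin 2) (Fin 2) L) := by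
      rw [div_eq_inv_mul, mul_smul, ← hdiff, smul_smul, inv_mul_cancel₀ hne', one_smul]
    generalize ((r g).det - ω g) / ((r g).trace - s g) = μ at hsc
    have hs1 : s 1 = 2 := by
      have := congrFun (congrFun (h 1) 0) 0
      simp at this
      linear_combination -this
    refine hne ?_
    rw [← ht g, hr', hsc, map_smul, map_one, map_smul, ← map_one r', ht, hs1, Matrix.trace_smul,
      Matrix.trace_one]
    simp
  refine ⟨htr, ?_⟩
  rw [htr, sub_self, zero_smul] at hdiff
  have := congrFun (congrFun hdiff 0) 0
  simp at this
  linear_combination -this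

end FermatAgent.GalRep
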