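import Fermat.Agent.GalRep.Construct.Descent
import Mathlib.FieldTheory.IsAlgClosed.AlgebraicClosure
import Mathlib.FieldTheory.Finite.Basic

/-!
The linear algebra core of the construction: a representation `ρ` with
`ρ g + ω g • ρ g⁻¹ = s g • 1` yields a two-dimensional representation over the same field with
trace `s` and determinant `ω`, whose matrix entries are linear in `(ρ g, s g)`.
-/

set_option autoImplicit false

noncomputable section

namespace FermatAgent.GalRep

open Matrix Module

variable {K : Type*} [Field K] {G : Type*} [Group G] {L : Type*} [Field L] [Algebra K L]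

set_option linter.unnecessarySeqFocus false in
/-- The two-dimensional representation attached to a pair of characters `λ`, `ω / λ` whose sum is
`K`-valued. -/
theorem exists_two_dim_of_character
    (hsq : (2 : K) ≠ 0 ∨ ∀ x : K, IsSquare x) (l : G →* L) (ω : G →* K) (s : G → K)
    (h : ∀ g, l g + algebraMap K L (ω g) * l g⁻¹ = algebraMap K L (s g)) :
    ∃ (r : G →* Matrix (Fin 2) (Fin 2) K) (Φ : (L × K) →ₗ[K] Matrix (Fin 2) (Fin 2) K),
      ∀ g, r g = Φ (l g, s g) ∧ (r g).trace = s g ∧ (r g).det = ω g := by
  let ι := algebraMap K L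
  have hinj : Function.Injective ι := (algebraMap K L).injective
  have hl : ∀ g, l g⁻¹ * l g = 1 := fun g => by rw [← map_mul, inv_mul_cancel, map_one]
  have hq : ∀ g, l g * (ι (s g) - l g) = ι (ω g) := fun g => by
    linear_combination -(l g) * h g + ι (ω g) * hl g
  have hmulinv : ∀ g k, ι (s (g * k)) = l g * l k + (ι (s g) - l g) * (ι (s k) - l k) := by
    intro g k
    have h1 := h (g * k)
    rw [map_mul l, _root_.mul_inv_rev, map_mul l, map_mul ω, map_mul] at h1
    have hg : ι (ω g) * l g⁻¹ = ι (s g) - l g := by linear_combination h g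
    have hk : ι (ω k) * l k⁻¹ = ι (s k) - l k := by linear_combination h k
    rw [← h1, ← hg, ← hk]; ring
  by_cases hall : ∀ g, l g ∈ Set.range ι
  · -- everything is rational: a diagonal representation
    choose a ha using hall
    obtain ⟨π, hπ⟩ := LinearMap.exists_leftInverse_of_injective (Algebra.linearMap K L)
      (LinearMap.ker_eq_bot.mpr hinj)
    have hπa : ∀ g, π (l g) = a g := fun g => by
      have := LinearMap.congr_fun hπ (a g)
      simpa [← ha g] using this
    have hdd : ∀ g, a g * (s g - a g) = ω g := fun g => hinj (by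
      rw [map_mul, map_sub, ha]; exact hq g)
    have hmul : ∀ g k, a (g * k) = a g * a k := fun g k => hinj (by
      rw [map_mul, ha, ha, ha, map_mul])
    have hsub : ∀ g k, s (g * k) - a (g * k) = (s g - a g) * (s k - a k) := fun g k => hinj (by
      simp only [map_mul, map_sub, ha]
      linear_combination hmulinv g k)
    have h1 : a 1 = 1 ∧ s 1 - a 1 = 1 := by
      have ha1 : a 1 = 1 := hinj (by rw [ha, map_one, map_one])
      exact ⟨ha1, by simpa [ha1] using hdd 1⟩
    let r : G →* Matrix (Fin 2) (Fin 2) K :=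
      { toFun := fun g => !![a g, 0; 0, s g - a g]
        map_one' := by rw [h1.2, h1.1]; exact (Matrix.one_fin_two).symm
        map_mul' := fun g k => by
          rw [hmul, ← hmul g k, hsub, hmul]
          ext i j; fin_cases i <;> fin_cases j <;> simp [Matrix.mul_apply] }
    let Φ : (L × K) →ₗ[K] Matrix (Fin 2) (Fin 2) K :=
      { toFun := fun x => !![π x.1, 0; 0, x.2 - π x.1]
        map_add' := fun x y => by
          ext i j; fin_cases i <;> fin_cases j <;> simp <;> ring
        map_smul' := fun c x => by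
          ext i j; fin_cases i <;> fin_cases j <;> simp <;> ring }
    refine ⟨r, Φ, fun g => ⟨?_, ?_, ?_⟩⟩
    · show !![a g, 0; 0, s g - a g] = !![π (l g), 0; 0, s g - π (l g)]
      rw [hπa]
    · simp [r, Matrix.trace_fin_two]
    · simp [r, Matrix.det_fin_two, hdd]
  · push Not at hall
    obtain ⟨g₀, hg₀⟩ := hall
    set l₀ := l g₀
    set s₀ := s g₀
    have hD : 2 * l₀ - ι s₀ ≠ 0 := by
      intro hD
      by_cases h2 : (2 : K) = 0
      · rcases hsq with h' | h'
        · exact h' h2
        obtain ⟨y, hy⟩ := h' (ω g₀)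
        have h2L : (2 : L) = 0 := by rw [← map_ofNat ι 2, h2, map_zero]
        have hs0 : ι s₀ = 0 := by linear_combination -hD + l₀ * h2L
        have : (l₀ - ι y) * (l₀ - ι y) = 0 := by
          have h3 : l₀ * (ι s₀ - l₀) = ι y * ι y := by rw [← map_mul, ← hy]; exact hq g₀
          linear_combination -h3 + l₀ * hs0 - l₀ * ι y * h2L
        exact hg₀ ⟨y, (sub_eq_zero.mp (mul_self_eq_zero.mp this)).symm⟩
      · refine hg₀ ⟨s₀ / 2, ?_⟩
        have h2L : (2 : L) ≠ 0 := by rw [← map_ofNat ι 2]; exact (map_ne_zero ι).mpr h2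
        show ι (s₀ / 2) = l₀
        rw [map_div₀, map_ofNat, div_eq_iff h2L]
        linear_combination -hD
    let δ : K := s₀ * s₀ - 4 * ω g₀
    have hδ : ι δ = (2 * l₀ - ι s₀) * (2 * l₀ - ι s₀) := by
      have h3 : l₀ * (ι s₀ - l₀) = ι (ω g₀) := hq g₀
      simp only [δ, map_sub, map_mul, map_ofNat]
      linear_combination 4 * h3
    have hδ0 : ι δ ≠ 0 := hδ ▸ mul_ne_zero hD hD
    -- coordinates with respect to `1, l₀`
    have hcoord : ∀ g, ∃ a b : K, l g = ι a + ι b * l₀ ∧ 2 * a + b * s₀ = s g := by
      intro g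
      let X := s (g₀ * g) - s₀ * s g
      refine ⟨(-(X * s₀) - 2 * s g * ω g₀) / δ, (2 * X + s g * s₀) / δ, ?_, ?_⟩
      · have h3 : l₀ * (ι s₀ - l₀) = ι (ω g₀) := hq g₀
        have h4 : ι (s (g₀ * g)) = l₀ * l g + (ι s₀ - l₀) * (ι (s g) - l g) := hmulinv g₀ g
        rw [map_div₀, map_div₀]
        field_simp
        simp only [X, map_sub, map_mul, map_add, map_neg, map_ofNat, hδ]
        linear_combination (-2 * ι (s g)) * h3 - (2 * l₀ - ι s₀) * h4
      · have : δ ≠ 0 := fun h' => hδ0 (by rw [h', map_zero])
        field_simp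
        simp only [δ]
        ring
    choose a b hab using hcoord
    have hind : ∀ x y x' y' : K, ι x + ι y * l₀ = ι x' + ι y' * l₀ → x = x' ∧ y = y' := by
      intro x y x' y' hxy
      rcases eq_or_ne y y' with rfl | hy
      · exact ⟨hinj (by linear_combination hxy), rfl⟩
      · refine absurd ⟨(x' - x) / (y - y'), ?_⟩ hg₀
        have hy' : ι y - ι y' ≠ 0 := sub_ne_zero.mpr (fun h' => hy (hinj h'))
        show ι ((x' - x) / (y - y')) = l₀
        rw [map_div₀, map_sub, map_sub, div_eq_iff hy']
        linear_combination -hxy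
    have h3 : l₀ * (ι s₀ - l₀) = ι (ω g₀) := hq g₀
    have hmul : ∀ g k, a (g * k) = a g * a k - b g * b k * ω g₀ ∧
        b (g * k) = a g * b k + b g * a k + b g * b k * s₀ := fun g k => hind _ _ _ _ (by
      rw [← (hab (g * k)).1, map_mul l, (hab g).1, (hab k).1]
      simp only [map_add, map_sub, map_mul]
      linear_combination (-(ι (b g) * ι (b k))) * h3)
    have hone : a 1 = 1 ∧ b 1 = 0 := hind _ _ _ _ (by
      rw [← (hab 1).1, map_one l, map_one, map_zero, zero_mul, add_zero])
    have hω : ∀ g, a g * a g + a g * b g * s₀ + b g * b g * ω g₀ = ω g := fun g => hinj (by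
      have h4 := hq g
      rw [(hab g).1, ← (hab g).2] at h4
      simp only [map_add, map_mul, map_ofNat] at h4 ⊢
      linear_combination h4 - (ι (b g) * ι (b g)) * h3)
    let r : G →* Matrix (Fin 2) (Fin 2) K :=
      { toFun := fun g => !![a g, -(b g * ω g₀); b g, a g + b g * s₀]
        map_one' := by rw [hone.1, hone.2]; simp [Matrix.one_fin_two]
        map_mul' := fun g k => by
          rw [(hmul g k).1, (hmul g k).2]
          ext i j; fin_cases i <;> fin_cases j <;>
            simp [Matrix.mul_apply, Fin.sum_univ_two] <;> ring }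
    let incl : (K × K) →ₗ[K] L :=
      (Algebra.linearMap K L).coprod (LinearMap.mulRight K l₀ ∘ₗ Algebra.linearMap K L)
    have hincl : ∀ x y, incl (x, y) = ι x + ι y * l₀ := fun x y => by simp [incl, ι]
    obtain ⟨π, hπ⟩ := LinearMap.exists_leftInverse_of_injective incl (LinearMap.ker_eq_bot.mpr
      (fun ⟨x, y⟩ ⟨x', y'⟩ hxy => by
        rw [hincl, hincl] at hxy
        obtain ⟨rfl, rfl⟩ := hind _ _ _ _ hxy
        rfl))
    have hπg : ∀ g, π (l g) = (a g, b g) := fun g => by
      rw [(hab g).1, ← hincl]
      exact LinearMap.congr_fun hπ _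
    let Φ : (L × K) →ₗ[K] Matrix (Fin 2) (Fin 2) K :=
      { toFun := fun x => !![(π x.1).1, -((π x.1).2 * ω g₀); (π x.1).2, (π x.1).1 + (π x.1).2 * s₀]
        map_add' := fun x y => by
          ext i j; fin_cases i <;> fin_cases j <;> simp <;> ring
        map_smul' := fun c x => by
          ext i j; fin_cases i <;> fin_cases j <;> simp <;> ring }
    refine ⟨r, Φ, fun g => ⟨?_, ?_, ?_⟩⟩
    · show !![a g, -(b g * ω g₀); b g, a g + b g * s₀] =
        !![(π (l g)).1, -((π (l g)).2 * ω g₀); (π (l g)).2, (π (l g)).1 + (π (l g)).2 * s₀]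
      rw [hπg]
    · simp [r, Matrix.trace_fin_two]
      linear_combination (hab g).2
    · simp [r, Matrix.det_fin_two]
      linear_combination hω g

variable {n : Type*} [Fintype n] [DecidableEq n] [Nonempty n]

/-- **Core of the construction.** -/
theorem exists_two_dim (ρ : G →* Matrix n n K) (ω : G →* K) (s : G → K)
    (h : ∀ g, ρ g + ω g • ρ g⁻¹ = s g • 1)
    (hsplit : Finite K ∨ ((2 : K) ≠ 0 ∧ ∃ c : G, c * c = 1 ∧ ω c = -1)) :
    ∃ (r : G →* Matrix (Fin 2) (Fin 2) K)
      (Φ : (Matrix n n K × K) →ₗ[K] Matrix (Fin 2) (Fin 2) K),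
      ∀ g, r g = Φ (ρ g, s g) ∧ (r g).trace = s g ∧ (r g).det = ω g := by
  have hsq : (2 : K) ≠ 0 ∨ ∀ x : K, IsSquare x := by
    by_cases h2 : (2 : K) = 0
    · rcases hsplit with hfin | ⟨h', -⟩
      · refine Or.inr fun x => FiniteField.isSquare_of_char_two ?_ x
        have : CharP K 2 := CharTwo.of_one_ne_zero_of_two_eq_zero one_ne_zero h2
        exact (ringChar.eq K 2).symm ▸ rfl
      · exact absurd h2 h'
    · exact Or.inl h2
  let L := AlgebraicClosure K
  let ι := algebraMap K L
  let ρ' : G →* Module.End L (n → L) :=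
    ((Matrix.toLinAlgEquiv' (R := L) (n := n)).toRingEquiv.toRingHom.comp
      ι.mapMatrix).toMonoidHom.comp ρ
  have hρ' : ∀ g, ρ' g = Matrix.toLinAlgEquiv' ((ρ g).map ι) := fun _ => rfl
  have h' : ∀ g, ρ' g + ι (ω g) • ρ' g⁻¹ = ι (s g) • 1 := fun g => by
    have h1 := congrArg (fun M : Matrix n n K => Matrix.toLinAlgEquiv' (M.map ι)) (h g)
    simp only [Matrix.map_add ι (map_add ι), Matrix.map_smul' ι _ _ (map_mul ι),
      Matrix.map_one ι (map_zero ι) (map_one ι), map_add, map_smul, map_one] at h1
    exact h1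
  obtain ⟨W, hW0, hWinv, hWmin⟩ := exists_irreducible_invariant ρ'
  have : Nontrivial W := Submodule.nontrivial_iff_ne_bot.mpr hW0
  let r₀ : G →* Module.End L W :=
    { toFun := fun g => (ρ' g).restrict (fun x hx => hWinv g x hx)
      map_one' := by ext; simp
      map_mul' := fun g k => by ext; simp }
  have hr₀ : ∀ g, r₀ g + ι (ω g) • r₀ g⁻¹ = ι (s g) • 1 := fun g => by
    refine LinearMap.ext fun x => Subtype.ext ?_
    simpa [r₀] using LinearMap.congr_fun (h' g) x
  have hirr : ∀ U : Submodule L W, (∀ g, ∀ x ∈ U, r₀ g x ∈ U) → U = ⊥ ∨ U = ⊤ := by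
    intro U hU
    rcases hWmin (U.map W.subtype) (Submodule.map_subtype_le W U) (fun g x hx => by
      obtain ⟨y, hy, rfl⟩ := hx
      exact ⟨r₀ g y, hU g y hy, rfl⟩) with h1 | h1
    · exact Or.inl (Submodule.map_injective_of_injective W.injective_subtype (by simpa using h1))
    · exact Or.inr (Submodule.map_injective_of_injective W.injective_subtype (by simpa using h1))
  have hspan := span_range_eq_top_of_irreducible r₀ hirr
  let ω' : G →* L := ι.toMonoidHom.comp ω
  have hdim : finrank L W ≤ 2 :=
    finrank_le_two_of_quadratic r₀ ω' (fun g => ι (s g)) hr₀ hspan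
  have hpos : 0 < finrank L W := Module.finrank_pos
  -- `r₀` is the restriction of a `K`-linear map
  obtain ⟨proj, hproj⟩ := LinearMap.exists_leftInverse_of_injective W.subtype W.ker_subtype
  let T₀ : Matrix n n K →ₗ[K] Module.End L W :=
    { toFun := fun M => proj ∘ₗ Matrix.toLinAlgEquiv' (M.map ι) ∘ₗ W.subtype
      map_add' := fun M N => by
        rw [Matrix.map_add ι (map_add ι), map_add, LinearMap.add_comp, LinearMap.comp_add]
      map_smul' := fun c M => by
        rw [Matrix.map_smul' ι _ _ (map_mul ι), map_smul, LinearMap.smul_comp, LinearMap.comp_smul,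
          RingHom.id_apply, algebraMap_smul] }
  have hT₀ : ∀ g, T₀ (ρ g) = r₀ g := fun g => LinearMap.ext fun x => by
    show proj ((Matrix.toLinAlgEquiv' ((ρ g).map ι)) (x : n → L)) = r₀ g x
    rw [← hρ']
    exact LinearMap.congr_fun hproj (r₀ g x)
  interval_cases hd : finrank L W
  · -- one-dimensional constituent
    let b := Module.finBasisOfFinrankEq L W hd
    let l : G →* L :=
      { toFun := fun g => LinearMap.toMatrixAlgEquiv b (r₀ g) 0 0
        map_one' := by rw [map_one, map_one, Matrix.one_apply_eq]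
        map_mul' := fun g k => by
          rw [map_mul, map_mul, Matrix.mul_apply]; simp }
    obtain ⟨r, Φ, hΦ⟩ := exists_two_dim_of_character hsq l ω s (fun g => by
      have h1 := congrArg (fun f => LinearMap.toMatrixAlgEquiv b f 0 0) (hr₀ g)
      simp only [map_add, map_smul, map_one, Matrix.add_apply, Matrix.smul_apply,
        Matrix.one_apply_eq, smul_eq_mul, mul_one] at h1
      exact h1)
    let E : Module.End L W →ₗ[L] L :=
      Matrix.entryLinearMap L L 0 0 ∘ₗ (LinearMap.toMatrixAlgEquiv b).toLinearMap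
    refine ⟨r, Φ ∘ₗ ((E.restrictScalars K ∘ₗ T₀).prodMap LinearMap.id), fun g => ⟨?_, (hΦ g).2⟩⟩
    rw [(hΦ g).1]
    simp only [LinearMap.comp_apply, LinearMap.prodMap_apply, LinearMap.id_apply]
    congr
    exact (congrArg E (hT₀ g)).symm
  · -- two-dimensional constituent
    let b := Module.finBasisOfFinrankEq L W hd
    let e := LinearMap.toMatrixAlgEquiv b
    let r₁ : G →* Matrix (Fin 2) (Fin 2) L := (e : _ ≃* _).toMonoidHom.comp r₀
    have hr₁ : ∀ g, r₁ g = e (r₀ g) := fun _ => rfl
    have hspan₁ : Submodule.span L (Set.range r₁) = ⊤ := by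
      have hrange : Set.range r₁ = e.toLinearMap '' Set.range r₀ := by
        rw [← Set.range_comp]; rfl
      rw [hrange, Submodule.span_image, hspan, Submodule.map_top, LinearMap.range_eq_top]
      exact e.surjective
    have htd := trace_det_of_quadratic r₁ ω' (fun g => ι (s g)) (fun g => by
      have h1 := congrArg e (hr₀ g)
      simp only [map_add, map_smul, map_one] at h1
      exact h1) hspan₁
    have hx : ∃ x ∈ Algebra.adjoin K (Set.range r₁), x ≠ 0 ∧ x.det = 0 := by
      rcases hsplit with hfin | ⟨h2, c, hc, hωc⟩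
      · apply exists_det_eq_zero_of_finite r₁ hspan₁
        let T₁ := (e.toLinearMap.restrictScalars K) ∘ₗ T₀
        refine (Set.finite_range T₁).subset ?_
        have : Submodule.span K (Set.range r₁) ≤ LinearMap.range T₁ := by
          rw [Submodule.span_le]
          rintro _ ⟨g, rfl⟩
          exact ⟨ρ g, congrArg e (hT₀ g)⟩
        exact this
      · have hsc : s c = 0 := by
          obtain ⟨i⟩ := ‹Nonempty n›
          have h1 := congrFun (congrFun (h c) i) i
          rw [inv_eq_of_mul_eq_one_right hc, hωc] at h1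
          simpa using h1.symm
        refine ⟨r₁ c - 1, Subalgebra.sub_mem _ (Algebra.subset_adjoin ⟨c, rfl⟩)
          (Subalgebra.one_mem _), ?_, ?_⟩
        · intro h0
          have h1 := (htd c).2
          rw [sub_eq_zero.mp h0, Matrix.det_one] at h1
          apply h2
          apply (algebraMap K L).injective
          rw [map_ofNat, map_zero]
          simp [ω', hωc] at h1
          linear_combination h1
        · have ht := (htd c).1
          have hdt := (htd c).2
          simp [ω', hωc, hsc, Matrix.trace_fin_two, Matrix.det_fin_two] at ht hdt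
          rw [Matrix.det_fin_two]
          simp
          linear_combination hdt - ht
    obtain ⟨Q, R, hQR, hRQ, hentry⟩ := exists_descent r₁ s hspan₁ (fun g => (htd g).1) hx
    choose a ha using hentry
    let r : G →* Matrix (Fin 2) (Fin 2) K :=
      { toFun := fun g => Matrix.of (a g)
        map_one' := Matrix.map_injective ι.injective (by
          show (Matrix.of (a 1)).map ι = (1 : Matrix (Fin 2) (Fin 2) K).map ι
          rw [Matrix.map_one ι (map_zero ι) (map_one ι)]
          refine (Matrix.ext fun i j => ha 1 i j).trans ?_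
          rw [map_one, mul_one, hRQ])
        map_mul' := fun g k => Matrix.map_injective ι.injective (by
          show (Matrix.of (a (g * k))).map ι = (Matrix.of (a g) * Matrix.of (a k)).map ι
          rw [Matrix.map_mul]
          refine (Matrix.ext fun i j => ha (g * k) i j).trans ?_
          rw [show (Matrix.of (a g)).map ι = R * r₁ g * Q from Matrix.ext fun i j => ha g i j,
            show (Matrix.of (a k)).map ι = R * r₁ k * Q from Matrix.ext fun i j => ha k i j,
            map_mul]
          calc R * (r₁ g * r₁ k) * Q = R * r₁ g * (Q * R) * r₁ k * Q := by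
                rw [hQR, mul_one]; simp only [mul_assoc]
            _ = _ := by simp only [mul_assoc]) }
    have hrmap : ∀ g, (r g).map ι = R * r₁ g * Q := fun g => Matrix.ext fun i j => ha g i j
    obtain ⟨π, hπ⟩ := LinearMap.exists_leftInverse_of_injective (Algebra.linearMap K L)
      (LinearMap.ker_eq_bot.mpr (algebraMap K L).injective)
    let Φ : (Matrix n n K × K) →ₗ[K] Matrix (Fin 2) (Fin 2) K :=
      (π.mapMatrix) ∘ₗ ((LinearMap.mulRight L Q ∘ₗ LinearMap.mulLeft L R ∘ₗ
        e.toLinearMap).restrictScalars K) ∘ₗ T₀ ∘ₗ LinearMap.fst K _ _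
    refine ⟨r, Φ, fun g => ⟨?_, ?_, ?_⟩⟩
    · refine Matrix.ext fun i j => ?_
      show a g i j = π ((R * e (T₀ (ρ g)) * Q) i j)
      rw [hT₀, ← hr₁, ← ha g i j]
      exact (LinearMap.congr_fun hπ (a g i j)).symm
    · apply ι.injective
      rw [← (htd g).1, AddMonoidHom.map_trace ι]
      show ((r g).map ι).trace = _
      rw [hrmap, Matrix.trace_mul_comm, ← mul_assoc, hQR, one_mul]
    · apply ι.injective
      rw [RingHom.map_det]
      show ((r g).map ι).det = ω' g
      rw [hrmap, ← (htd g).2, Matrix.det_mul, Matrix.det_mul, mul_right_comm, ← Matrix.det_mul,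
        hRQ, Matrix.det_one, one_mul]

end FermatAgent.GalRep
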