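import Fermat.Agent.GalRep.Construct.Pseudo
import Fermat.Agent.GalRep.Construct.TwoDim

/-!
The eigen-part of the Tate module for a character of the Hecke algebra with values in a field.
-/

set_option autoImplicit false

noncomputable section

namespace FermatAgent.GalRep

open CuspForm Matrix

local notation "Qb" => AlgebraicClosure ℚ
local notation "GQ" => AlgebraicClosure ℚ ≃ₐ[ℚ] AlgebraicClosure ℚ

variable {p : ℕ} [Fact p.Prime] {N : ℕ} [NeZero N] {S : Set ℕ} (D : HeckeTateData N p S)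
  {K : Type*} [Field K]

/-- The eigen-part: a positive-dimensional representation, linear in the Tate module
representation, on which the Hecke algebra acts through `χ`. -/
theorem exists_eigen_rep (ψ : ℤ_[p] →+* K) (χ : heckeAlgebra N 2 S →+* K) :
    ∃ (d : ℕ) (_ : NeZero d) (ρW : GQ →* Matrix (Fin d) (Fin d) K)
      (Φ : Matrix (Fin D.rank) (Fin D.rank) K →ₗ[K] Matrix (Fin d) (Fin d) K),
      (∀ σ, ρW σ = Φ (ψ.mapMatrix (D.ρ σ))) ∧
      (∀ t, Φ (ψ.mapMatrix (hecMat D t)) = χ t • 1) := by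
  let M : heckeAlgebra N 2 S →+* Matrix (Fin D.rank) (Fin D.rank) K :=
    ψ.mapMatrix.comp (hecMat D)
  obtain ⟨v, hv0, hv⟩ := exists_common_eigenvector D.ι D.ι_injective χ
  have hM : ∀ t, M t = (D.ι t).map (Int.cast : ℤ → K) := fun t => by
    ext i j; simp [M, hecMat_apply]
  let W : Submodule K (Fin D.rank → K) :=
    { carrier := {w | ∀ t, M t *ᵥ w = χ t • w}
      zero_mem' := fun t => by simp
      add_mem' := fun {a b} ha hb t => by rw [Matrix.mulVec_add, ha t, hb t, smul_add]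
      smul_mem' := fun c a ha t => by rw [Matrix.mulVec_smul, ha t, smul_comm] }
  have hW : W ≠ ⊥ := fun h => hv0 ((Submodule.eq_bot_iff W).mp h v fun t => by rw [hM]; exact hv t)
  have : Nontrivial W := Submodule.nontrivial_iff_ne_bot.mpr hW
  have hinv : ∀ σ, ∀ w ∈ W, ψ.mapMatrix (D.ρ σ) *ᵥ w ∈ W := fun σ w hw t => by
    rw [Matrix.mulVec_mulVec, show M t * ψ.mapMatrix (D.ρ σ) = ψ.mapMatrix (D.ρ σ) * M t by
      simp only [M, RingHom.comp_apply, ← map_mul]
      exact congrArg _ (D.comm σ t).symm.eq, ← Matrix.mulVec_mulVec, hw t, Matrix.mulVec_smul]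
  obtain ⟨proj, hproj⟩ := LinearMap.exists_leftInverse_of_injective W.subtype W.ker_subtype
  let b := Module.finBasis K W
  let Φ : Matrix (Fin D.rank) (Fin D.rank) K →ₗ[K]
      Matrix (Fin (Module.finrank K W)) (Fin (Module.finrank K W)) K :=
    { toFun := fun A => LinearMap.toMatrixAlgEquiv b (proj ∘ₗ A.mulVecLin ∘ₗ W.subtype)
      map_add' := fun A B => by
        rw [Matrix.mulVecLin_add, LinearMap.add_comp, LinearMap.comp_add, map_add]
      map_smul' := fun c A => by
        rw [show (c • A).mulVecLin = c • A.mulVecLin from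
          LinearMap.ext fun x => Matrix.smul_mulVec c A x,
          LinearMap.smul_comp, LinearMap.comp_smul, map_smul, RingHom.id_apply] }
  have hres : ∀ (A : Matrix (Fin D.rank) (Fin D.rank) K) (f : Module.End K W),
      (∀ w : W, A *ᵥ (w : Fin D.rank → K) = (f w : Fin D.rank → K)) →
        Φ A = LinearMap.toMatrixAlgEquiv b f := fun A f h => by
    show LinearMap.toMatrixAlgEquiv b _ = _
    congr 1
    refine LinearMap.ext fun w => ?_
    show proj (A *ᵥ (w : Fin D.rank → K)) = f w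
    rw [h w]
    exact LinearMap.congr_fun hproj (f w)
  let r : GQ →* Module.End K W :=
    { toFun := fun σ => (ψ.mapMatrix (D.ρ σ)).mulVecLin.restrict (fun w hw => hinv σ w hw)
      map_one' := by
        refine LinearMap.ext fun w => Subtype.ext ?_
        show ψ.mapMatrix (D.ρ 1) *ᵥ (w : Fin D.rank → K) = w
        rw [map_one, map_one, Matrix.one_mulVec]
      map_mul' := fun σ τ => by
        refine LinearMap.ext fun w => Subtype.ext ?_
        show ψ.mapMatrix (D.ρ (σ * τ)) *ᵥ (w : Fin D.rank → K) =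
          ψ.mapMatrix (D.ρ σ) *ᵥ (ψ.mapMatrix (D.ρ τ) *ᵥ (w : Fin D.rank → K))
        rw [map_mul, map_mul, Matrix.mulVec_mulVec] }
  refine ⟨Module.finrank K W, ⟨Module.finrank_pos.ne'⟩,
    ((LinearMap.toMatrixAlgEquiv b : _ ≃* _).toMonoidHom).comp r, Φ, fun σ => ?_, fun t => ?_⟩
  · exact (hres _ (r σ) fun w => rfl).symm
  · rw [hres (ψ.mapMatrix (hecMat D t)) (χ t • 1) fun w => w.2 t, map_smul, map_one]

/-- If `Φ (ψ (X σ))` is the scalar `s σ`, the representation has the quadratic property. -/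
theorem eigen_rep_quadratic {d : ℕ} (ψ : ℤ_[p] →+* K) (ρW : GQ →* Matrix (Fin d) (Fin d) K)
    (Φ : Matrix (Fin D.rank) (Fin D.rank) K →ₗ[K] Matrix (Fin d) (Fin d) K)
    (hρ : ∀ σ, ρW σ = Φ (ψ.mapMatrix (D.ρ σ))) (s : GQ → K)
    (hs : ∀ σ, Φ (ψ.mapMatrix (xMat D σ)) = s σ • 1) (σ : GQ) :
    ρW σ + ψ (cycChar p σ) • ρW σ⁻¹ = s σ • 1 := by
  rw [← hs σ, hρ, hρ, ← map_smul, ← map_add]
  congr 1
  ext i j
  simp [xMat]

end FermatAgent.GalRep
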