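import Fermat.Agent.GalRep.Construct.Constituent
import Mathlib.LinearAlgebra.Matrix.Determinant.Basic
import Mathlib.RingTheory.LittleWedderburn

/-!
Descent of a two-dimensional representation with traces in `K` to `K`: a zero divisor in the
`K`-algebra generated by the image is enough, and finite fields always have one.
-/

set_option autoImplicit false

noncomputable section

namespace FermatAgent.GalRep

open Matrix

variable {L : Type*} [Field L]

/-- A rank one idempotent of `M₂` is conjugate to `E₀₀`. -/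
theorem exists_conj_idempotent (e : Matrix (Fin 2) (Fin 2) L) (he : e * e = e) (h0 : e ≠ 0)
    (hdet : e.det = 0) :
    ∃ Q R : Matrix (Fin 2) (Fin 2) L, Q * R = 1 ∧ R * Q = 1 ∧ R * e * Q = !![1, 0; 0, 0] := by
  obtain ⟨a, b, c, d, rfl⟩ : ∃ a b c d, e = !![a, b; c, d] := ⟨_, _, _, _, Matrix.eta_fin_two e⟩
  rw [Matrix.det_fin_two_of] at hdet
  have h00 := congrFun (congrFun he 0) 0
  have h01 := congrFun (congrFun he 0) 1
  have h10 := congrFun (congrFun he 1) 0
  have h11 := congrFun (congrFun he 1) 1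
  simp [Matrix.mul_apply, Fin.sum_univ_two] at h00 h01 h10 h11
  have htr : d = 1 - a := by
    by_contra hne
    have hne' : a + d - 1 ≠ 0 := fun h => hne (by linear_combination h)
    have key : ∀ z, (a + d - 1) * z = 0 → z = 0 := fun z hz =>
      (mul_eq_zero.mp hz).resolve_left hne'
    obtain rfl : a = 0 := key a (by linear_combination h00 + hdet)
    obtain rfl : b = 0 := key b (by linear_combination h01)
    obtain rfl : c = 0 := key c (by linear_combination h10)
    obtain rfl : d = 0 := key d (by linear_combination h11 + hdet)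
    exact h0 (by ext i j; fin_cases i <;> fin_cases j <;> rfl)
  subst htr
  have hbc : b * c = a - a * a := by linear_combination -hdet
  rcases eq_or_ne a 0 with rfl | ha
  · have hbc0 : b * c = 0 := by linear_combination hbc
    rcases mul_eq_zero.mp hbc0 with rfl | rfl
    · refine ⟨!![0, 1; 1, -c], !![c, 1; 1, 0], ?_, ?_, ?_⟩ <;>
        (ext i j; fin_cases i <;> fin_cases j <;> simp [Matrix.mul_apply, Fin.sum_univ_two])
    · refine ⟨!![b, 1; 1, 0], !![0, 1; 1, -b], ?_, ?_, ?_⟩ <;>
        (ext i j; fin_cases i <;> fin_cases j <;> simp [Matrix.mul_apply, Fin.sum_univ_two])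
  · refine ⟨!![a, -b; c, a], !![1, b / a; -c / a, 1], ?_, ?_, ?_⟩ <;>
      (ext i j; fin_cases i <;> fin_cases j <;> simp [Matrix.mul_apply, Fin.sum_univ_two] <;>
        field_simp <;>
        first
          | linear_combination hbc
          | linear_combination (-1 : L) * hbc
          | linear_combination a * hbc
          | linear_combination (a + 1) * hbc
          | linear_combination b * hbc
          | linear_combination c * hbc
          | linear_combination (-b) * hbc
          | linear_combination (-c) * hbc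
          | ring)

variable {K : Type*} [Field K] [Algebra K L] {G : Type*} [Group G]

theorem toSubmodule_adjoin_range {n : Type*} [Fintype n] [DecidableEq n]
    (r : G →* Matrix n n L) :
    Subalgebra.toSubmodule (Algebra.adjoin K (Set.range r)) =
      Submodule.span K (Set.range r) := by
  have hcl : ((Submonoid.closure (Set.range r)) : Set (Matrix n n L)) = Set.range r := by
    rw [← MonoidHom.coe_mrange, Submonoid.closure_eq]
  rw [Algebra.adjoin_eq_span, hcl]

theorem span_eq_top_of_subset {n : Type*} [Fintype n] [DecidableEq n] (r : G →* Matrix n n L)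
    (hspan : Submodule.span L (Set.range r) = ⊤) (M : Submodule L (Matrix n n L))
    (h : ∀ g, r g ∈ M) : M = ⊤ :=
  top_le_iff.mp (hspan ▸ Submodule.span_le.mpr (by rintro _ ⟨g, rfl⟩; exact h g))

set_option linter.unnecessarySeqFocus false in
/-- Descent to `K` given an element of rank one in the `K`-span of the image. -/
theorem exists_descent (r : G →* Matrix (Fin 2) (Fin 2) L) (s : G → K)
    (hspan : Submodule.span L (Set.range r) = ⊤)
    (htr : ∀ g, (r g).trace = algebraMap K L (s g))
    (hx : ∃ x ∈ Algebra.adjoin K (Set.range r), x ≠ 0 ∧ x.det = 0) :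
    ∃ Q R : Matrix (Fin 2) (Fin 2) L, Q * R = 1 ∧ R * Q = 1 ∧
      ∀ g i j, (R * r g * Q) i j ∈ Set.range (algebraMap K L) := by
  let A := Algebra.adjoin K (Set.range r)
  have hAtr : ∀ a ∈ A, ∃ c : K, algebraMap K L c = a.trace := by
    intro a ha
    have ha' : a ∈ Submodule.span K (Set.range r) := toSubmodule_adjoin_range (K := K) r ▸ ha
    induction ha' using Submodule.span_induction with
    | mem a hmem => obtain ⟨g, rfl⟩ := hmem; exact ⟨s g, (htr g).symm⟩
    | zero => exact ⟨0, by simp⟩
    | add a b hsa hsb hA hB =>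
      obtain ⟨c, hc⟩ := hA ((SetLike.ext_iff.mp (toSubmodule_adjoin_range (K := K) r) _).mpr hsa)
      obtain ⟨d, hd⟩ := hB ((SetLike.ext_iff.mp (toSubmodule_adjoin_range (K := K) r) _).mpr hsb)
      exact ⟨c + d, by rw [map_add, hc, hd, Matrix.trace_add]⟩
    | smul c a hsa hA =>
      obtain ⟨d, hd⟩ := hA ((SetLike.ext_iff.mp (toSubmodule_adjoin_range (K := K) r) _).mpr hsa)
      exact ⟨c * d, by rw [map_mul, hd, Matrix.trace_smul, Algebra.smul_def]⟩
  have hmem : ∀ g, r g ∈ A := fun g => Algebra.subset_adjoin ⟨g, rfl⟩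
  -- a rank one idempotent
  obtain ⟨x, hxA, hx0, hxdet⟩ := hx
  have hy : ∃ g, (x * r g).trace ≠ 0 := by
    by_contra! hall
    have hker := span_eq_top_of_subset r hspan
      (LinearMap.ker ((Matrix.traceLinearMap (Fin 2) L L) ∘ₗ LinearMap.mulLeft L x))
      (fun g => by simpa using hall g)
    refine hx0 (Matrix.ext fun i j => ?_)
    have := LinearMap.mem_ker.mp (hker ▸ Submodule.mem_top :
      Matrix.single j i 1 ∈ LinearMap.ker ((Matrix.traceLinearMap (Fin 2) L L) ∘ₗ
        LinearMap.mulLeft L x))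
    fin_cases i <;> fin_cases j <;>
      simpa [Matrix.trace, Matrix.mul_apply, Fin.sum_univ_two, Matrix.single] using this
  obtain ⟨g₁, hg₁⟩ := hy
  obtain ⟨c₁, hc₁⟩ := hAtr _ (A.mul_mem hxA (hmem g₁))
  have hc₁0 : c₁ ≠ 0 := fun h => hg₁ (by rw [← hc₁, h, map_zero])
  let e := c₁⁻¹ • (x * r g₁)
  have heA : e ∈ A := A.smul_mem (A.mul_mem hxA (hmem g₁)) _
  have hydet : (x * r g₁).det = 0 := by rw [Matrix.det_mul, hxdet, zero_mul]
  have hCH : (x * r g₁) * (x * r g₁) = c₁ • (x * r g₁) := by
    rw [← algebraMap_smul L c₁, hc₁]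
    rw [Matrix.det_fin_two] at hydet
    generalize x * r g₁ = y at hydet ⊢
    ext i j
    fin_cases i <;> fin_cases j <;>
      simp [Matrix.mul_apply, Fin.sum_univ_two, Matrix.trace] <;>
      first
        | linear_combination -hydet
        | ring
  have he : e * e = e := by
    simp only [e, smul_mul_smul_comm, hCH, smul_smul]
    congr 1
    field_simp
  have he0 : e ≠ 0 := fun h => hg₁ (by
    have h1 : c₁ • e = x * r g₁ := by simp [e, smul_smul, hc₁0]
    rw [← h1, h, smul_zero, Matrix.trace_zero])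
  have hedet : e.det = 0 := by
    simp only [e]
    rw [← algebraMap_smul L c₁⁻¹, Matrix.det_smul, hydet, mul_zero]
  obtain ⟨Q, R, hQR, hRQ, hconj⟩ := exists_conj_idempotent e he he0 hedet
  -- entries of the conjugated image
  let r' : G → Matrix (Fin 2) (Fin 2) L := fun g => R * r g * Q
  have hE : ∀ a : Matrix (Fin 2) (Fin 2) L, (e * a).trace = (R * a * Q) 0 0 := by
    intro a
    calc (e * a).trace = (Q * (R * e * Q * (R * a))).trace := by
          rw [show Q * (R * e * Q * (R * a)) = (Q * R) * e * (Q * R) * a by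
            simp only [mul_assoc], hQR, one_mul, mul_one]
      _ = (!![1, 0; 0, 0] * (R * a * Q)).trace := by
          rw [Matrix.trace_mul_comm, hconj]; simp only [mul_assoc]
      _ = _ := by
        generalize R * a * Q = X
        simp [Matrix.trace, Fin.sum_univ_two, Matrix.vecMul, dotProduct]
  have hconj_mul : ∀ a b, R * a * Q * (R * b * Q) = R * (a * b) * Q := fun a b => by
    rw [show R * a * Q * (R * b * Q) = R * a * (Q * R) * b * Q by simp only [mul_assoc], hQR,
      mul_one]
    simp only [mul_assoc]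
  have h00 : ∀ a ∈ A, (R * a * Q) 0 0 ∈ Set.range (algebraMap K L) := fun a ha => by
    obtain ⟨c, hc⟩ := hAtr _ (A.mul_mem heA ha); exact ⟨c, hc.trans (hE a)⟩
  have h11 : ∀ a ∈ A, (R * a * Q) 1 1 ∈ Set.range (algebraMap K L) := fun a ha => by
    obtain ⟨c, hc⟩ := hAtr _ ha
    obtain ⟨d, hd⟩ := h00 a ha
    have h3 : (R * a * Q).trace = a.trace := by
      rw [Matrix.trace_mul_comm, ← mul_assoc, hQR, one_mul]
    rw [Matrix.trace_fin_two] at h3
    exact ⟨c - d, by rw [map_sub, hc, hd]; linear_combination -h3⟩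
  have hprod : ∀ g h, r' g 0 1 * r' h 1 0 ∈ Set.range (algebraMap K L) := fun g h => by
    obtain ⟨c, hc⟩ := h00 _ (A.mul_mem (hmem g) (hmem h))
    obtain ⟨a, ha⟩ := h00 _ (hmem g)
    obtain ⟨b, hb⟩ := h00 _ (hmem h)
    refine ⟨c - a * b, ?_⟩
    rw [map_sub, map_mul, hc, ha, hb, ← hconj_mul, Matrix.mul_apply, Fin.sum_univ_two]
    simp only [r']
    ring
  have hne : ∀ i j, ∃ g, r' g i j ≠ 0 := by
    intro i j
    by_contra! hall
    let φ : Matrix (Fin 2) (Fin 2) L →ₗ[L] L :=
      (Matrix.entryLinearMap L L i j) ∘ₗ LinearMap.mulRight L Q ∘ₗ LinearMap.mulLeft L R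
    have hker := span_eq_top_of_subset r hspan (LinearMap.ker φ)
      (fun g => by simpa [φ] using hall g)
    have := LinearMap.mem_ker.mp (hker ▸ Submodule.mem_top :
      Q * Matrix.single i j 1 * R ∈ LinearMap.ker φ)
    simp only [φ, LinearMap.comp_apply, LinearMap.mulLeft_apply, LinearMap.mulRight_apply,
      Matrix.entryLinearMap_apply] at this
    rw [← mul_assoc, ← mul_assoc, hRQ, one_mul, mul_assoc, hRQ, mul_one] at this
    simp at this
  obtain ⟨g₀, hg₀⟩ := hne 0 1
  obtain ⟨h₀, hh₀⟩ := hne 1 0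
  generalize hμ : r' g₀ 0 1 = μ at hg₀
  refine ⟨Q * !![μ, 0; 0, 1], !![μ⁻¹, 0; 0, 1] * R, ?_, ?_, fun g i j => ?_⟩
  · rw [show Q * !![μ, 0; 0, 1] * (!![μ⁻¹, 0; 0, 1] * R) =
      Q * (!![μ, 0; 0, 1] * !![μ⁻¹, 0; 0, 1]) * R by simp only [mul_assoc]]
    rw [show !![μ, 0; 0, 1] * !![μ⁻¹, 0; 0, 1] = (1 : Matrix (Fin 2) (Fin 2) L) by
      ext i j; fin_cases i <;> fin_cases j <;> simp [Matrix.mul_apply, hg₀]]
    rw [mul_one, hQR]
  · rw [show !![μ⁻¹, 0; 0, 1] * R * (Q * !![μ, 0; 0, 1]) =
      !![μ⁻¹, 0; 0, 1] * (R * Q) * !![μ, 0; 0, 1] by simp only [mul_assoc], hRQ, mul_one]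
    ext i j; fin_cases i <;> fin_cases j <;> simp [Matrix.mul_apply, hg₀]
  · have hX : ∀ X : Matrix (Fin 2) (Fin 2) L, !![μ⁻¹, 0; 0, 1] * X * !![μ, 0; 0, 1] =
        !![X 0 0, μ⁻¹ * X 0 1; X 1 0 * μ, X 1 1] := by
      intro X
      ext i j
      fin_cases i <;> fin_cases j <;>
        simp [Matrix.mul_apply, Fin.sum_univ_two, Matrix.vecMul, dotProduct] <;> field_simp
    rw [show !![μ⁻¹, 0; 0, 1] * R * r g * (Q * !![μ, 0; 0, 1]) =
      !![μ⁻¹, 0; 0, 1] * r' g * !![μ, 0; 0, 1] by simp only [r', mul_assoc], hX]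
    fin_cases i <;> fin_cases j
    · exact h00 _ (hmem g)
    · obtain ⟨c, hc⟩ := hprod g h₀
      obtain ⟨d, hd⟩ := hprod g₀ h₀
      refine ⟨c / d, ?_⟩
      show _ = μ⁻¹ * r' g 0 1
      rw [map_div₀, hc, hd, hμ, inv_mul_eq_div, mul_div_mul_right _ _ hh₀]
    · obtain ⟨c, hc⟩ := hprod g₀ g
      refine ⟨c, ?_⟩
      show _ = r' g 1 0 * μ
      rw [hc, hμ, mul_comm]
    · exact h11 _ (hmem g)

/-- A finite, spanning `K`-algebra of `2 × 2` matrices contains an element of rank one
(Wedderburn). -/
theorem exists_det_eq_zero_of_finite (r : G →* Matrix (Fin 2) (Fin 2) L)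
    (hspan : Submodule.span L (Set.range r) = ⊤)
    (hfin : (Submodule.span K (Set.range r) : Set (Matrix (Fin 2) (Fin 2) L)).Finite) :
    ∃ x ∈ Algebra.adjoin K (Set.range r), x ≠ 0 ∧ x.det = 0 := by
  by_contra! hne
  let A := Algebra.adjoin K (Set.range r)
  have : Finite A := (hfin.subset fun a (ha : a ∈ A) => (toSubmodule_adjoin_range (K := K) r ▸ ha :
    a ∈ Submodule.span K (Set.range r))).to_subtype
  have : NoZeroDivisors A := ⟨fun {a b} hab => by
    by_contra! h
    have h1 := congrArg (fun z : A => (z : Matrix (Fin 2) (Fin 2) L).det) hab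
    simp [Matrix.det_mul, hne _ a.2 (by simpa using h.1), hne _ b.2 (by simpa using h.2)] at h1⟩
  have : IsDomain A := NoZeroDivisors.to_isDomain A
  have hcomm : ∀ a b : A, a * b = b * a := (Finite.isDomain_to_isField A).mul_comm
  have key : ∀ a b : Matrix (Fin 2) (Fin 2) L, a * b = b * a := by
    intro a b
    have ha : a ∈ Submodule.span L (Set.range r) := hspan ▸ Submodule.mem_top
    induction ha using Submodule.span_induction generalizing b with
    | mem a ha =>
      obtain ⟨g, rfl⟩ := ha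
      have hb : b ∈ Submodule.span L (Set.range r) := hspan ▸ Submodule.mem_top
      induction hb using Submodule.span_induction with
      | mem b hb =>
        obtain ⟨h, rfl⟩ := hb
        exact congrArg Subtype.val (hcomm ⟨r g, Algebra.subset_adjoin ⟨g, rfl⟩⟩
          ⟨r h, Algebra.subset_adjoin ⟨h, rfl⟩⟩)
      | zero => simp
      | add x y _ _ hx hy => rw [mul_add, add_mul, hx, hy]
      | smul c x _ hx => rw [mul_smul_comm, smul_mul_assoc, hx]
    | zero => simp
    | add x y _ _ hx hy => rw [mul_add, add_mul, hx, hy]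
    | smul c x _ hx => rw [mul_smul_comm, smul_mul_assoc, hx]
  have := congrFun (congrFun (key !![0, 1; 0, 0] !![0, 0; 1, 0]) 0) 0
  simp [Matrix.mul_apply] at this

end FermatAgent.GalRep
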